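/-
The dictionary between functions on the upper half plane and Laurent series in
`q = exp (2 π i τ / h)`.
-/
import Fermat.Prelude.Def_ModularCurve_X0
import Mathlib.NumberTheory.ModularForms.QExpansion
import Mathlib.Analysis.Meromorphic.NormalForm
import Mathlib.RingTheory.RootsOfUnity.Complex

set_option autoImplicit false

noncomputable section

open Filter Function UpperHalfPlane Complex ModularCurve
open scoped Topology Manifold Real

namespace Fermat.Agent.ModFun

local notation "𝕢" => Function.Periodic.qParam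

/-- `HasQExp h f x`: near the cusp `i∞` the function `f` is the sum of the Laurent series `x` in
the variable `q_h = exp (2 π i τ / h)`. -/
def HasQExp (h : ℕ) (f : ℍ → ℂ) (x : LaurentSeries ℂ) : Prop :=
  ∀ᶠ τ : ℍ in atImInfty, HasSum (fun k : ℤ => x.coeff k * 𝕢 (h : ℝ) (τ : ℂ) ^ k) (f τ)

/-- Multiply the `k`-th coefficient by `u ^ k`. -/
def twist (u : ℂˣ) : LaurentSeries ℂ →+* LaurentSeries ℂ where
  toFun x :=
    { coeff := fun k => ((u ^ k : ℂˣ) : ℂ) * x.coeff k
      isPWO_support' := x.isPWO_support'.mono fun k hk h0 => hk (by simp [h0]) }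
  map_one' := by
    ext k
    by_cases hk : k = 0
    · subst hk; simp
    · simp [HahnSeries.coeff_one, hk]
  map_mul' x y := by
    have hsupp : ∀ z : LaurentSeries ℂ,
        Function.support (fun k => ((u ^ k : ℂˣ) : ℂ) * z.coeff k) = z.support := fun z => by
      ext k; simp [HahnSeries.mem_support, zpow_ne_zero]
    ext k
    rw [HahnSeries.coeff_mul]
    show ((u ^ k : ℂˣ) : ℂ) * (x * y).coeff k = _
    rw [HahnSeries.coeff_mul, Finset.mul_sum]
    refine Finset.sum_congr ?_ fun ij hij => ?_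
    · ext ij
      simp [Finset.mem_addAntidiagonal, HahnSeries.mem_support, zpow_ne_zero]
    · have hij' : ij.1 + ij.2 = k := by
        simp only [Finset.mem_addAntidiagonal] at hij
        exact hij.2.2
      show _ = (((u ^ ij.1 : ℂˣ) : ℂ) * x.coeff ij.1) * (((u ^ ij.2 : ℂˣ) : ℂ) * y.coeff ij.2)
      rw [← hij', zpow_add, Units.val_mul]
      ring
  map_zero' := by ext k; simp
  map_add' x y := by ext k; simp [mul_add]

theorem twist_coeff (u : ℂˣ) (x : LaurentSeries ℂ) (k : ℤ) :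
    (twist u x).coeff k = (u : ℂ) ^ k * x.coeff k := by
  simp [twist]

/-- The root of unity `exp (2 π i / n)`. -/
def zetaU (n : ℕ) : ℂˣ := Units.mk0 (Complex.exp (2 * π * Complex.I / n)) (Complex.exp_ne_zero _)

theorem zetaU_ne_zero (n : ℕ) : (zetaU n : ℂ) ≠ 0 := Complex.exp_ne_zero _

theorem isPrimitiveRoot_zetaU (n : ℕ) [NeZero n] : IsPrimitiveRoot (zetaU n : ℂ) n :=
  Complex.isPrimitiveRoot_exp n (NeZero.ne n)

/-- `τ ↦ (a τ + b) / d`, for positive `a`, `d`. -/
def triPoint (a b d : ℕ) [NeZero a] [NeZero d] (τ : ℍ) : ℍ :=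
  ⟨((a : ℂ) * τ + b) / d, by
    have ha : (0 : ℝ) < a := Nat.cast_pos.2 (NeZero.pos a)
    have hd : (0 : ℝ) < d := Nat.cast_pos.2 (NeZero.pos d)
    rw [Complex.div_natCast_im]
    simpa using div_pos (mul_pos ha τ.im_pos) hd⟩

theorem coe_triPoint (a b d : ℕ) [NeZero a] [NeZero d] (τ : ℍ) :
    (triPoint a b d τ : ℂ) = ((a : ℂ) * τ + b) / d := rfl

theorem triPoint_im (a b d : ℕ) [NeZero a] [NeZero d] (τ : ℍ) :
    (triPoint a b d τ).im = a * τ.im / d := by
  rw [← UpperHalfPlane.coe_im, coe_triPoint, Complex.div_natCast_im]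
  simp

theorem tendsto_triPoint_atImInfty (a b d : ℕ) [NeZero a] [NeZero d] :
    Tendsto (triPoint a b d) atImInfty atImInfty := by
  have ha : (0 : ℝ) < a := Nat.cast_pos.2 (NeZero.pos a)
  have hd : (0 : ℝ) < d := Nat.cast_pos.2 (NeZero.pos d)
  rw [atImInfty, tendsto_comap_iff]
  have : (UpperHalfPlane.im ∘ triPoint a b d) = fun τ : ℍ => (a : ℝ) * τ.im / d := by
    funext τ; exact triPoint_im a b d τ
  rw [this]
  exact ((tendsto_comap (f := UpperHalfPlane.im)).const_mul_atTop ha).atTop_div_const hd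

section PSum

variable {h : ℕ}

/-- The sum of a power series. -/
def psum (p : PowerSeries ℂ) (q : ℂ) : ℂ := ∑' m, p.coeff m * q ^ m

theorem psum_zero_right (p : PowerSeries ℂ) : psum p 0 = p.coeff 0 := by
  rw [psum, tsum_eq_single 0 fun m hm => by simp [zero_pow hm]]
  simp

theorem qParam_ne (h : ℝ) (τ : ℍ) : 𝕢 h (τ : ℂ) ≠ 0 := Periodic.qParam_ne_zero _

theorem eventually_nhdsNE_of_atImInfty [NeZero h] {P : ℂ → Prop}
    (hP : ∀ᶠ τ : ℍ in atImInfty, P (𝕢 (h : ℝ) (τ : ℂ))) : ∀ᶠ q in 𝓝[≠] (0 : ℂ), P q := by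
  have hh : (0 : ℝ) < h := Nat.cast_pos.2 (NeZero.pos h)
  have h1 := (tendsto_comap_im_ofComplex.comp (Periodic.invQParam_tendsto hh)).eventually hP
  have h2 : ∀ᶠ q in 𝓝[≠] (0 : ℂ), 0 < (Periodic.invQParam (h : ℝ) q).im :=
    (Periodic.invQParam_tendsto hh).eventually (preimage_mem_comap (Ioi_mem_atTop 0))
  filter_upwards [h1, h2, self_mem_nhdsWithin] with q hq hq2 hq0
  rwa [Function.comp_apply, ofComplex_apply_of_im_pos hq2,
    Periodic.qParam_right_inv hh.ne' hq0] at hq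

theorem hasFPowerSeriesAt_psum {p : PowerSeries ℂ}
    (hp : ∀ᶠ q in 𝓝[≠] (0 : ℂ), Summable fun m => p.coeff m * q ^ m) :
    HasFPowerSeriesAt (psum p)
      (FormalMultilinearSeries.ofScalars ℂ fun m => p.coeff m) 0 := by
  rw [hasFPowerSeriesAt_iff]
  rw [eventually_nhdsWithin_iff] at hp
  filter_upwards [hp] with z hz
  have hsum : Summable fun m => p.coeff m * z ^ m := by
    rcases eq_or_ne z 0 with rfl | hz0
    · exact summable_of_ne_finset_zero (s := {0}) fun m hm => by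
        simp [zero_pow (by simpa using hm : m ≠ 0)]
    · exact hz hz0
  rw [zero_add]
  refine hsum.hasSum.congr_fun fun m => ?_
  rw [FormalMultilinearSeries.coeff_ofScalars, smul_eq_mul, mul_comm]

theorem powerSeries_eq_zero_of_psum {p : PowerSeries ℂ}
    (hp : ∀ᶠ q in 𝓝[≠] (0 : ℂ), HasSum (fun m => p.coeff m * q ^ m) 0) : p = 0 := by
  have h1 := hasFPowerSeriesAt_psum (hp.mono fun q hq => hq.summable)
  have h2 : psum p =ᶠ[𝓝[≠] 0] (fun _ => (0 : ℂ)) := hp.mono fun q hq => hq.tsum_eq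
  have h3 : psum p =ᶠ[𝓝 0] (fun _ => (0 : ℂ)) :=
    (h1.continuousAt.eventuallyEq_nhds_iff_eventuallyEq_nhdsNE continuousAt_const).mp h2
  have h4 := (h1.congr h3).eq_zero
  ext m
  rw [FormalMultilinearSeries.ofScalars_series_eq_zero] at h4
  simpa using congrFun h4 m

/-- The power series part of `x` from exponent `n` on. -/
def shiftPS (n : ℤ) (x : LaurentSeries ℂ) : PowerSeries ℂ :=
  PowerSeries.mk fun m => x.coeff (n + m)

theorem coeff_single_mul_ofPS (n : ℤ) (p : PowerSeries ℂ) (m : ℕ) :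
    (HahnSeries.single n (1 : ℂ) * HahnSeries.ofPowerSeries ℤ ℂ p).coeff (n + m) = p.coeff m := by
  rw [HahnSeries.coeff_single_mul, one_mul, add_sub_cancel_left,
    HahnSeries.ofPowerSeries_apply_coeff]

theorem coeff_single_mul_ofPS_of_lt {n k : ℤ} (p : PowerSeries ℂ) (hk : k < n) :
    (HahnSeries.single n (1 : ℂ) * HahnSeries.ofPowerSeries ℤ ℂ p).coeff k = 0 := by
  rw [HahnSeries.coeff_single_mul, one_mul]
  exact ofPowerSeries_coeff_of_neg _ (by omega)

theorem eq_single_mul_shiftPS {n : ℤ} {x : LaurentSeries ℂ} (hn : ∀ k < n, x.coeff k = 0) :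
    x = HahnSeries.single n (1 : ℂ) * HahnSeries.ofPowerSeries ℤ ℂ (shiftPS n x) := by
  ext k
  rcases lt_or_ge k n with hk | hk
  · rw [coeff_single_mul_ofPS_of_lt _ hk, hn k hk]
  · obtain ⟨m, hm⟩ : ∃ m : ℕ, k = n + m := ⟨(k - n).toNat, by omega⟩
    subst hm
    rw [coeff_single_mul_ofPS, shiftPS, PowerSeries.coeff_mk]

theorem exists_eq_single_mul (x : LaurentSeries ℂ) :
    ∃ (n : ℤ) (p : PowerSeries ℂ),
      x = HahnSeries.single n (1 : ℂ) * HahnSeries.ofPowerSeries ℤ ℂ p :=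
  ⟨x.order, shiftPS x.order x,
    eq_single_mul_shiftPS fun _ hk => HahnSeries.coeff_eq_zero_of_lt_order hk⟩

theorem hasQExp_single_mul_iff {f : ℍ → ℂ} {n : ℤ} {p : PowerSeries ℂ} :
    HasQExp h f (HahnSeries.single n (1 : ℂ) * HahnSeries.ofPowerSeries ℤ ℂ p) ↔
      ∀ᶠ τ : ℍ in atImInfty, HasSum (fun m => p.coeff m * 𝕢 (h : ℝ) (τ : ℂ) ^ m)
        (f τ / 𝕢 (h : ℝ) (τ : ℂ) ^ n) := by
  refine eventually_congr (.of_forall fun τ => ?_)
  have hq : 𝕢 (h : ℝ) (τ : ℂ) ≠ 0 := qParam_ne _ τ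
  have hinj : Function.Injective fun m : ℕ => n + (m : ℤ) := fun a b hab => by simpa using hab
  rw [← hinj.hasSum_iff (fun k hk => by
    rw [coeff_single_mul_ofPS_of_lt p ?_, zero_mul]
    by_contra hc
    exact hk ⟨(k - n).toNat, by dsimp only; omega⟩)]
  simp only [Function.comp_def, coeff_single_mul_ofPS]
  conv_rhs => rw [← hasSum_mul_left_iff (zpow_ne_zero n hq), mul_div_cancel₀ _ (zpow_ne_zero n hq)]
  refine Iff.of_eq (congrArg (fun F => HasSum F _ _) (funext fun m => ?_))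
  rw [zpow_add₀ hq, zpow_natCast]
  ring

end PSum

theorem hasSum_reindex_iff (d : ℕ) [NeZero d] (x : LaurentSeries ℂ) (q v : ℂ) :
    HasSum (fun k : ℤ => (qExpand ℂ d x).coeff k * q ^ k) v ↔
      HasSum (fun k : ℤ => x.coeff k * (q ^ d) ^ k) v := by
  have hd : (d : ℤ) ≠ 0 := by exact_mod_cast NeZero.ne d
  rw [← (mul_right_injective₀ hd).hasSum_iff (fun k hk => by
    rw [qExpand_coeff_of_not_dvd d x fun ⟨c, hc⟩ => hk ⟨c, hc.symm⟩, zero_mul])]
  refine Iff.of_eq (congrArg (fun F => HasSum F _ _) (funext fun m => ?_))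
  simp only [Function.comp_apply, qExpand_coeff_mul]
  rw [zpow_mul, zpow_natCast]

theorem qParam_pow_natMul (h d : ℕ) [NeZero d] (z : ℂ) :
    𝕢 ((h * d : ℕ) : ℝ) z ^ d = 𝕢 (h : ℝ) z := by
  have hd : (d : ℂ) ≠ 0 := Nat.cast_ne_zero.2 (NeZero.ne d)
  rw [Periodic.qParam, Periodic.qParam, ← Complex.exp_nat_mul]
  congr 1
  push_cast
  field_simp

theorem hasSum_qExpand_iff (h d : ℕ) [NeZero d] (x : LaurentSeries ℂ) (τ : ℍ) (v : ℂ) :
    HasSum (fun k : ℤ => (qExpand ℂ d x).coeff k * 𝕢 ((h * d : ℕ) : ℝ) (τ : ℂ) ^ k) v ↔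
      HasSum (fun k : ℤ => x.coeff k * 𝕢 (h : ℝ) (τ : ℂ) ^ k) v := by
  rw [hasSum_reindex_iff, qParam_pow_natMul]

namespace HasQExp

variable {h : ℕ} {f g : ℍ → ℂ} {x y : LaurentSeries ℂ}

theorem congr (hf : HasQExp h f x) (he : f =ᶠ[atImInfty] g) : HasQExp h g x := by
  filter_upwards [hf, he] with τ h1 h2
  rwa [← h2]

theorem of_eq (hf : HasQExp h f x) (he : x = y) : HasQExp h f y := he ▸ hf

/-- The series is determined by the function. -/
theorem unique [NeZero h] (hf : HasQExp h f x) (hg : HasQExp h f y) : x = y := by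
  have hd : ∀ᶠ τ : ℍ in atImInfty,
      HasSum (fun k : ℤ => (x - y).coeff k * 𝕢 (h : ℝ) (τ : ℂ) ^ k) 0 := by
    filter_upwards [hf, hg] with τ h1 h2
    simpa [sub_mul] using h1.sub h2
  have hd' : HasQExp h 0 (x - y) := hd
  obtain ⟨n, p, hp⟩ := exists_eq_single_mul (x - y)
  rw [hp, hasQExp_single_mul_iff] at hd'
  simp only [Pi.zero_apply, zero_div] at hd'
  have hp0 : p = 0 := powerSeries_eq_zero_of_psum
    (eventually_nhdsNE_of_atImInfty (P := fun q => HasSum (fun m => p.coeff m * q ^ m) 0) hd')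
  rw [hp0, map_zero, mul_zero, sub_eq_zero] at hp
  exact hp

protected theorem add (hf : HasQExp h f x) (hg : HasQExp h g y) : HasQExp h (f + g) (x + y) := by
  filter_upwards [hf, hg] with τ h1 h2
  simpa [add_mul] using h1.add h2

protected theorem neg (hf : HasQExp h f x) : HasQExp h (-f) (-x) := by
  filter_upwards [hf] with τ h1
  simpa using h1.neg

protected theorem sub (hf : HasQExp h f x) (hg : HasQExp h g y) : HasQExp h (f - g) (x - y) := by
  filter_upwards [hf, hg] with τ h1 h2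
  simpa [sub_mul] using h1.sub h2

protected theorem mul [NeZero h] (hf : HasQExp h f x) (hg : HasQExp h g y) :
    HasQExp h (f * g) (x * y) := by
  obtain ⟨n, p, rfl⟩ := exists_eq_single_mul x
  obtain ⟨m, r, rfl⟩ := exists_eq_single_mul y
  rw [mul_mul_mul_comm, HahnSeries.single_mul_single, one_mul, ← map_mul, hasQExp_single_mul_iff]
  filter_upwards [hasQExp_single_mul_iff.1 hf, hasQExp_single_mul_iff.1 hg] with τ h1 h2
  have n1 := summable_norm_iff.2 h1.summable
  have n2 := summable_norm_iff.2 h2.summable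
  have hs := (summable_norm_sum_mul_antidiagonal_of_summable_norm n1 n2).of_norm.hasSum
  rw [← tsum_mul_tsum_eq_tsum_sum_antidiagonal_of_summable_norm n1 n2, h1.tsum_eq, h2.tsum_eq,
    div_mul_div_comm, ← zpow_add₀ (qParam_ne _ τ)] at hs
  refine hs.congr_fun fun k => ?_
  rw [PowerSeries.coeff_mul, Finset.sum_mul]
  refine Finset.sum_congr rfl fun ij hij => ?_
  rw [Finset.HasAntidiagonal.mem_antidiagonal] at hij
  rw [← hij, pow_add]
  ring

theorem const (c : ℂ) : HasQExp h (fun _ => c) (HahnSeries.C c) :=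
  Eventually.of_forall fun τ => by
    have hC : ∀ k : ℤ, (HahnSeries.C c : LaurentSeries ℂ).coeff k = if k = 0 then c else 0 :=
      fun k => by simp [HahnSeries.C_apply, HahnSeries.coeff_single]
    simp only [hC]
    convert hasSum_single (α := ℂ) (0 : ℤ) (fun k hk => ?_) using 1
    · simp
    · simp [hk]

protected theorem zero : HasQExp h 0 0 :=
  Eventually.of_forall fun τ => by simpa using hasSum_zero (α := ℂ) (β := ℤ)

protected theorem one : HasQExp h 1 1 := by
  have h1 := const (h := h) 1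
  rw [map_one] at h1
  exact h1

protected theorem const_mul (c : ℂ) (hf : HasQExp h f x) :
    HasQExp h (fun τ => c * f τ) (HahnSeries.C c * x) := by
  filter_upwards [hf] with τ h1
  simpa [HahnSeries.C_mul_eq_smul, mul_assoc] using h1.mul_left c

protected theorem pow [NeZero h] (hf : HasQExp h f x) (n : ℕ) : HasQExp h (f ^ n) (x ^ n) := by
  induction n with
  | zero => simpa using HasQExp.one
  | succ n ih => rw [pow_succ, pow_succ]; exact ih.mul hf

protected theorem sum {ι : Type*} {s : Finset ι} {F : ι → ℍ → ℂ} {X : ι → LaurentSeries ℂ}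
    (hF : ∀ i ∈ s, HasQExp h (F i) (X i)) : HasQExp h (∑ i ∈ s, F i) (∑ i ∈ s, X i) := by
  induction s using Finset.cons_induction with
  | empty => simpa using HasQExp.zero
  | cons a s ha ih =>
    rw [Finset.sum_cons, Finset.sum_cons]
    exact (hF a (by simp)).add (ih fun i hi => hF i (by simp [hi]))

protected theorem prod [NeZero h] {ι : Type*} {s : Finset ι} {F : ι → ℍ → ℂ}
    {X : ι → LaurentSeries ℂ}
    (hF : ∀ i ∈ s, HasQExp h (F i) (X i)) : HasQExp h (∏ i ∈ s, F i) (∏ i ∈ s, X i) := by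
  induction s using Finset.cons_induction with
  | empty => simpa using HasQExp.one
  | cons a s ha ih =>
    rw [Finset.prod_cons, Finset.prod_cons]
    exact (hF a (by simp)).mul (ih fun i hi => hF i (by simp [hi]))

theorem tendsto_qParam [NeZero h] :
    Tendsto (fun τ : ℍ => 𝕢 (h : ℝ) (τ : ℂ)) atImInfty (𝓝 0) :=
  qParam_tendsto_atImInfty (Nat.cast_pos.2 (NeZero.pos h))

/-- Near the cusp `f` is `q ^ n` times an analytic function of `q`. -/
theorem exists_psum [NeZero h] (hf : HasQExp h f x) {n : ℤ} (hn : ∀ k < n, x.coeff k = 0) :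
    AnalyticAt ℂ (psum (shiftPS n x)) 0 ∧
      ∀ᶠ τ : ℍ in atImInfty,
        f τ = 𝕢 (h : ℝ) (τ : ℂ) ^ n * psum (shiftPS n x) (𝕢 (h : ℝ) (τ : ℂ)) := by
  rw [eq_single_mul_shiftPS hn, hasQExp_single_mul_iff] at hf
  refine ⟨⟨_, hasFPowerSeriesAt_psum (eventually_nhdsNE_of_atImInfty
    (P := fun q => Summable fun m => (shiftPS n x).coeff m * q ^ m)
    (hf.mono fun τ h1 => h1.summable))⟩, ?_⟩
  filter_upwards [hf] with τ h1
  rw [psum, h1.tsum_eq, mul_div_cancel₀ _ (zpow_ne_zero n (qParam_ne _ τ))]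

theorem eventually_eq_zero (hf : HasQExp h f 0) : ∀ᶠ τ in atImInfty, f τ = 0 := by
  filter_upwards [hf] with τ h1
  exact h1.unique (by simpa using hasSum_zero (α := ℂ) (β := ℤ))

theorem psum_shiftPS_order_ne_zero (hx : x ≠ 0) : psum (shiftPS x.order x) 0 ≠ 0 := by
  rw [psum_zero_right, shiftPS, PowerSeries.coeff_mk, Nat.cast_zero, add_zero]
  exact fun h0 => hx (HahnSeries.coeff_order_eq_zero.1 h0)

theorem eventually_ne_zero [NeZero h] (hf : HasQExp h f x) (hx : x ≠ 0) :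
    ∀ᶠ τ in atImInfty, f τ ≠ 0 := by
  obtain ⟨ha, he⟩ := hf.exists_psum (n := x.order)
    fun k hk => HahnSeries.coeff_eq_zero_of_lt_order hk
  have h1 := (ha.continuousAt.tendsto.comp (tendsto_qParam (h := h))).eventually_ne
    (psum_shiftPS_order_ne_zero hx)
  filter_upwards [he, h1] with τ h2 h3
  rw [h2]
  exact mul_ne_zero (zpow_ne_zero _ (qParam_ne _ τ)) h3

/-- No hypothesis is needed: for `x = 0` both sides are eventually zero. -/
protected theorem inv [NeZero h] (hf : HasQExp h f x) : HasQExp h f⁻¹ x⁻¹ := by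
  rcases eq_or_ne x 0 with rfl | hx
  · rw [inv_zero]
    exact HasQExp.zero.congr (hf.eventually_eq_zero.mono fun τ hτ => by simp [hτ])
  obtain ⟨ha, he⟩ := hf.exists_psum (n := x.order)
    fun k hk => HahnSeries.coeff_eq_zero_of_lt_order hk
  obtain ⟨P, hP⟩ := ha.inv (psum_shiftPS_order_ne_zero hx)
  rw [hasFPowerSeriesAt_iff] at hP
  set r : PowerSeries ℂ := PowerSeries.mk fun m => P.coeff m with hr
  have hy : HasQExp h f⁻¹
      (HahnSeries.single (-x.order) (1 : ℂ) * HahnSeries.ofPowerSeries ℤ ℂ r) := by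
    rw [hasQExp_single_mul_iff]
    filter_upwards [he, (tendsto_qParam (h := h)).eventually hP] with τ h2 h3
    rw [Pi.inv_apply, h2, zpow_neg, mul_inv, mul_div_cancel_left₀ _
      (inv_ne_zero (zpow_ne_zero _ (qParam_ne _ τ)))]
    simpa [hr, mul_comm] using h3
  have h1 : HasQExp h (f * f⁻¹) 1 :=
    HasQExp.one.congr ((hf.eventually_ne_zero hx).mono fun τ hτ => by simp [hτ])
  rw [inv_eq_of_mul_eq_one_right ((hf.mul hy).unique h1)]
  exact hy

protected theorem div [NeZero h] (hf : HasQExp h f x) (hg : HasQExp h g y) :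
    HasQExp h (f / g) (x / y) := by
  rw [div_eq_mul_inv, div_eq_mul_inv]
  exact hf.mul hg.inv

theorem eventually_analyticAt [NeZero h] (hf : HasQExp h f x) :
    ∀ᶠ τ : ℍ in atImInfty, AnalyticAt ℂ (f ∘ ofComplex) (τ : ℂ) := by
  obtain ⟨ha, he⟩ := hf.exists_psum (n := x.order)
    fun k hk => HahnSeries.coeff_eq_zero_of_lt_order hk
  obtain ⟨A, hA⟩ := (atImInfty_mem _).1
    (he.and ((tendsto_qParam (h := h)).eventually ha.eventually_analyticAt))
  rw [Filter.Eventually, atImInfty_mem]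
  refine ⟨A + 1, fun τ hτ => ?_⟩
  show AnalyticAt ℂ (f ∘ ofComplex) (τ : ℂ)
  have hq : AnalyticAt ℂ (fun z => 𝕢 (h : ℝ) z) (τ : ℂ) :=
    Periodic.differentiable_qParam.analyticAt _
  have hmain : AnalyticAt ℂ
      (fun z => 𝕢 (h : ℝ) z ^ x.order * psum (shiftPS x.order x) (𝕢 (h : ℝ) z)) (τ : ℂ) :=
    (hq.fun_zpow (qParam_ne _ τ)).mul ((hA τ (by linarith)).2.comp' hq)
  refine hmain.congr ?_
  have hopen : {z : ℂ | A < z.im ∧ 0 < z.im} ∈ 𝓝 (τ : ℂ) :=
    ((isOpen_lt continuous_const Complex.continuous_im).inter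
      (isOpen_lt continuous_const Complex.continuous_im)).mem_nhds
      ⟨show A < (τ : ℂ).im by rw [UpperHalfPlane.coe_im]; linarith, τ.im_pos⟩
  filter_upwards [hopen] with z hz
  rw [Function.comp_apply, ofComplex_apply_of_im_pos hz.2]
  exact ((hA ⟨z, hz.2⟩ (le_of_lt hz.1)).1).symm

/-- The value at the cusp. -/
theorem tendsto_coeff_zero [NeZero h] (hf : HasQExp h f x) (hx : ∀ k < 0, x.coeff k = 0) :
    Tendsto f atImInfty (𝓝 (x.coeff 0)) := by
  obtain ⟨ha, he⟩ := hf.exists_psum hx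
  have h1 := ha.continuousAt.tendsto.comp (tendsto_qParam (h := h))
  rw [psum_zero_right, shiftPS, PowerSeries.coeff_mk, Nat.cast_zero, add_zero] at h1
  refine h1.congr' ?_
  filter_upwards [he] with τ hτ
  rw [hτ, zpow_zero, one_mul, Function.comp_apply, shiftPS]

theorem isBoundedAtImInfty [NeZero h] (hf : HasQExp h f x) (hx : ∀ k < 0, x.coeff k = 0) :
    IsBoundedAtImInfty f :=
  (hf.tendsto_coeff_zero hx).isBigO_one ℝ

theorem isZeroAtImInfty [NeZero h] (hf : HasQExp h f x) (hx : ∀ k ≤ 0, x.coeff k = 0) :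
    IsZeroAtImInfty f := by
  have h1 := hf.tendsto_coeff_zero fun k hk => hx k hk.le
  rw [hx 0 le_rfl] at h1
  exact h1

theorem tendsto_norm_atTop [NeZero h] (hf : HasQExp h f x) {k : ℤ} (hk : k < 0)
    (hxk : x.coeff k ≠ 0) : Tendsto (fun τ => ‖f τ‖) atImInfty atTop := by
  have hx : x ≠ 0 := fun h0 => hxk (by simp [h0])
  obtain ⟨ha, he⟩ := hf.exists_psum (n := x.order)
    fun k hk => HahnSeries.coeff_eq_zero_of_lt_order hk
  have hord : x.order < 0 := lt_of_le_of_lt (HahnSeries.order_le_of_coeff_ne_zero hxk) hk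
  obtain ⟨m, hm, hm0⟩ : ∃ m : ℕ, x.order = -(m : ℤ) ∧ m ≠ 0 :=
    ⟨(-x.order).toNat, by omega, by omega⟩
  have hq : Tendsto (fun τ : ℍ => 𝕢 (h : ℝ) (τ : ℂ)) atImInfty (𝓝[≠] 0) :=
    tendsto_nhdsWithin_iff.2 ⟨tendsto_qParam, .of_forall fun τ => qParam_ne _ τ⟩
  have hqn : Tendsto (fun τ : ℍ => (‖𝕢 (h : ℝ) (τ : ℂ)‖⁻¹) ^ m) atImInfty atTop :=
    (tendsto_pow_atTop hm0).comp (tendsto_inv_nhdsGT_zero.comp
      (tendsto_norm_nhdsNE_zero.comp hq))
  have hg := ((ha.continuousAt.tendsto.comp (tendsto_qParam (h := h))).norm)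
  refine (hqn.atTop_mul_pos (norm_pos_iff.2 (psum_shiftPS_order_ne_zero hx)) hg).congr' ?_
  filter_upwards [he] with τ hτ
  rw [hτ, norm_mul, hm, zpow_neg, zpow_natCast, norm_inv, norm_pow, inv_pow, Function.comp_apply]

/-- Change of period: `q_h = q_{hd} ^ d`. -/
theorem expand_period (d : ℕ) [NeZero d] [NeZero h] (hf : HasQExp h f x) :
    HasQExp (h * d) f (qExpand ℂ d x) := by
  filter_upwards [hf] with τ h1
  exact (hasSum_qExpand_iff h d x τ _).2 h1

theorem of_expand_period (d : ℕ) [NeZero d] [NeZero h] (hf : HasQExp (h * d) f (qExpand ℂ d x)) :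
    HasQExp h f x := by
  filter_upwards [hf] with τ h1
  exact (hasSum_qExpand_iff h d x τ _).1 h1

/-- An expansion in period `h * d` of an `h`-periodic function only involves powers of `q_h`. -/
theorem exists_of_periodic (d : ℕ) [NeZero d] [NeZero h] (hf : HasQExp (h * d) f x)
    (hper : ∀ᶠ τ : ℍ in atImInfty, f ((h : ℝ) +ᵥ τ) = f τ) :
    ∃ y, x = qExpand ℂ d y ∧ HasQExp h f y := by
  have : NeZero (h * d) := ⟨mul_ne_zero (NeZero.ne h) (NeZero.ne d)⟩
  have hshift : Tendsto (fun τ : ℍ => ((h : ℝ) +ᵥ τ)) atImInfty atImInfty := by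
    rw [atImInfty, tendsto_comap_iff]
    have : (UpperHalfPlane.im ∘ fun τ : ℍ => (h : ℝ) +ᵥ τ) = UpperHalfPlane.im := by
      funext τ; simp
    rw [this]; exact tendsto_comap
  have htw : HasQExp (h * d) f (twist (zetaU d) x) := by
    filter_upwards [hshift.eventually hf, hper] with τ h1 h2
    rw [h2] at h1
    refine h1.congr_fun fun k => ?_
    have hq : 𝕢 ((h * d : ℕ) : ℝ) (((h : ℝ) +ᵥ τ : ℍ) : ℂ) =
        (zetaU d : ℂ) * 𝕢 ((h * d : ℕ) : ℝ) (τ : ℂ) := by
      have hh : (h : ℂ) ≠ 0 := Nat.cast_ne_zero.2 (NeZero.ne h)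
      have hd : (d : ℂ) ≠ 0 := Nat.cast_ne_zero.2 (NeZero.ne d)
      simp only [zetaU, Units.val_mk0, Periodic.qParam, ← Complex.exp_add, coe_vadd]
      congr 1
      push_cast
      field_simp
    rw [hq, twist_coeff, mul_zpow]
    ring
  have hxx := htw.unique hf
  have hzero : ∀ k : ℤ, ¬ (d : ℤ) ∣ k → x.coeff k = 0 := by
    intro k hk
    have h1 := congrArg (fun z : LaurentSeries ℂ => z.coeff k) hxx
    simp only [twist_coeff] at h1
    by_contra hc
    exact hk (((isPrimitiveRoot_zetaU d).zpow_eq_one_iff_dvd k).1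
      (mul_eq_right₀ hc |>.1 h1))
  have hd : (0 : ℤ) < d := by exact_mod_cast NeZero.pos d
  have hbdd : BddBelow (Function.support fun k : ℤ => x.coeff (d * k)) := by
    refine ⟨min x.order 0, fun k hk => ?_⟩
    have hk' := HahnSeries.order_le_of_coeff_ne_zero (Function.mem_support.1 hk)
    rcases le_or_gt 0 k with h0 | h0
    · exact le_trans (min_le_right _ _) h0
    · exact le_trans (min_le_left _ _) (hk'.trans (by nlinarith))
  have hxy : x = qExpand ℂ d (HahnSeries.ofSuppBddBelow _ hbdd) := by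
    ext k
    by_cases hk : (d : ℤ) ∣ k
    · obtain ⟨m, rfl⟩ := hk
      rw [qExpand_coeff_mul, HahnSeries.coeff_ofSuppBddBelow]
    · rw [qExpand_coeff_of_not_dvd d _ hk, hzero k hk]
  exact ⟨_, hxy, of_expand_period d (hxy ▸ hf)⟩

/-- `τ ↦ f (d τ)`. -/
theorem comp_mul (d : ℕ) [NeZero d] [NeZero h] (hf : HasQExp h f x) :
    HasQExp h (fun τ => f (triPoint d 0 1 τ)) (qExpand ℂ d x) := by
  filter_upwards [(tendsto_triPoint_atImInfty d 0 1).eventually hf] with τ h1
  rw [hasSum_reindex_iff]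
  refine h1.congr_fun fun k => ?_
  congr 2
  rw [Periodic.qParam, Periodic.qParam, ← Complex.exp_nat_mul, coe_triPoint]
  congr 1
  push_cast
  ring

/-- `τ ↦ f ((a τ + b) / d)` for a function of period one, in the variable `q_d`. -/
theorem comp_triPoint (a b d : ℕ) [NeZero a] [NeZero d] (hf : HasQExp 1 f x) :
    HasQExp d (fun τ => f (triPoint a b d τ)) (qExpand ℂ a (twist (zetaU d ^ b) x)) := by
  filter_upwards [(tendsto_triPoint_atImInfty a b d).eventually hf] with τ h1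
  rw [hasSum_reindex_iff]
  refine h1.congr_fun fun k => ?_
  have hq : 𝕢 ((1 : ℕ) : ℝ) (triPoint a b d τ : ℂ) =
      ((zetaU d ^ b : ℂˣ) : ℂ) * 𝕢 (d : ℝ) (τ : ℂ) ^ a := by
    simp only [Units.val_pow_eq_pow_val, zetaU, Units.val_mk0, Periodic.qParam, coe_triPoint,
      ← Complex.exp_nat_mul, ← Complex.exp_add]
    congr 1
    push_cast
    ring
  rw [hq, twist_coeff, mul_zpow]
  ring

end HasQExp

/-- A periodic holomorphic function bounded at infinity is the sum of its `q`-expansion. -/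
theorem hasQExp_qExpansion {h : ℕ} [NeZero h] {f : ℍ → ℂ}
    (hper : Periodic (f ∘ ofComplex) (h : ℝ)) (hhol : MDiff f) (hbdd : IsBoundedAtImInfty f) :
    HasQExp h f (HahnSeries.ofPowerSeries ℤ ℂ (qExpansion (h : ℝ) f)) := by
  have h1 : HasQExp h f (HahnSeries.single 0 (1 : ℂ) *
      HahnSeries.ofPowerSeries ℤ ℂ (qExpansion (h : ℝ) f)) := by
    rw [hasQExp_single_mul_iff]
    refine .of_forall fun τ => ?_
    simpa [smul_eq_mul] using
      τ.hasSum_qExpansion (Nat.cast_pos.2 (NeZero.pos h)) hper hhol hbdd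
  simpa using h1

end Fermat.Agent.ModFun

end
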