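/-
The modular invariant `j` on the upper half plane.
-/
import Fermat.Agent.ModFun.QExp
import Fermat.Prelude.Def_ModularCurve_X0ModL
import Fermat.Prelude.Def_ModularForm_HeckeOperator
import Mathlib.NumberTheory.ModularForms.LevelOne.GradedRing
import Mathlib.NumberTheory.ModularForms.ProperlyDiscontinuous
import Mathlib.Analysis.Complex.OpenMapping
import Mathlib.Analysis.Calculus.InverseFunctionTheorem.Deriv
import Mathlib.Analysis.Normed.Module.Connected
import Mathlib.RingTheory.Algebraic.Basic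

set_option autoImplicit false

noncomputable section

set_option maxHeartbeats 400000

open Filter Function UpperHalfPlane Complex ModularCurve
open scoped Topology Manifold MatrixGroups ModularForm PowerSeries.WithPiTopology

namespace Fermat.Agent.ModFun

/-- The modular invariant `j = E₄ ^ 3 / Δ`. -/
def jfun (τ : ℍ) : ℂ := ModularForm.E₄ τ ^ 3 / ModularForm.discriminant τ

/-- `τ ↦ j (d τ)`. -/
def jNfun (d : ℕ) (τ : ℍ) : ℂ := jfun (ModularForm.heckeDiagMatrix d • τ)

theorem heckeDiagMatrix_smul_eq_triPoint (d : ℕ) [NeZero d] (τ : ℍ) :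
    ModularForm.heckeDiagMatrix d • τ = triPoint d 0 1 τ := by
  apply UpperHalfPlane.ext
  rw [ModularForm.coe_heckeDiagMatrix_smul (NeZero.ne d), coe_triPoint]
  simp

theorem mdifferentiable_jfun : MDiff jfun := by
  have h1 := UpperHalfPlane.mdifferentiable_iff.1 ModularForm.E₄.holo'
  have h2 := UpperHalfPlane.mdifferentiable_iff.1 CuspForm.discriminant.holo'
  rw [UpperHalfPlane.mdifferentiable_iff]
  exact (h1.pow 3).div h2 fun z _ => ModularForm.discriminant_ne_zero _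

theorem analyticOnNhd_jfun : AnalyticOnNhd ℂ (jfun ∘ ofComplex) upperHalfPlaneSet :=
  (UpperHalfPlane.mdifferentiable_iff.1 mdifferentiable_jfun).analyticOnNhd
    isOpen_upperHalfPlaneSet

theorem continuous_jfun : Continuous jfun := mdifferentiable_jfun.continuous

theorem mdifferentiable_jNfun (d : ℕ) [NeZero d] : MDiff (jNfun d) :=
  mdifferentiable_jfun.comp (UpperHalfPlane.mdifferentiable_smul
    (ModularForm.det_heckeDiagMatrix_pos d))

theorem jfun_smul (γ : SL(2, ℤ)) (τ : ℍ) : jfun (γ • τ) = jfun τ := by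
  have h4 := congrFun (SlashInvariantForm.slash_action_eqn ModularForm.E₄
    (Matrix.SpecialLinearGroup.mapGL ℝ γ) ⟨γ, rfl⟩) τ
  have h12 := congrFun (SlashInvariantForm.slash_action_eqn CuspForm.discriminant
    (Matrix.SpecialLinearGroup.mapGL ℝ γ) ⟨γ, rfl⟩) τ
  change (⇑ModularForm.E₄ ∣[(4 : ℤ)] γ) τ = _ at h4
  change (⇑CuspForm.discriminant ∣[(12 : ℤ)] γ) τ = _ at h12
  rw [ModularForm.SL_slash_apply] at h4 h12
  have hd : denom γ τ ≠ 0 := denom_ne_zero γ τ
  rw [zpow_neg, mul_inv_eq_iff_eq_mul₀ (zpow_ne_zero _ hd)] at h4 h12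
  rw [CuspForm.coe_discriminant] at h12
  simp only [jfun]
  rw [h4, h12, mul_pow, ← zpow_natCast (denom γ τ ^ (4 : ℤ)) 3, ← zpow_mul]
  norm_num
  rw [mul_div_mul_right _ _ (pow_ne_zero _ hd)]

theorem jNfun_smul (N : ℕ) [NeZero N] {γ : SL(2, ℤ)} (hγ : γ ∈ CongruenceSubgroup.Gamma0 N)
    (τ : ℍ) : jNfun N (γ • τ) = jNfun N τ := by
  rw [CongruenceSubgroup.Gamma0_mem, ZMod.intCast_zmod_eq_zero_iff_dvd] at hγ
  obtain ⟨c, hc⟩ := hγ
  have hdet := γ.det_coe
  rw [Matrix.det_fin_two, hc] at hdet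
  let γ' : SL(2, ℤ) := ⟨!![γ 0 0, N * γ 0 1; c, γ 1 1], by
    rw [Matrix.det_fin_two_of]; linarith⟩
  have key : ModularForm.heckeDiagMatrix N • γ • τ = γ' • ModularForm.heckeDiagMatrix N • τ := by
    apply UpperHalfPlane.ext
    rw [ModularForm.coe_heckeDiagMatrix_smul (NeZero.ne N), coe_specialLinearGroup_apply,
      coe_specialLinearGroup_apply, ModularForm.coe_heckeDiagMatrix_smul (NeZero.ne N)]
    simp only [γ', hc, algebraMap_int_eq, eq_intCast, Matrix.of_apply, Matrix.cons_val',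
      Matrix.cons_val_zero, Matrix.cons_val_one, Matrix.cons_val_fin_one]
    push_cast
    rw [← mul_div_assoc]
    ring_nf
  rw [jNfun, key, jfun_smul, jNfun]

theorem qExpansion_E₄ :
    qExpansion 1 ModularForm.E₄ = eisenstein4.map (Int.castRingHom ℂ) := by
  ext m
  rw [EisensteinSeries.E_qExpansion_coeff _ ⟨2, rfl⟩, PowerSeries.coeff_map, eisenstein4,
    PowerSeries.coeff_mk]
  rcases eq_or_ne m 0 with rfl | hm
  · simp
  · rw [if_neg hm, if_neg hm, bernoulli_eq_bernoulli'_of_ne_one (by norm_num), bernoulli'_four]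
    simp [ArithmeticFunction.sigma_apply]
    norm_num

section EtaProduct

theorem coeff_etaProd_tendsto (m : ℕ) :
    Tendsto (fun n => (((∏ i ∈ Finset.range n,
        (1 - Polynomial.X ^ (i + 1) : Polynomial ℤ)).coeff m : ℤ) : ℂ))
      atTop (𝓝 ((etaProd.coeff m : ℤ) : ℂ)) := by
  have h1 := (PowerSeries.WithPiTopology.multipliable_one_sub_X_pow ℤ).hasProd.tendsto_prod_nat
  have h2 := ((PowerSeries.WithPiTopology.continuous_coeff ℤ m).tendsto _).comp h1
  refine ((continuous_of_discreteTopology (f := fun k : ℤ => (k : ℂ))).tendsto _).comp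
    (h2.congr fun n => ?_)
  rw [← Polynomial.coeff_coe, ← Polynomial.coeToPowerSeries.ringHom_apply, map_prod]
  simp [Polynomial.coeToPowerSeries.ringHom]

theorem iteratedDeriv_polynomial_eval_eq (P : Polynomial ℂ) (n : ℕ) :
    iteratedDeriv n (fun z => P.eval z) = fun z => (Polynomial.derivative^[n] P).eval z := by
  induction n with
  | zero => simp
  | succ n ih =>
    rw [iteratedDeriv_succ, ih, Function.iterate_succ_apply']
    funext z
    exact Polynomial.deriv _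

theorem iteratedDeriv_polynomial_eval (P : Polynomial ℂ) (m : ℕ) :
    iteratedDeriv m (fun z => P.eval z) 0 = m.factorial * P.coeff m := by
  rw [iteratedDeriv_polynomial_eval_eq]
  dsimp only
  rw [← Polynomial.coeff_zero_eq_eval_zero, Polynomial.coeff_iterate_derivative, zero_add,
    Nat.descFactorial_self, nsmul_eq_mul]

theorem iteratedDeriv_etaTprod (m : ℕ) :
    iteratedDeriv m (fun q : ℂ => ∏' n, (1 - q ^ (n + 1))) 0 =
      (m.factorial : ℂ) * ((etaProd.coeff m : ℤ) : ℂ) := by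
  set F : ℕ → ℂ → ℂ := fun n z => ((∏ i ∈ Finset.range n,
      (1 - Polynomial.X ^ (i + 1) : Polynomial ℤ)).map (Int.castRingHom ℂ)).eval z with hF
  set E : ℂ → ℂ := fun q => ∏' n, (1 - q ^ (n + 1)) with hE
  have h0 : TendstoLocallyUniformlyOn F E atTop (Metric.ball 0 1) := by
    have := ModularForm.multipliableLocallyUniformlyOn_one_sub_pow.hasProdLocallyUniformlyOn
      |>.tendstoLocallyUniformlyOn_finsetRange
    refine this.congr fun n z _ => ?_
    simp [hF, Polynomial.eval_prod, Polynomial.map_prod]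
  have h : ∀ k, TendstoLocallyUniformlyOn (fun n => iteratedDeriv k (F n)) (iteratedDeriv k E)
      atTop (Metric.ball 0 1) := by
    intro k
    induction k with
    | zero => simpa using h0
    | succ k ih =>
      simp only [iteratedDeriv_succ]
      refine ih.deriv (.of_forall fun n => ?_) Metric.isOpen_ball
      simp only [hF, iteratedDeriv_polynomial_eval_eq]
      exact (Polynomial.differentiable _).differentiableOn
  have h1 := (h m).tendsto_at (Metric.mem_ball_self one_pos)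
  simp only [hF, iteratedDeriv_polynomial_eval, Polynomial.coeff_map, eq_intCast] at h1
  exact tendsto_nhds_unique h1 ((coeff_etaProd_tendsto m).const_mul _)

theorem hasQExp_etaTprod :
    HasQExp 1 (fun τ => ∏' n, (1 - Periodic.qParam 1 (τ : ℂ) ^ (n + 1)))
      (HahnSeries.ofPowerSeries ℤ ℂ (etaProd.map (Int.castRingHom ℂ))) := by
  have h1 : HasQExp 1 (fun τ => ∏' n, (1 - Periodic.qParam 1 (τ : ℂ) ^ (n + 1)))
      (HahnSeries.single 0 (1 : ℂ) *
        HahnSeries.ofPowerSeries ℤ ℂ (etaProd.map (Int.castRingHom ℂ))) := by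
    rw [hasQExp_single_mul_iff]
    refine .of_forall fun τ => ?_
    have hq : Periodic.qParam 1 (τ : ℂ) ∈ Metric.ball (0 : ℂ) 1 := by
      simpa using Periodic.norm_qParam_lt_one one_pos τ.im_pos
    have h2 := Complex.hasSum_taylorSeries_on_ball
      ModularForm.differentiableOn_tprod_one_sub_pow hq
    simp only [Nat.cast_one, zpow_zero, div_one]
    refine h2.congr_fun fun m => ?_
    rw [iteratedDeriv_etaTprod, PowerSeries.coeff_map]
    have hm : (m.factorial : ℂ) ≠ 0 := Nat.cast_ne_zero.2 m.factorial_ne_zero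
    simp only [sub_zero, smul_eq_mul, eq_intCast]
    field_simp
  simpa using h1

theorem hasQExp_qParam_mul_pow {E : ℍ → ℂ} {P : PowerSeries ℤ}
    (hE : HasQExp 1 E (HahnSeries.ofPowerSeries ℤ ℂ (P.map (Int.castRingHom ℂ)))) :
    HasQExp 1 ((fun τ : ℍ => Periodic.qParam 1 (τ : ℂ)) * E ^ 24)
      (HahnSeries.ofPowerSeries ℤ ℂ (PowerSeries.X * (P ^ 24).map (Int.castRingHom ℂ))) := by
  have hq : HasQExp 1 (fun τ : ℍ => Periodic.qParam 1 (τ : ℂ)) (HahnSeries.single 1 1) := by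
    refine .of_forall fun τ => ?_
    simp only [Nat.cast_one, HahnSeries.coeff_single]
    convert hasSum_single (α := ℂ) (1 : ℤ) (fun k hk => ?_) using 1
    · simp
    · simp [hk]
  refine (hq.mul (hE.pow 24)).of_eq ?_
  simp only [map_mul, map_pow, HahnSeries.ofPowerSeries_X]

theorem discriminant_eq_qParam_mul_pow :
    (fun τ : ℍ => Periodic.qParam 1 (τ : ℂ)) *
        (fun τ : ℍ => ∏' n : ℕ, (1 - Periodic.qParam 1 (τ : ℂ) ^ (n + 1))) ^ 24 =
      ModularForm.discriminant := by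
  funext τ
  have hpow := (ModularForm.multipliable_one_sub_pow
    (Periodic.norm_qParam_lt_one one_pos τ.im_pos)).tprod_pow 24
  rw [ModularForm.discriminant_eq_q_prod, Pi.mul_apply, Pi.pow_apply]
  exact congrArg (fun z => Periodic.qParam 1 (τ : ℂ) * z) hpow.symm

theorem hasQExp_discriminant :
    HasQExp 1 ModularForm.discriminant
      (HahnSeries.ofPowerSeries ℤ ℂ
        (PowerSeries.X * dedekindEtaUnit.map (Int.castRingHom ℂ))) :=
  discriminant_eq_qParam_mul_pow ▸ hasQExp_qParam_mul_pow hasQExp_etaTprod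

end EtaProduct

theorem qExpansion_discriminant :
    qExpansion 1 ModularForm.discriminant =
      PowerSeries.X * dedekindEtaUnit.map (Int.castRingHom ℂ) := by
  have h := hasQExp_qExpansion (h := 1) (f := ModularForm.discriminant)
    (by
      rw [Nat.cast_one]
      exact SlashInvariantFormClass.periodic_comp_ofComplex (Γ := 𝒮ℒ) (h := (1 : ℝ)) (k := 12)
        CuspForm.discriminant one_mem_strictPeriods_SL)
    CuspForm.discriminant.holo'
    ModularForm.discriminant_isZeroAtImInfty.isBoundedAtImInfty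
  rw [Nat.cast_one] at h
  exact HahnSeries.ofPowerSeries_injective (h.unique hasQExp_discriminant)

theorem hasQExp_E₄ :
    HasQExp 1 ModularForm.E₄
      (HahnSeries.ofPowerSeries ℤ ℂ (eisenstein4.map (Int.castRingHom ℂ))) := by
  have h := hasQExp_qExpansion (h := 1) (f := ⇑ModularForm.E₄)
    (by
      rw [Nat.cast_one]
      exact SlashInvariantFormClass.periodic_comp_ofComplex (Γ := 𝒮ℒ) (h := (1 : ℝ)) (k := 4)
        ModularForm.E₄ one_mem_strictPeriods_SL)
    ModularForm.E₄.holo' (by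
      haveI : Fact (IsCusp OnePoint.infty 𝒮ℒ) :=
        ⟨(𝒮ℒ).isCusp_of_mem_strictPeriods one_pos one_mem_strictPeriods_SL⟩
      exact ModularFormClass.bdd_at_infty ModularForm.E₄)
  rwa [Nat.cast_one, qExpansion_E₄] at h

theorem hasQExp_jfun : HasQExp 1 jfun (jqModC ℂ) := by
  have h : HasQExp 1 jfun
      (HahnSeries.ofPowerSeries ℤ ℂ (eisenstein4.map (Int.castRingHom ℂ)) ^ 3 /
        HahnSeries.ofPowerSeries ℤ ℂ
          (PowerSeries.X * dedekindEtaUnit.map (Int.castRingHom ℂ))) :=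
    (hasQExp_E₄.pow 3).div hasQExp_discriminant
  refine h.of_eq ?_
  have hU : PowerSeries.map (Int.castRingHom ℂ) dedekindEtaUnitInv *
      PowerSeries.map (Int.castRingHom ℂ) dedekindEtaUnit = 1 := by
    rw [← map_mul, mul_comm dedekindEtaUnitInv, dedekindEtaUnit_mul_inv, map_one]
  have hne : HahnSeries.ofPowerSeries ℤ ℂ
      (PowerSeries.X * dedekindEtaUnit.map (Int.castRingHom ℂ)) ≠ 0 := by
    rw [map_ne_zero_iff _ HahnSeries.ofPowerSeries_injective]
    exact mul_ne_zero PowerSeries.X_ne_zero (right_ne_zero_of_mul_eq_one hU)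
  rw [div_eq_iff hne, jqModC, jNum, map_mul, map_pow, map_mul, map_mul, HahnSeries.ofPowerSeries_X,
    map_pow]
  rw [mul_comm (HahnSeries.single (1 : ℤ) (1 : ℂ)) _]
  have hs : HahnSeries.single (-1 : ℤ) (1 : ℂ) * HahnSeries.single (1 : ℤ) 1 = 1 := by
    rw [HahnSeries.single_mul_single]; simp
  have hU' := congrArg (HahnSeries.ofPowerSeries ℤ ℂ) hU
  rw [map_mul, map_one] at hU'
  calc _ = HahnSeries.ofPowerSeries ℤ ℂ (eisenstein4.map (Int.castRingHom ℂ)) ^ 3 *
        (HahnSeries.ofPowerSeries ℤ ℂ (dedekindEtaUnitInv.map (Int.castRingHom ℂ)) *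
          HahnSeries.ofPowerSeries ℤ ℂ (dedekindEtaUnit.map (Int.castRingHom ℂ))) *
        (HahnSeries.single (-1 : ℤ) (1 : ℂ) * HahnSeries.single (1 : ℤ) 1) := by
        rw [hU', hs, mul_one, mul_one]
    _ = _ := by ring

theorem hasQExp_jNfun (d : ℕ) [NeZero d] : HasQExp 1 (jNfun d) (jqNModC ℂ d) :=
  (hasQExp_jfun.comp_mul d).congr (.of_forall fun τ => by
    simp [jNfun, heckeDiagMatrix_smul_eq_triPoint])

theorem tendsto_norm_jfun : Tendsto (fun τ => ‖jfun τ‖) atImInfty atTop :=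
  hasQExp_jfun.tendsto_norm_atTop (by norm_num : (-1 : ℤ) < 0) (by
    rw [coeff_jqModC_neg_one]; exact one_ne_zero)

theorem jfun_sub_1728 (τ : ℍ) :
    jfun τ - 1728 = ModularForm.E₆ τ ^ 2 / ModularForm.discriminant τ := by
  have h := ModularForm.discriminant_eq_E₄_cube_sub_E₆_sq τ
  have h0 := ModularForm.discriminant_ne_zero τ
  rw [jfun, div_sub' h0, div_left_inj' h0]
  field_simp at h
  linear_combination -h

/-- A holomorphic invariant function bounded at infinity is constant. -/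
theorem exists_eq_const_of_isBoundedAtImInfty {f : ℍ → ℂ} (hhol : MDiff f)
    (hinv : ∀ (γ : SL(2, ℤ)) (τ : ℍ), f (γ • τ) = f τ) (hbdd : IsBoundedAtImInfty f) :
    ∃ c, ∀ τ, f τ = c := by
  let F : ModularForm 𝒮ℒ 0 :=
    { toFun := f
      slash_action_eq' := fun A hA => by
        obtain ⟨γ, rfl⟩ := hA
        funext τ
        show (f ∣[(0 : ℤ)] γ) τ = f τ
        rw [ModularForm.SL_slash_apply, hinv, neg_zero, zpow_zero, mul_one]
      holo' := hhol
      bdd_at_cusps' {c} hc := by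
        rw [Subgroup.IsArithmetic.isCusp_iff_isCusp_SL2Z] at hc
        rw [OnePoint.isBoundedAt_iff_forall_SL2Z hc]
        intro γ _
        have : f ∣[(0 : ℤ)] γ = f := funext fun τ => by
          rw [ModularForm.SL_slash_apply, hinv, neg_zero, zpow_zero, mul_one]
        rwa [this] }
  obtain ⟨c, hc⟩ := ModularFormClass.levelOne_weight_zero_const F
  exact ⟨c, fun τ => congrFun hc τ⟩

theorem jfun_surjective : Function.Surjective jfun := by
  intro c
  by_contra hne
  push_neg at hne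
  have hne' : ∀ τ, jfun τ - c ≠ 0 := fun τ => sub_ne_zero.2 (hne τ)
  have hhol : MDiff fun τ => (jfun τ - c)⁻¹ := by
    rw [UpperHalfPlane.mdifferentiable_iff]
    exact ((UpperHalfPlane.mdifferentiable_iff.1 mdifferentiable_jfun).sub_const c).inv
      fun z _ => hne' _
  have ht : Tendsto (fun τ => (jfun τ - c)⁻¹) atImInfty (𝓝 0) := by
    refine tendsto_inv₀_cobounded.comp (tendsto_norm_atTop_iff_cobounded.1 ?_)
    exact tendsto_atTop_mono' _ (.of_forall fun τ => norm_sub_norm_le _ _)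
      (tendsto_atTop_add_const_right _ (-‖c‖) tendsto_norm_jfun)
  obtain ⟨c₀, hc₀⟩ := exists_eq_const_of_isBoundedAtImInfty hhol
    (fun γ τ => by rw [jfun_smul]) (ht.isBigO_one ℝ)
  have : Tendsto (fun _ : ℍ => c₀) atImInfty (𝓝 0) := ht.congr hc₀
  obtain ⟨τ⟩ : Nonempty ℍ := inferInstance
  exact inv_ne_zero (hne' τ) ((hc₀ τ).trans (tendsto_nhds_unique tendsto_const_nhds this))

section Injective

/-- Two points are in the same orbit. -/
def OrbitRel (τ τ' : ℍ) : Prop := ∃ γ : SL(2, ℤ), γ • τ = τ'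

theorem OrbitRel.of_smul {τ τ' : ℍ} {g g' : SL(2, ℤ)} (h : OrbitRel (g • τ) (g' • τ')) :
    OrbitRel τ τ' := by
  obtain ⟨γ, hγ⟩ := h
  exact ⟨g'⁻¹ * (γ * g), by rw [mul_smul, mul_smul, hγ, inv_smul_smul]⟩

theorem eventually_orbitRel_of_im_large :
    ∃ A : ℝ, ∀ τ τ' : ℍ, A ≤ τ.im → A ≤ τ'.im → jfun τ = jfun τ' → OrbitRel τ τ' := by
  obtain ⟨ha, he⟩ := hasQExp_jfun.exists_psum (n := -1) fun k hk => coeff_jqModC_of_lt ℂ hk
  set u := psum (shiftPS (-1) (jqModC ℂ)) with hu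
  have hu0 : u 0 = 1 := by
    rw [hu, psum_zero_right, shiftPS, PowerSeries.coeff_mk, Nat.cast_zero, add_zero,
      coeff_jqModC_neg_one]
  set g : ℂ → ℂ := fun q => q * (u q)⁻¹ with hg
  have hga : AnalyticAt ℂ g 0 := analyticAt_id.mul (ha.inv (by rw [hu0]; exact one_ne_zero))
  have hgd : deriv g 0 = 1 := by
    have hi : DifferentiableAt ℂ (fun q => (u q)⁻¹) 0 :=
      (ha.inv (by rw [hu0]; exact one_ne_zero)).differentiableAt
    rw [hg, deriv_fun_mul differentiableAt_fun_id hi]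
    simp [hu0]
  have hsd := hga.hasStrictDerivAt
  rw [hgd] at hsd
  have hli := hsd.eventually_left_inverse one_ne_zero
  obtain ⟨A, hA⟩ := (atImInfty_mem _).1
    (he.and ((HasQExp.tendsto_qParam (h := 1)).eventually hli))
  refine ⟨A, fun τ τ' hτ hτ' hj => ?_⟩
  obtain ⟨h1, h2⟩ := hA τ hτ
  obtain ⟨h1', h2'⟩ := hA τ' hτ'
  rw [h1, h1'] at hj
  have hgg : g (Periodic.qParam ((1 : ℕ) : ℝ) (τ : ℂ)) =
      g (Periodic.qParam ((1 : ℕ) : ℝ) (τ' : ℂ)) := by
    have h3 := congrArg (fun z : ℂ => z⁻¹) hj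
    simp only [mul_inv, zpow_neg_one, inv_inv] at h3
    exact h3
  rw [hgg, h2'] at h2
  simp only [Periodic.qParam, Nat.cast_one, Complex.ofReal_one, div_one,
    Complex.exp_eq_exp_iff_exists_int] at h2
  obtain ⟨n, hn⟩ := h2
  refine ⟨ModularGroup.T ^ n, UpperHalfPlane.ext ?_⟩
  rw [ModularGroup.coe_T_zpow_smul_eq]
  have h2pi : (2 * (Real.pi : ℂ) * Complex.I) ≠ 0 := two_pi_I_ne_zero
  apply mul_left_cancel₀ h2pi
  linear_combination -hn

theorem exists_norm_bound_orbitRel :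
    ∃ R : ℝ, ∀ τ τ' : ℍ, jfun τ = jfun τ' → R < ‖jfun τ‖ → OrbitRel τ τ' := by
  obtain ⟨A, hA⟩ := eventually_orbitRel_of_im_large
  obtain ⟨R, hR⟩ := (ModularGroup.isCompact_truncatedFundamentalDomain A).exists_bound_of_continuousOn
    continuous_jfun.continuousOn
  refine ⟨R, fun τ τ' hj hlt => ?_⟩
  obtain ⟨g, hg⟩ := ModularGroup.exists_smul_mem_fd τ
  obtain ⟨g', hg'⟩ := ModularGroup.exists_smul_mem_fd τ'
  refine OrbitRel.of_smul (g := g) (g' := g') (hA _ _ ?_ ?_ (by rw [jfun_smul, jfun_smul, hj]))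
  · by_contra hc
    have := hR (g • τ) ⟨hg, (not_le.1 hc).le⟩
    rw [jfun_smul] at this
    linarith
  · by_contra hc
    have := hR (g' • τ') ⟨hg', (not_le.1 hc).le⟩
    rw [jfun_smul, ← hj] at this
    linarith

theorem jfun_not_eventually_const {z : ℂ} (hz : z ∈ upperHalfPlaneSet) :
    ¬ ∀ᶠ w in 𝓝 z, (jfun ∘ ofComplex) w = (jfun ∘ ofComplex) z := by
  intro h
  have h1 := analyticOnNhd_jfun.eqOn_of_preconnected_of_eventuallyEq analyticOnNhd_const
    (Convex.isPreconnected (convex_halfSpace_im_gt 0)) hz h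
  obtain ⟨τ, hτ⟩ := (tendsto_norm_jfun.eventually_gt_atTop ‖(jfun ∘ ofComplex) z‖).exists
  have h2 := h1 τ.im_pos
  rw [Function.comp_apply, ofComplex_apply] at h2
  rw [h2] at hτ
  exact lt_irrefl _ hτ

theorem countable_critical_values :
    {c : ℂ | ∃ z ∈ upperHalfPlaneSet, deriv (jfun ∘ ofComplex) z = 0 ∧
      (jfun ∘ ofComplex) z = c}.Countable := by
  have hd : AnalyticOnNhd ℂ (deriv (jfun ∘ ofComplex)) upperHalfPlaneSet := analyticOnNhd_jfun.deriv
  have hS : {z ∈ upperHalfPlaneSet | deriv (jfun ∘ ofComplex) z = 0}.Countable := by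
    refine (HereditarilyLindelofSpace.isLindelof _).countable_of_isDiscrete ?_
    rw [isDiscrete_iff_nhdsNE]
    rintro x ⟨hx, hx0⟩
    rcases (hd x hx).eventually_eq_zero_or_eventually_ne_zero with h | h
    · exfalso
      have h0 := hd.eqOn_zero_of_preconnected_of_eventuallyEq_zero
        (Convex.isPreconnected (convex_halfSpace_im_gt 0)) hx h
      refine jfun_not_eventually_const hx ?_
      filter_upwards [isOpen_upperHalfPlaneSet.mem_nhds hx] with w hw
      exact IsOpen.is_const_of_deriv_eq_zero isOpen_upperHalfPlaneSet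
        (Convex.isPreconnected (convex_halfSpace_im_gt 0))
        analyticOnNhd_jfun.differentiableOn h0 hw hx
    · rw [← disjoint_iff, Filter.disjoint_principal_right]
      filter_upwards [h] with w hw hw'
      exact hw hw'.2
  refine (hS.image (jfun ∘ ofComplex)).mono ?_
  rintro c ⟨z, hz, hz0, rfl⟩
  exact ⟨z, ⟨hz, hz0⟩, rfl⟩

theorem eventually_not_orbitRel {τ₁ τ₂ : ℍ} (h : ¬ OrbitRel τ₁ τ₂) :
    ∀ᶠ p : ℍ × ℍ in 𝓝 τ₁ ×ˢ 𝓝 τ₂, ¬ OrbitRel p.1 p.2 := by
  obtain ⟨K₁, hK₁, hK₁'⟩ := exists_compact_mem_nhds τ₁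
  obtain ⟨K₂, hK₂, hK₂'⟩ := exists_compact_mem_nhds τ₂
  have hfin : {γ : SL(2, ℤ) | ((γ • ·) '' K₁ ∩ K₂).Nonempty}.Finite := by
    have h0 := ProperlyDiscontinuousSMul.finite_disjoint_inter_image
      (Γ := (Matrix.SpecialLinearGroup.mapGL ℝ : SL(2, ℤ) →* GL (Fin 2) ℝ).range) hK₁ hK₂
    refine Set.Finite.subset (h0.preimage
      (f := (Matrix.SpecialLinearGroup.mapGL ℝ : SL(2, ℤ) →* GL (Fin 2) ℝ).rangeRestrict) ?_) ?_
    · intro a _ b _ hab
      exact Matrix.SpecialLinearGroup.mapGL_injective (congrArg Subtype.val hab)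
    · rintro γ ⟨x, ⟨a, ha, rfl⟩, hx⟩
      exact ⟨_, ⟨a, ha, rfl⟩, hx⟩
  have hne : ∀ γ ∈ {γ : SL(2, ℤ) | ((γ • ·) '' K₁ ∩ K₂).Nonempty},
      ∀ᶠ p : ℍ × ℍ in 𝓝 τ₁ ×ˢ 𝓝 τ₂, γ • p.1 ≠ p.2 := by
    intro γ _
    rw [← nhds_prod_eq]
    have hc : Continuous fun p : ℍ × ℍ => γ • p.1 :=
      (continuous_const_smul (T := ℍ) (Matrix.SpecialLinearGroup.mapGL ℝ γ : GL (Fin 2) ℝ)).comp
        (continuous_fst (X := ℍ) (Y := ℍ))
    exact (isOpen_ne_fun hc continuous_snd).mem_nhds fun hc' => h ⟨γ, hc'⟩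
  filter_upwards [(hfin.eventually_all.2 hne), prod_mem_prod hK₁' hK₂'] with p hp hpK
  rintro ⟨γ, hγ⟩
  exact hp γ ⟨γ • p.1, ⟨p.1, hpK.1, rfl⟩, by rw [hγ]; exact hpK.2⟩ hγ

theorem map_nhds_jfun (τ : ℍ) : 𝓝 (jfun τ) ≤ map jfun (𝓝 τ) := by
  have h := ((analyticOnNhd_jfun _ τ.im_pos).eventually_constant_or_nhds_le_map_nhds).resolve_left
    (jfun_not_eventually_const τ.im_pos)
  rw [Function.comp_apply, ofComplex_apply] at h
  refine h.trans (le_of_le_of_eq ?_ rfl)
  rw [← Filter.map_map]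
  refine Filter.map_mono ?_
  have hc : ContinuousAt ofComplex (τ : ℂ) := by
    refine ofComplex.continuousAt ?_
    rw [UpperHalfPlane.ofComplex]
    simpa using τ.im_pos
  have := hc.tendsto
  rwa [ofComplex_apply] at this

theorem isOpen_multiple_values :
    IsOpen {c : ℂ | ∃ τ τ', jfun τ = c ∧ jfun τ' = c ∧ ¬ OrbitRel τ τ'} := by
  rw [isOpen_iff_mem_nhds]
  rintro c ⟨τ₁, τ₂, h1, h2, h12⟩
  obtain ⟨V₁, hV₁, V₂, hV₂, hV⟩ := eventually_prod_iff.1 (eventually_not_orbitRel h12)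
  have e1 := map_nhds_jfun τ₁ (image_mem_map hV₁)
  have e2 := map_nhds_jfun τ₂ (image_mem_map hV₂)
  rw [h1] at e1
  rw [h2] at e2
  filter_upwards [e1, e2] with c' hc1 hc2
  obtain ⟨a, ha, rfl⟩ := hc1
  obtain ⟨b, hb, hb'⟩ := hc2
  exact ⟨a, b, rfl, hb', hV ha hb⟩

theorem mem_multiple_values_of_mem_closure {c : ℂ}
    (hc : c ∈ closure {c : ℂ | ∃ τ τ', jfun τ = c ∧ jfun τ' = c ∧ ¬ OrbitRel τ τ'})
    (hcrit : ¬ ∃ z ∈ upperHalfPlaneSet, deriv (jfun ∘ ofComplex) z = 0 ∧
      (jfun ∘ ofComplex) z = c) :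
    ∃ τ τ', jfun τ = c ∧ jfun τ' = c ∧ ¬ OrbitRel τ τ' := by
  obtain ⟨u, hu, huc⟩ := mem_closure_iff_seq_limit.1 hc
  obtain ⟨A, hA⟩ := (atImInfty_mem _).1 (tendsto_norm_jfun.eventually_gt_atTop (‖c‖ + 1))
  obtain ⟨n₀, hn₀⟩ := eventually_atTop.1 (huc.norm.eventually_le_const (lt_add_one ‖c‖))
  have hrep : ∀ n, ∃ a b : ℍ, a ∈ ModularGroup.truncatedFundamentalDomain A ∧
      b ∈ ModularGroup.truncatedFundamentalDomain A ∧
      jfun a = u (n + n₀) ∧ jfun b = u (n + n₀) ∧ ¬ OrbitRel a b := by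
    intro n
    obtain ⟨a, b, ha, hb, hab⟩ := hu (n + n₀)
    obtain ⟨g, hg⟩ := ModularGroup.exists_smul_mem_fd a
    obtain ⟨g', hg'⟩ := ModularGroup.exists_smul_mem_fd b
    have hle := hn₀ (n + n₀) (by omega)
    refine ⟨g • a, g' • b, ⟨hg, ?_⟩, ⟨hg', ?_⟩, by rw [jfun_smul, ha], by rw [jfun_smul, hb],
      fun h => hab h.of_smul⟩
    · by_contra hcon
      have h' : ‖c‖ + 1 < ‖jfun (g • a)‖ := hA _ (not_le.1 hcon).le
      rw [jfun_smul, ha] at h'
      linarith
    · by_contra hcon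
      have h' : ‖c‖ + 1 < ‖jfun (g' • b)‖ := hA _ (not_le.1 hcon).le
      rw [jfun_smul, hb] at h'
      linarith
  choose a b ha hb hja hjb hab using hrep
  obtain ⟨a₀, -, φ, hφ, ha₀⟩ :=
    (ModularGroup.isCompact_truncatedFundamentalDomain A).tendsto_subseq ha
  obtain ⟨b₀, -, ψ, hψ, hb₀⟩ :=
    (ModularGroup.isCompact_truncatedFundamentalDomain A).tendsto_subseq (fun n => hb (φ n))
  have ha₁ := ha₀.comp hψ.tendsto_atTop
  have hu' : Tendsto (fun n => u (φ (ψ n) + n₀)) atTop (𝓝 c) :=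
    huc.comp ((tendsto_add_atTop_nat n₀).comp (hφ.tendsto_atTop.comp hψ.tendsto_atTop))
  have hja₀ : jfun a₀ = c := tendsto_nhds_unique ((continuous_jfun.tendsto a₀).comp ha₁)
    (hu'.congr fun n => (hja _).symm)
  have hjb₀ : jfun b₀ = c := tendsto_nhds_unique ((continuous_jfun.tendsto b₀).comp hb₀)
    (hu'.congr fun n => (hjb _).symm)
  refine ⟨a₀, b₀, hja₀, hjb₀, ?_⟩
  rintro ⟨γ, rfl⟩
  have hd : deriv (jfun ∘ ofComplex) (a₀ : ℂ) ≠ 0 := fun h0 =>
    hcrit ⟨a₀, a₀.im_pos, h0, by rw [Function.comp_apply, ofComplex_apply, hja₀]⟩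
  have hli := (analyticOnNhd_jfun _ a₀.im_pos).hasStrictDerivAt.eventually_left_inverse hd
  have hb₁ : Tendsto (fun n => γ⁻¹ • b (φ (ψ n))) atTop (𝓝 a₀) := by
    have := ((continuous_const_smul
      (Matrix.SpecialLinearGroup.mapGL ℝ γ⁻¹)).tendsto (γ • a₀)).comp hb₀
    have e : (Matrix.SpecialLinearGroup.mapGL ℝ γ⁻¹) • γ • a₀ = a₀ := inv_smul_smul γ a₀
    rw [e] at this
    exact this
  have hca : Tendsto (fun n => ((a (φ (ψ n)) : ℍ) : ℂ)) atTop (𝓝 (a₀ : ℂ)) :=
    (UpperHalfPlane.continuous_coe.tendsto a₀).comp ha₁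
  have hcb : Tendsto (fun n => ((γ⁻¹ • b (φ (ψ n)) : ℍ) : ℂ)) atTop (𝓝 (a₀ : ℂ)) :=
    (UpperHalfPlane.continuous_coe.tendsto a₀).comp hb₁
  obtain ⟨n, hn1, hn2⟩ := ((hca.eventually hli).and (hcb.eventually hli)).exists
  simp only [Function.comp_apply, ofComplex_apply, jfun_smul, hjb, ← hja] at hn1 hn2
  have hEq : γ⁻¹ • b (φ (ψ n)) = a (φ (ψ n)) := UpperHalfPlane.ext (hn2.symm.trans hn1)
  exact hab _ ⟨γ, by rw [← hEq, smul_inv_smul]⟩

theorem orbitRel_of_jfun_eq {τ τ' : ℍ} (h : jfun τ = jfun τ') : OrbitRel τ τ' := by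
  by_contra hcon
  set S := {c : ℂ | ∃ τ τ', jfun τ = c ∧ jfun τ' = c ∧ ¬ OrbitRel τ τ'} with hS
  have hSne : S.Nonempty := ⟨_, τ, τ', rfl, h.symm, hcon⟩
  obtain ⟨R, hR⟩ := exists_norm_bound_orbitRel
  have hclosed : closure S ⊆ Metric.closedBall 0 R := by
    refine closure_minimal (fun c hc => ?_) Metric.isClosed_closedBall
    obtain ⟨a, b, ha, hb, hab⟩ := hc
    rw [mem_closedBall_zero_iff, ← ha]
    exact not_lt.1 fun hlt => hab (hR a b (ha.trans hb.symm) hlt)
  have hrank : 1 < Module.rank ℝ ℂ := by rw [Complex.rank_real_complex]; norm_num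
  have hC := countable_critical_values
  have hdense := hC.dense_compl ℝ
  obtain ⟨c, hc⟩ := hdense.inter_open_nonempty S isOpen_multiple_values hSne
  obtain ⟨d, hd⟩ := hdense.inter_open_nonempty (Metric.closedBall (0 : ℂ) R)ᶜ
    Metric.isClosed_closedBall.isOpen_compl ⟨((|R| + 1 : ℝ) : ℂ), by
      simp only [Set.mem_compl_iff, mem_closedBall_zero_iff, Complex.norm_real, Real.norm_eq_abs]
      rw [abs_of_pos (by positivity)]
      linarith [le_abs_self R]⟩
  obtain ⟨w, hw⟩ := (hC.isConnected_compl_of_one_lt_rank hrank).isPreconnected S (closure S)ᶜ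
    isOpen_multiple_values isClosed_closure.isOpen_compl (fun w hw => by
      by_cases hwc : w ∈ closure S
      · exact Or.inl (mem_multiple_values_of_mem_closure hwc hw)
      · exact Or.inr hwc)
    ⟨c, hc.2, hc.1⟩ ⟨d, hd.2, fun hd' => hd.1 (hclosed hd')⟩
  exact hw.2.2 (subset_closure hw.2.1)

end Injective

theorem jfun_eq_iff {τ τ' : ℍ} : jfun τ = jfun τ' ↔ ∃ γ : SL(2, ℤ), γ • τ = τ' :=
  ⟨orbitRel_of_jfun_eq, fun ⟨γ, hγ⟩ => by rw [← hγ, jfun_smul]⟩

/-- `j` takes every value, so a polynomial vanishing on all its values is zero. -/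
theorem polynomial_eq_zero_of_eval_jfun {P : Polynomial ℂ}
    (h : ∀ τ, P.eval (jfun τ) = 0) : P = 0 :=
  Polynomial.funext fun c => by
    obtain ⟨τ, rfl⟩ := jfun_surjective c
    simpa using h τ

/-- `j` is transcendental over any coefficient field. -/
theorem transcendental_jqModC (K : Type*) [Field K] : Transcendental K (jqModC K) := by
  rw [transcendental_iff]
  intro P hP
  by_contra hne
  have h1 : (Polynomial.aeval (jqModC K) P).coeff (-(P.natDegree : ℤ)) = P.leadingCoeff := by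
    rw [Polynomial.aeval_eq_sum_range, HahnSeries.coeff_sum, Finset.sum_eq_single P.natDegree]
    · rw [Algebra.smul_def, algebraMap_laurentSeries_eq_single, HahnSeries.coeff_single_mul,
        sub_zero, coeff_jqModC_pow_self, mul_one, Polynomial.coeff_natDegree]
    · intro i hi hin
      rw [Finset.mem_range] at hi
      rw [Algebra.smul_def, algebraMap_laurentSeries_eq_single, HahnSeries.coeff_single_mul,
        sub_zero, coeff_jqModC_pow_of_lt K (by omega), mul_zero]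
    · simp
  rw [hP] at h1
  exact hne (Polynomial.leadingCoeff_eq_zero.1 (by simpa using h1.symm))

end Fermat.Agent.ModFun

end
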