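/-
The conjugates `j ((a τ + b) / d)` of `j (N τ)` and their expansions.
-/
import Fermat.Agent.ModFun.JFun
import Fermat.Agent.Gamma0.HeckeReps
import Mathlib.Analysis.Analytic.IsolatedZeros

set_option autoImplicit false
set_option maxHeartbeats 200000

noncomputable section

open Filter Function UpperHalfPlane Complex ModularCurve CongruenceSubgroup
open scoped Topology Manifold MatrixGroups

namespace Fermat.Agent.ModFun

/-- The conjugate `τ ↦ j (N · g⁻¹ τ)` of `j (N τ)` attached to a left coset `g Gamma0(N)`. -/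
def jConjFun (N : ℕ) [NeZero N] (q : SL(2, ℤ) ⧸ Gamma0 N) : ℍ → ℂ :=
  Quotient.liftOn' q (fun g τ => jNfun N (g⁻¹ • τ)) (by
    intro a b hab
    funext τ
    have hab' : a⁻¹ * b ∈ Gamma0 N := QuotientGroup.leftRel_apply.mp hab
    rw [← jNfun_smul N hab' (b⁻¹ • τ), mul_smul, smul_inv_smul])

theorem jConjFun_mk (N : ℕ) [NeZero N] (g : SL(2, ℤ)) (τ : ℍ) :
    jConjFun N (QuotientGroup.mk g) τ = jNfun N (g⁻¹ • τ) := rfl

/-- The triples `(a, b, d)` with `a d = N`, `b < d`, `gcd (a, b, d) = 1`. -/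
def hnfSet (N : ℕ) : Finset (ℕ × ℕ × ℕ) :=
  (Finset.range (N + 1) ×ˢ Finset.range (N + 1) ×ˢ Finset.range (N + 1)).filter fun t =>
    t.1 * t.2.2 = N ∧ t.2.1 < t.2.2 ∧ Nat.gcd (Nat.gcd t.1 t.2.1) t.2.2 = 1

/-- The expansion of `j ((a τ + b) / d)` in `q_N`, `N = a d`. -/
def conjSeries (t : ℕ × ℕ × ℕ) : LaurentSeries ℂ :=
  if h : t.1 = 0 then 0
  else
    haveI : NeZero (t.1 * t.1) := ⟨mul_ne_zero h h⟩
    qExpand ℂ (t.1 * t.1) (twist (zetaU t.2.2 ^ t.2.1) (jqModC ℂ))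

theorem conjSeries_eq (a b d : ℕ) [NeZero a] :
    conjSeries (a, b, d) = qExpand ℂ (a * a) (twist (zetaU d ^ b) (jqModC ℂ)) := by
  unfold conjSeries
  rw [dif_neg (NeZero.ne a)]

theorem hasQExp_conjSeries {N : ℕ} {a b d : ℕ} [NeZero a] [NeZero d] (h : a * d = N) :
    HasQExp N (fun τ => jfun (triPoint a b d τ)) (conjSeries (a, b, d)) := by
  have h1 := (hasQExp_jfun.comp_triPoint a b d).expand_period a
  rw [qExpand_qExpand, mul_comm d a, h] at h1
  rwa [conjSeries_eq]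

theorem mem_hnfSet {N : ℕ} [NeZero N] {t : ℕ × ℕ × ℕ} :
    t ∈ hnfSet N ↔
      t.1 * t.2.2 = N ∧ t.2.1 < t.2.2 ∧ Nat.gcd (Nat.gcd t.1 t.2.1) t.2.2 = 1 := by
  simp only [hnfSet, Finset.mem_filter, Finset.mem_product, Finset.mem_range]
  refine ⟨fun h => h.2, fun h => ⟨⟨?_, ?_, ?_⟩, h⟩⟩
  all_goals
    have hN := NeZero.pos N
    have h1 : 0 < t.1 := pos_of_mul_pos_left (h.1 ▸ hN : 0 < t.1 * t.2.2) (Nat.zero_le _)
    have hd : t.2.2 ≤ N := h.1 ▸ Nat.le_mul_of_pos_left _ h1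
    have ha : t.1 ≤ N := h.1 ▸ Nat.le_mul_of_pos_right _ (lt_of_le_of_lt (Nat.zero_le _) h.2.1)
    omega

theorem hnfSet_ne_zero {N : ℕ} [NeZero N] {t : ℕ × ℕ × ℕ} (ht : t ∈ hnfSet N) :
    t.1 ≠ 0 ∧ t.2.2 ≠ 0 := by
  obtain ⟨h1, -, -⟩ := mem_hnfSet.1 ht
  constructor <;> intro h <;> simp [h] at h1 <;> exact NeZero.ne N h1.symm

/-- The standard representatives in the form of triples. -/
def pairTripleEquiv (N : ℕ) [NeZero N] : Gamma0.heckePairs N ≃ hnfSet N where
  toFun t := ⟨(t.1.1, t.1.2, N / t.1.1), by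
    obtain ⟨h1, h2, h3⟩ := Gamma0.mem_heckePairs.1 t.2
    exact mem_hnfSet.2 ⟨Nat.mul_div_cancel' h1, h2, h3⟩⟩
  invFun t := ⟨(t.1.1, t.1.2.1), by
    obtain ⟨h1, h2, h3⟩ := mem_hnfSet.1 t.2
    have hd : N / t.1.1 = t.1.2.2 :=
      Nat.div_eq_of_eq_mul_right (Nat.pos_of_ne_zero (hnfSet_ne_zero t.2).1) h1.symm
    exact Gamma0.mem_heckePairs.2 ⟨⟨_, h1.symm⟩, by simpa [hd] using h2, by simpa [hd] using h3⟩⟩
  left_inv t := rfl
  right_inv t := by
    obtain ⟨h1, -, -⟩ := mem_hnfSet.1 t.2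
    refine Subtype.ext (Prod.ext rfl (Prod.ext rfl ?_))
    exact Nat.div_eq_of_eq_mul_right (Nat.pos_of_ne_zero (hnfSet_ne_zero t.2).1) h1.symm

/-- The conjugates attached to cosets, as triples. -/
def conjEquiv (N : ℕ) [NeZero N] : (SL(2, ℤ) ⧸ Gamma0 N) ≃ hnfSet N :=
  Gamma0.heckeEquiv.trans (pairTripleEquiv N)

instance fintypeCosetGamma0 (N : ℕ) [NeZero N] : Finite (SL(2, ℤ) ⧸ Gamma0 N) :=
  Finite.of_equiv _ (conjEquiv N).symm

theorem hasQExp_jConjFun (N : ℕ) [NeZero N] (q : SL(2, ℤ) ⧸ Gamma0 N) :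
    HasQExp N (jConjFun N q) (conjSeries (conjEquiv N q).1) := by
  obtain ⟨g, rfl⟩ := QuotientGroup.mk_surjective q
  obtain ⟨γ, hγ⟩ := Gamma0.heckeEquiv_spec (N := N) g
  rcases hu : Gamma0.heckeEquiv (Gamma0.mk N g) with ⟨⟨a, b⟩, ht⟩
  rw [hu] at hγ
  obtain ⟨h1, -, -⟩ := Gamma0.mem_heckePairs.1 ht
  dsimp only at h1 hγ
  have : NeZero a := ⟨ne_zero_of_dvd_ne_zero (NeZero.ne N) h1⟩
  have : NeZero (N / a) :=
    ⟨(Nat.div_pos (Nat.le_of_dvd (NeZero.pos N) h1) (NeZero.pos a)).ne'⟩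
  have he : ((conjEquiv N) (QuotientGroup.mk g)).1 = (a, b, N / a) := by
    show ((pairTripleEquiv N) (Gamma0.heckeEquiv (Gamma0.mk N g))).1 = _
    rw [hu]
    rfl
  rw [he]
  refine (hasQExp_conjSeries (N := N) (b := b) (Nat.mul_div_cancel' h1)).congr
    (.of_forall fun τ => ?_)
  rw [jConjFun_mk, jNfun]
  have key : ModularForm.heckeDiagMatrix N • g⁻¹ • τ = γ • triPoint a b (N / a) τ := by
    have e00 := congrFun (congrFun hγ 0) 0
    have e01 := congrFun (congrFun hγ 0) 1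
    have e10 := congrFun (congrFun hγ 1) 0
    have e11 := congrFun (congrFun hγ 1) 1
    simp [Gamma0.levelMat, Gamma0.heckeMat, Matrix.mul_apply, Fin.sum_univ_two, -Int.natCast_ediv,
      Matrix.SpecialLinearGroup.coe_inv, Matrix.adjugate_fin_two] at e00 e01 e10 e11
    apply UpperHalfPlane.ext
    rw [ModularForm.coe_heckeDiagMatrix_smul (NeZero.ne N), coe_specialLinearGroup_apply,
      coe_specialLinearGroup_apply, coe_triPoint]
    simp only [Matrix.SpecialLinearGroup.coe_inv, Matrix.adjugate_fin_two, algebraMap_int_eq,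
      eq_intCast, Complex.ofReal_intCast, Matrix.of_apply, Matrix.cons_val', Matrix.cons_val_zero,
      Matrix.cons_val_one, Matrix.cons_val_fin_one]
    have hd : ((N / a : ℕ) : ℂ) ≠ 0 := Nat.cast_ne_zero.2 (NeZero.ne _)
    have hl : ((γ 0 0 : ℂ) * (((a : ℂ) * τ + b) / ((N / a : ℕ) : ℂ)) + (γ 0 1 : ℂ)) =
        ((N : ℂ) * ((g 1 1 : ℂ) * τ + (-(g 0 1) : ℂ))) / ((N / a : ℕ) : ℂ) := by
      have c00 : (N : ℂ) * (g 1 1 : ℂ) = (γ 0 0 : ℂ) * a := by exact_mod_cast e00
      have c01 : -((N : ℂ) * (g 0 1 : ℂ)) = (γ 0 0 : ℂ) * b + (γ 0 1 : ℂ) * ((N / a : ℕ) : ℂ) := by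
        have h' := congrArg (Int.cast : ℤ → ℂ) e01
        simpa [-Int.natCast_ediv, -Nat.cast_div_charZero] using h'
      field_simp
      linear_combination -(τ : ℂ) * c00 - c01
    have hr : ((γ 1 0 : ℂ) * (((a : ℂ) * τ + b) / ((N / a : ℕ) : ℂ)) + (γ 1 1 : ℂ)) =
        ((-(g 1 0) : ℂ) * τ + (g 0 0 : ℂ)) / ((N / a : ℕ) : ℂ) := by
      have c10 : -(g 1 0 : ℂ) = (γ 1 0 : ℂ) * a := by exact_mod_cast e10
      have c11 : (g 0 0 : ℂ) = (γ 1 0 : ℂ) * b + (γ 1 1 : ℂ) * ((N / a : ℕ) : ℂ) := by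
        have h' := congrArg (Int.cast : ℤ → ℂ) e11
        simpa [-Int.natCast_ediv, -Nat.cast_div_charZero] using h'
      field_simp
      linear_combination -(τ : ℂ) * c10 - c11
    push_cast
    rw [hl, hr, div_div_div_cancel_right₀ hd, mul_div_assoc]
  rw [key, jfun_smul]

theorem conjEquiv_mk_one (N : ℕ) [NeZero N] :
    (conjEquiv N (QuotientGroup.mk 1)).1 = (N, 0, 1) := by
  obtain ⟨γ, hγ⟩ := Gamma0.heckeEquiv_spec (N := N) 1
  have hmem : (N, 0) ∈ Gamma0.heckePairs N := by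
    rw [Gamma0.mem_heckePairs]
    simp [Nat.div_self (NeZero.pos N)]
  have : (Gamma0.heckeEquiv (Gamma0.mk N 1)).1 = (N, 0) := by
    refine Gamma0.reduction_unique (Gamma0.heckeEquiv (Gamma0.mk N 1)).2 hmem (γ := γ) (γ' := 1) ?_
    rw [← hγ, inv_one, Matrix.SpecialLinearGroup.coe_one, Matrix.mul_one, Matrix.one_mul]
    simp [Gamma0.levelMat, Gamma0.heckeMat, Nat.div_self (NeZero.pos N)]
  show ((pairTripleEquiv N) (Gamma0.heckeEquiv (Gamma0.mk N 1))).1 = _
  rcases hu : Gamma0.heckeEquiv (Gamma0.mk N 1) with ⟨⟨a, b⟩, ht⟩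
  rw [hu] at this
  have ha : a = N := congrArg Prod.fst this
  have hb : b = 0 := congrArg Prod.snd this
  show (a, b, N / a) = (N, 0, 1)
  rw [ha, hb, Nat.div_self (NeZero.pos N)]

theorem conjSeries_top (N : ℕ) [NeZero N] :
    conjSeries (N, 0, 1) = qExpand ℂ N (jqNModC ℂ N) := by
  rw [conjSeries_eq, pow_zero, jqNModC, qExpand_qExpand]
  congr 1
  ext k
  rw [twist_coeff, Units.val_one, one_zpow, one_mul]

theorem jConjFun_mk_one (N : ℕ) [NeZero N] : jConjFun N (QuotientGroup.mk 1) = jNfun N := by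
  funext τ
  rw [jConjFun_mk, inv_one, one_smul]

theorem coeff_conjSeries_lead (a b d : ℕ) [NeZero a] :
    (conjSeries (a, b, d)).coeff (-((a * a : ℕ) : ℤ)) = (((zetaU d ^ b)⁻¹ : ℂˣ) : ℂ) := by
  rw [conjSeries_eq, show -((a * a : ℕ) : ℤ) = ((a * a : ℕ) : ℤ) * (-1) by ring, qExpand_coeff_mul,
    twist_coeff, coeff_jqModC_neg_one, mul_one, zpow_neg_one, Units.val_inv_eq_inv_val]

theorem coeff_conjSeries_of_lt (a b d : ℕ) [NeZero a] {k : ℤ} (hk : k < -((a * a : ℕ) : ℤ)) :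
    (conjSeries (a, b, d)).coeff k = 0 := by
  rw [conjSeries_eq]
  by_cases h : ((a * a : ℕ) : ℤ) ∣ k
  · obtain ⟨m, rfl⟩ := h
    have hm : m < -1 := by
      by_contra hge
      push Not at hge
      nlinarith [(Int.natCast_pos.2 (NeZero.pos (a * a)) : (0 : ℤ) < ((a * a : ℕ) : ℤ))]
    rw [qExpand_coeff_mul, twist_coeff, coeff_jqModC_of_lt ℂ hm, mul_zero]
  · exact qExpand_coeff_of_not_dvd _ _ h

theorem conjSeries_injOn (N : ℕ) [NeZero N] :
    Set.InjOn conjSeries (hnfSet N : Set (ℕ × ℕ × ℕ)) := by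
  rintro ⟨a, b, d⟩ ht ⟨a', b', d'⟩ ht' heq
  obtain ⟨h1, h2, -⟩ := mem_hnfSet.1 ht
  obtain ⟨h1', h2', -⟩ := mem_hnfSet.1 ht'
  dsimp only at h1 h2 h1' h2'
  have : NeZero a := ⟨(hnfSet_ne_zero ht).1⟩
  have : NeZero a' := ⟨(hnfSet_ne_zero ht').1⟩
  have haa : a = a' := by
    have key : ∀ x y u v w z : ℕ, [NeZero x] → [NeZero y] →
        conjSeries (x, u, v) = conjSeries (y, w, z) → x ≤ y := by
      intro x y u v w z _ _ hxy
      by_contra hlt
      push Not at hlt
      have h := coeff_conjSeries_lead x u v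
      rw [hxy, coeff_conjSeries_of_lt y w z (by
        have : y * y < x * x := Nat.mul_self_lt_mul_self hlt
        omega)] at h
      exact Units.ne_zero _ h.symm
    exact le_antisymm (key _ _ b d b' d' heq) (key _ _ b' d' b d heq.symm)
  subst haa
  have hdd : d = d' := Nat.eq_of_mul_eq_mul_left (NeZero.pos a) (h1.trans h1'.symm)
  subst hdd
  have : NeZero d := ⟨by omega⟩
  have h := coeff_conjSeries_lead a b d
  rw [heq, coeff_conjSeries_lead, Units.val_inj, inv_inj] at h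
  have hb : b' = b := (isPrimitiveRoot_zetaU d).pow_inj h2' h2 (by
    have := congrArg (fun u : ℂˣ => (u : ℂ)) h
    simpa using this)
  rw [hb]

theorem jConjFun_smul (N : ℕ) [NeZero N] (σ : SL(2, ℤ)) (q : SL(2, ℤ) ⧸ Gamma0 N) (τ : ℍ) :
    jConjFun N q (σ • τ) = jConjFun N (σ⁻¹ • q) τ := by
  obtain ⟨g, rfl⟩ := QuotientGroup.mk_surjective q
  rw [MulAction.Quotient.smul_mk, smul_eq_mul, jConjFun_mk, jConjFun_mk, ← mul_smul, mul_inv_rev,
    inv_inv]

theorem mdifferentiable_comp_smul {f : ℍ → ℂ} (hf : MDiff f) (γ : SL(2, ℤ)) :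
    MDiff fun τ => f (γ • τ) :=
  hf.comp (UpperHalfPlane.mdifferentiable_smul (g := (γ : GL (Fin 2) ℝ)) (by simp))

theorem mdifferentiable_jConjFun (N : ℕ) [NeZero N] (q : SL(2, ℤ) ⧸ Gamma0 N) :
    MDiff (jConjFun N q) := by
  obtain ⟨g, rfl⟩ := QuotientGroup.mk_surjective q
  exact mdifferentiable_comp_smul (mdifferentiable_jNfun N) g⁻¹

theorem mdiff_add {f g : ℍ → ℂ} (hf : MDiff f) (hg : MDiff g) : MDiff fun τ => f τ + g τ := by
  rw [UpperHalfPlane.mdifferentiable_iff] at hf hg ⊢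
  exact hf.fun_add hg

theorem mdiff_sub {f g : ℍ → ℂ} (hf : MDiff f) (hg : MDiff g) : MDiff fun τ => f τ - g τ := by
  rw [UpperHalfPlane.mdifferentiable_iff] at hf hg ⊢
  exact hf.fun_sub hg

theorem mdiff_mul {f g : ℍ → ℂ} (hf : MDiff f) (hg : MDiff g) : MDiff fun τ => f τ * g τ := by
  rw [UpperHalfPlane.mdifferentiable_iff] at hf hg ⊢
  exact hf.fun_mul hg

theorem mdiff_pow {f : ℍ → ℂ} (hf : MDiff f) (n : ℕ) : MDiff fun τ => f τ ^ n := by
  rw [UpperHalfPlane.mdifferentiable_iff] at hf ⊢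
  exact hf.fun_pow n

theorem mdiff_const (c : ℂ) : MDiff fun _ : ℍ => c := by
  rw [UpperHalfPlane.mdifferentiable_iff]
  exact differentiableOn_const c

/-- Identity theorem: a holomorphic function with zero expansion vanishes. -/
theorem eq_zero_of_hasQExp_zero {h : ℕ} [NeZero h] {f : ℍ → ℂ} (hf : MDiff f)
    (hx : HasQExp h f 0) (τ : ℍ) : f τ = 0 := by
  obtain ⟨A, hA⟩ := (atImInfty_mem _).1 hx.eventually_eq_zero
  have han : AnalyticOnNhd ℂ (f ∘ ofComplex) upperHalfPlaneSet :=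
    (UpperHalfPlane.mdifferentiable_iff.1 hf).analyticOnNhd isOpen_upperHalfPlaneSet
  have hw : max A 1 < (((max A 1 + 1 : ℝ) : ℂ) * Complex.I).im := by
    rw [Complex.mul_I_im, Complex.ofReal_re]
    exact lt_add_one _
  have hev : (f ∘ ofComplex) =ᶠ[𝓝 (((max A 1 + 1 : ℝ) : ℂ) * Complex.I)] 0 := by
    filter_upwards [(isOpen_lt continuous_const Complex.continuous_im).mem_nhds hw] with z hz
    have hz' : 0 < z.im := lt_of_lt_of_le one_pos ((le_max_right A 1).trans hz.le)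
    rw [Function.comp_apply, ofComplex_apply_of_im_pos hz']
    exact hA ⟨z, hz'⟩ ((le_max_left A 1).trans hz.le)
  have hpre : IsPreconnected upperHalfPlaneSet := (convex_halfSpace_im_gt 0).isPreconnected
  have hz := han.eqOn_zero_of_preconnected_of_eventuallyEq_zero hpre
    (show (0 : ℝ) < _ from lt_trans (lt_of_lt_of_le one_pos (le_max_right A 1)) hw) hev τ.im_pos
  simpa using hz

theorem eq_of_hasQExp {h : ℕ} [NeZero h] {f g : ℍ → ℂ} {x : LaurentSeries ℂ} (hf : MDiff f)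
    (hg : MDiff g) (hfx : HasQExp h f x) (hgx : HasQExp h g x) : f = g := by
  funext τ
  have h1 : HasQExp h (f - g) 0 := (hfx.sub hgx).of_eq (sub_self x)
  exact sub_eq_zero.1 (eq_zero_of_hasQExp_zero (f := f - g) (mdiff_sub hf hg) h1 τ)

section Products

theorem coeff_X_sub_C_mul_zero {R : Type*} [CommRing R] (a : R) (P : Polynomial R) :
    ((Polynomial.X - Polynomial.C a) * P).coeff 0 = 0 - a * P.coeff 0 := by
  simp [sub_mul]

theorem coeff_X_sub_C_mul_succ {R : Type*} [CommRing R] (a : R) (P : Polynomial R) (m : ℕ) :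
    ((Polynomial.X - Polynomial.C a) * P).coeff (m + 1) = P.coeff m - a * P.coeff (m + 1) := by
  simp [sub_mul]

variable {ι : Type*} {h : ℕ} [NeZero h]

/-- The coefficients of `∏ (Y - fᵢ)` have expansions. -/
theorem hasQExp_coeff_prod {s : Finset ι} {F : ι → ℍ → ℂ} {X : ι → LaurentSeries ℂ}
    (hF : ∀ i ∈ s, HasQExp h (F i) (X i)) (m : ℕ) :
    HasQExp h (fun τ => (∏ i ∈ s, (Polynomial.X - Polynomial.C (F i τ))).coeff m)
      ((∏ i ∈ s, (Polynomial.X - Polynomial.C (X i))).coeff m) := by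
  induction s using Finset.cons_induction generalizing m with
  | empty =>
    simp only [Finset.prod_empty, Polynomial.coeff_one]
    split
    · exact HasQExp.one
    · exact HasQExp.zero
  | cons a s ha ih =>
    have hF' : ∀ i ∈ s, HasQExp h (F i) (X i) := fun i hi => hF i (by simp [hi])
    have ha' := hF a (by simp)
    simp only [Finset.prod_cons]
    cases m with
    | zero =>
      refine ((HasQExp.zero.sub (ha'.mul (ih hF' 0))).congr (.of_forall fun τ => ?_)).of_eq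
        (coeff_X_sub_C_mul_zero (X a) _).symm
      exact (coeff_X_sub_C_mul_zero (F a τ) _).symm
    | succ m =>
      refine (((ih hF' m).sub (ha'.mul (ih hF' (m + 1)))).congr (.of_forall fun τ => ?_)).of_eq
        (coeff_X_sub_C_mul_succ (X a) _ m).symm
      exact (coeff_X_sub_C_mul_succ (F a τ) _ m).symm

theorem mdifferentiable_coeff_prod {s : Finset ι} {F : ι → ℍ → ℂ}
    (hF : ∀ i ∈ s, MDiff (F i)) (m : ℕ) :
    MDiff fun τ : ℍ => ((∏ i ∈ s, (Polynomial.X - Polynomial.C (F i τ))).coeff m : ℂ) := by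
  induction s using Finset.cons_induction generalizing m with
  | empty =>
    simp only [Finset.prod_empty, Polynomial.coeff_one]
    exact mdiff_const (if m = 0 then (1 : ℂ) else 0)
  | cons a s ha ih =>
    have hF' : ∀ i ∈ s, MDiff (F i) := fun i hi => hF i (by simp [hi])
    have ha' := hF a (by simp)
    simp only [Finset.prod_cons, sub_mul]
    cases m with
    | zero =>
      simp only [Polynomial.coeff_sub, Polynomial.coeff_X_mul_zero, Polynomial.coeff_C_mul]
      exact mdiff_sub (mdiff_const _) (mdiff_mul ha' (ih hF' 0))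
    | succ m =>
      simp only [Polynomial.coeff_sub, Polynomial.coeff_X_mul, Polynomial.coeff_C_mul]
      exact mdiff_sub (ih hF' m) (mdiff_mul ha' (ih hF' (m + 1)))

theorem hasQExp_aeval {f : ℍ → ℂ} {x : LaurentSeries ℂ} (hf : HasQExp h f x)
    (P : Polynomial ℂ) : HasQExp h (fun τ => P.eval (f τ)) (Polynomial.aeval x P) := by
  induction P using Polynomial.induction_on with
  | C a =>
    simp only [Polynomial.eval_C, Polynomial.aeval_C]
    refine (HasQExp.const a).of_eq ?_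
    rw [ModularCurve.algebraMap_laurentSeries_eq_single, HahnSeries.C_apply]
  | add p q hp hq =>
    simp only [Polynomial.eval_add, map_add]
    exact hp.add hq
  | monomial n a _ =>
    simp only [Polynomial.eval_mul, Polynomial.eval_C, Polynomial.eval_pow, Polynomial.eval_X,
      map_mul, Polynomial.aeval_C, map_pow, Polynomial.aeval_X]
    refine ((hf.pow (n + 1)).const_mul a).of_eq ?_
    rw [ModularCurve.algebraMap_laurentSeries_eq_single, HahnSeries.C_apply]

theorem mdifferentiable_eval {f : ℍ → ℂ} (hf : MDiff f) (P : Polynomial ℂ) :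
    MDiff fun τ => P.eval (f τ) := by
  induction P using Polynomial.induction_on with
  | C a => simpa using mdiff_const a
  | add p q hp hq => simpa using mdiff_add hp hq
  | monomial n a _ => simpa using mdiff_mul (mdiff_const a) (mdiff_pow hf (n + 1))

/-- Expansion of `τ ↦ G (f τ, g τ)`. -/
theorem hasQExp_eval₂ {f g : ℍ → ℂ} {x y : LaurentSeries ℂ} (hf : HasQExp h f x)
    (hg : HasQExp h g y) (G : Polynomial (Polynomial ℂ)) :
    HasQExp h (fun τ => G.eval₂ (Polynomial.evalRingHom (f τ)) (g τ))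
      (G.eval₂ (Polynomial.aeval (R := ℂ) x).toRingHom y) := by
  induction G using Polynomial.induction_on with
  | C a => simpa using hasQExp_aeval hf a
  | add p q hp hq =>
    simp only [Polynomial.eval₂_add]
    exact hp.add hq
  | monomial n a _ =>
    simp only [Polynomial.eval₂_mul, Polynomial.eval₂_C, Polynomial.eval₂_pow, Polynomial.eval₂_X,
      Polynomial.coe_evalRingHom]
    exact (hasQExp_aeval hf a).mul (hg.pow (n + 1))

theorem mdifferentiable_eval₂ {f g : ℍ → ℂ} (hf : MDiff f) (hg : MDiff g)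
    (G : Polynomial (Polynomial ℂ)) :
    MDiff fun τ => G.eval₂ (Polynomial.evalRingHom (f τ)) (g τ) := by
  induction G using Polynomial.induction_on with
  | C a => simpa using mdifferentiable_eval hf a
  | add p q hp hq => simpa using mdiff_add hp hq
  | monomial n a _ => simpa using mdiff_mul (mdifferentiable_eval hf a) (mdiff_pow hg (n + 1))

end Products

end Fermat.Agent.ModFun

end
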