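/-
Meromorphic modular functions for Gamma0(N).
-/
import Fermat.Agent.ModFun.JFun
import Mathlib.NumberTheory.ModularForms.CongruenceSubgroups
import Fermat.Agent.Gamma0.HeckeReps

set_option autoImplicit false

noncomputable section

open Filter Function UpperHalfPlane Complex CongruenceSubgroup ModularCurve
open scoped Topology Manifold MatrixGroups

namespace Fermat.Agent.ModFun

/-- Meromorphic on the upper half plane. -/
def MeroH (f : ℍ → ℂ) : Prop := MeromorphicOn (f ∘ ofComplex) upperHalfPlaneSet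

/-- The order of vanishing at a point of the upper half plane. -/
def ordH (f : ℍ → ℂ) (τ : ℍ) : WithTop ℤ := meromorphicOrderAt (f ∘ ofComplex) (τ : ℂ)

/-- Equality of meromorphic functions: equality on a punctured neighbourhood of every point. -/
def EqPunct (f g : ℍ → ℂ) : Prop :=
  ∀ τ : ℍ, (f ∘ ofComplex) =ᶠ[𝓝[≠] (τ : ℂ)] (g ∘ ofComplex)

/-- Normal form of a meromorphic function: analytic wherever its order is nonnegative, and zero at
its poles. -/
def nfH (f : ℍ → ℂ) (τ : ℍ) : ℂ := toMeromorphicNFOn (f ∘ ofComplex) upperHalfPlaneSet (τ : ℂ)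

/-- Meromorphic modular function for `Gamma0 N`: meromorphic on `ℍ`, invariant, meromorphic at
every cusp. -/
structure IsModularFun (N : ℕ) (f : ℍ → ℂ) : Prop where
  mero : MeroH f
  smul_eq : ∀ γ ∈ Gamma0 N, ∀ τ : ℍ, f (γ • τ) = f τ
  cusps : ∀ γ : SL(2, ℤ), ∃ x, HasQExp N (fun τ => f (γ • τ)) x

theorem meroH_of_mdifferentiable {f : ℍ → ℂ} (hf : MDiff f) : MeroH f :=
  fun z hz => ((UpperHalfPlane.mdifferentiable_iff.1 hf).analyticAt
    (isOpen_upperHalfPlaneSet.mem_nhds hz)).meromorphicAt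

theorem det_mapGL_pos (γ : SL(2, ℤ)) :
    0 < (Matrix.SpecialLinearGroup.mapGL ℝ γ : GL (Fin 2) ℝ).val.det := by
  rw [Matrix.SpecialLinearGroup.mapGL_coe_matrix, Matrix.SpecialLinearGroup.det_coe]
  exact one_pos

theorem tendsto_coe_smul_nhdsNE (γ : SL(2, ℤ)) (τ : ℍ) :
    Tendsto (fun z : ℂ => ((γ • ofComplex z : ℍ) : ℂ)) (𝓝[≠] (τ : ℂ)) (𝓝[≠] ((γ • τ : ℍ) : ℂ)) := by
  refine tendsto_nhdsWithin_iff.2 ⟨?_, ?_⟩
  · have hc : ContinuousAt (fun z : ℂ => ((γ • ofComplex z : ℍ) : ℂ)) (τ : ℂ) :=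
      (UpperHalfPlane.analyticAt_smul (g := Matrix.SpecialLinearGroup.mapGL ℝ γ) (det_mapGL_pos γ)
        τ).continuousAt
    have h := hc.tendsto
    rw [ofComplex_apply] at h
    exact h.mono_left nhdsWithin_le_nhds
  · filter_upwards [self_mem_nhdsWithin,
      mem_nhdsWithin_of_mem_nhds (isOpen_upperHalfPlaneSet.mem_nhds τ.im_pos)] with z hz hz'
    intro he
    rw [Set.mem_singleton_iff, UpperHalfPlane.coe_inj, smul_left_cancel_iff] at he
    apply hz
    rw [Set.mem_singleton_iff, ← he, ofComplex_apply_of_im_pos hz']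

theorem comp_smul_ofComplex (f : ℍ → ℂ) (γ : SL(2, ℤ)) :
    (fun z => f (γ • z)) ∘ ofComplex =
      (f ∘ ofComplex) ∘ fun z : ℂ => ((γ • ofComplex z : ℍ) : ℂ) := by
  funext z
  simp [ofComplex_apply]

theorem MeroH.comp_smul {f : ℍ → ℂ} (hf : MeroH f) (γ : SL(2, ℤ)) :
    MeroH fun z => f (γ • z) := by
  intro z hz
  rw [comp_smul_ofComplex]
  refine MeromorphicAt.comp_analyticAt ?_
    (UpperHalfPlane.analyticAt_smul (g := Matrix.SpecialLinearGroup.mapGL ℝ γ) (det_mapGL_pos γ) ⟨z, hz⟩)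
  exact hf _ (γ • ofComplex z).im_pos

theorem EqPunct.comp_smul {f g : ℍ → ℂ} (h : EqPunct f g) (γ : SL(2, ℤ)) :
    EqPunct (fun z => f (γ • z)) (fun z => g (γ • z)) := fun τ => by
  rw [comp_smul_ofComplex, comp_smul_ofComplex]
  exact (h (γ • τ)).comp_tendsto (tendsto_coe_smul_nhdsNE γ τ)

theorem ordH_comp_smul (f : ℍ → ℂ) (γ : SL(2, ℤ)) (τ : ℍ) :
    ordH (fun z => f (γ • z)) τ = ordH f (γ • τ) :=
  UpperHalfPlane.meromorphicOrderAt_comp_smul (g := Matrix.SpecialLinearGroup.mapGL ℝ γ)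
    (det_mapGL_pos γ)

namespace EqPunct

variable {f g k : ℍ → ℂ}

protected theorem refl (f : ℍ → ℂ) : EqPunct f f := fun _ => EventuallyEq.rfl

protected theorem symm (h : EqPunct f g) : EqPunct g f := fun τ => (h τ).symm

protected theorem trans (h : EqPunct f g) (h' : EqPunct g k) : EqPunct f k :=
  fun τ => (h τ).trans (h' τ)

theorem ordH_eq (h : EqPunct f g) (τ : ℍ) : ordH f τ = ordH g τ :=
  meromorphicOrderAt_congr (h τ)

end EqPunct

theorem nfH_comp_ofComplex_eventuallyEq (f : ℍ → ℂ) (τ : ℍ) :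
    nfH f ∘ ofComplex =ᶠ[𝓝 (τ : ℂ)]
      toMeromorphicNFOn (f ∘ ofComplex) upperHalfPlaneSet := by
  filter_upwards [isOpen_upperHalfPlaneSet.mem_nhds τ.im_pos] with z hz
  simp [nfH, ofComplex_apply_of_im_pos hz]

theorem meromorphicNFAt_nfH (f : ℍ → ℂ) (τ : ℍ) :
    MeromorphicNFAt (nfH f ∘ ofComplex) (τ : ℂ) := by
  rw [meromorphicNFAt_congr (nfH_comp_ofComplex_eventuallyEq f τ)]
  exact meromorphicNFOn_toMeromorphicNFOn _ _ τ.im_pos

theorem meroH_nfH (f : ℍ → ℂ) : MeroH (nfH f) :=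
  fun z hz => (meromorphicNFAt_nfH f ⟨z, hz⟩).meromorphicAt

theorem eqPunct_nfH {f : ℍ → ℂ} (hf : MeroH f) : EqPunct (nfH f) f := fun τ =>
  ((nfH_comp_ofComplex_eventuallyEq f τ).filter_mono nhdsWithin_le_nhds).trans
    (hf.toMeromorphicNFOn_eq_self_on_nhdsNE τ.im_pos)

theorem ordH_nfH {f : ℍ → ℂ} (hf : MeroH f) (τ : ℍ) : ordH (nfH f) τ = ordH f τ :=
  (eqPunct_nfH hf).ordH_eq τ

/-- Where `f` is analytic it agrees with its normal form. -/
theorem nfH_apply_of_analyticAt {f : ℍ → ℂ} (hf : MeroH f) {τ : ℍ}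
    (h : AnalyticAt ℂ (f ∘ ofComplex) (τ : ℂ)) : nfH f τ = f τ := by
  rw [nfH, toMeromorphicNFOn_eq_toMeromorphicNFAt hf τ.im_pos,
    toMeromorphicNFAt_eq_self.2 h.meromorphicNFAt, Function.comp_apply, ofComplex_apply]

theorem analyticAt_nfH {f : ℍ → ℂ} (hf : MeroH f) {τ : ℍ} (h : 0 ≤ ordH f τ) :
    AnalyticAt ℂ (nfH f ∘ ofComplex) (τ : ℂ) := by
  refine (meromorphicNFAt_nfH f τ).meromorphicOrderAt_nonneg_iff_analyticAt.1 ?_
  rw [← ordH, ordH_nfH hf]
  exact h

theorem mdifferentiable_nfH {f : ℍ → ℂ} (hf : MeroH f) (h : ∀ τ, 0 ≤ ordH f τ) :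
    MDiff (nfH f) := by
  rw [UpperHalfPlane.mdifferentiable_iff]
  exact fun z hz =>
    (analyticAt_nfH hf (h ⟨z, hz⟩)).differentiableAt.differentiableWithinAt

/-- Meromorphic functions in normal form which agree near every point are equal. -/
theorem eq_of_eqPunct {f g : ℍ → ℂ} (hf : ∀ τ : ℍ, MeromorphicNFAt (f ∘ ofComplex) (τ : ℂ))
    (hg : ∀ τ : ℍ, MeromorphicNFAt (g ∘ ofComplex) (τ : ℂ)) (h : EqPunct f g) : f = g := by
  funext τ
  have h1 := (((hf τ).eventuallyEq_nhdsNE_iff_eventuallyEq_nhds (hg τ)).1 (h τ)).eq_of_nhds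
  simpa [ofComplex_apply] using h1

theorem nfH_comp_smul {f : ℍ → ℂ} (hf : MeroH f) (γ : SL(2, ℤ)) :
    (fun z => nfH f (γ • z)) = nfH fun z => f (γ • z) := by
  refine eq_of_eqPunct (fun τ => ?_) (meromorphicNFAt_nfH _)
    (((eqPunct_nfH hf).comp_smul γ).trans (eqPunct_nfH (hf.comp_smul γ)).symm)
  rw [comp_smul_ofComplex]
  refine MeromorphicNFAt.comp_analyticAt ?_
    (UpperHalfPlane.analyticAt_smul (g := Matrix.SpecialLinearGroup.mapGL ℝ γ) (det_mapGL_pos γ) τ)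
  exact meromorphicNFAt_nfH f (γ • ofComplex (τ : ℂ))

theorem ordH_eq_top_iff {f : ℍ → ℂ} (hf : MeroH f) {τ : ℍ} : ordH f τ = ⊤ ↔ EqPunct f 0 := by
  constructor
  · intro h σ
    by_contra hne
    refine (MeromorphicOn.exists_meromorphicOrderAt_ne_top_iff_forall hf
      ⟨⟨(τ : ℂ), τ.im_pos⟩, Convex.isPreconnected (convex_halfSpace_im_gt 0)⟩).1
      ⟨⟨(σ : ℂ), σ.im_pos⟩, fun h0 => hne ?_⟩ ⟨(τ : ℂ), τ.im_pos⟩ h
    exact (meromorphicOrderAt_eq_top_iff.1 h0).mono fun z hz => by simpa using hz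
  · intro h
    exact meromorphicOrderAt_eq_top_iff.2 ((h τ).mono fun z hz => by simpa using hz)

namespace IsModularFun

variable {N : ℕ} [NeZero N] {f g : ℍ → ℂ}

theorem const (c : ℂ) : IsModularFun N fun _ => c where
  mero := fun z _ => (MeromorphicAt.const c z)
  smul_eq := fun _ _ _ => rfl
  cusps := fun _ => ⟨_, HasQExp.const c⟩

protected theorem add (hf : IsModularFun N f) (hg : IsModularFun N g) :
    IsModularFun N (f + g) where
  mero := MeromorphicOn.add hf.mero hg.mero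
  smul_eq := fun γ hγ τ => by
    show f (γ • τ) + g (γ • τ) = f τ + g τ
    rw [hf.smul_eq γ hγ, hg.smul_eq γ hγ]
  cusps := fun γ => by
    obtain ⟨x, hx⟩ := hf.cusps γ
    obtain ⟨y, hy⟩ := hg.cusps γ
    exact ⟨x + y, hx.add hy⟩

protected theorem sub (hf : IsModularFun N f) (hg : IsModularFun N g) :
    IsModularFun N (f - g) where
  mero := MeromorphicOn.sub hf.mero hg.mero
  smul_eq := fun γ hγ τ => by
    show f (γ • τ) - g (γ • τ) = f τ - g τ
    rw [hf.smul_eq γ hγ, hg.smul_eq γ hγ]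
  cusps := fun γ => by
    obtain ⟨x, hx⟩ := hf.cusps γ
    obtain ⟨y, hy⟩ := hg.cusps γ
    exact ⟨x - y, hx.sub hy⟩

protected theorem mul (hf : IsModularFun N f) (hg : IsModularFun N g) :
    IsModularFun N (f * g) where
  mero := MeromorphicOn.mul hf.mero hg.mero
  smul_eq := fun γ hγ τ => by
    show f (γ • τ) * g (γ • τ) = f τ * g τ
    rw [hf.smul_eq γ hγ, hg.smul_eq γ hγ]
  cusps := fun γ => by
    obtain ⟨x, hx⟩ := hf.cusps γ
    obtain ⟨y, hy⟩ := hg.cusps γ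
    exact ⟨x * y, hx.mul hy⟩

protected theorem inv (hf : IsModularFun N f) : IsModularFun N f⁻¹ where
  mero := MeromorphicOn.inv hf.mero
  smul_eq := fun γ hγ τ => by
    show (f (γ • τ))⁻¹ = (f τ)⁻¹
    rw [hf.smul_eq γ hγ]
  cusps := fun γ => by
    obtain ⟨x, hx⟩ := hf.cusps γ
    exact ⟨x⁻¹, hx.inv⟩

protected theorem nfH (hf : IsModularFun N f) : IsModularFun N (nfH f) where
  mero := meroH_nfH f
  smul_eq := fun γ hγ τ => by
    have h := congrFun (nfH_comp_smul hf.mero γ) τ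
    have he : (fun z => f (γ • z)) = f := funext (hf.smul_eq γ hγ)
    rwa [he] at h
  cusps := fun γ => by
    obtain ⟨x, hx⟩ := hf.cusps γ
    refine ⟨x, hx.congr ?_⟩
    filter_upwards [hx.eventually_analyticAt] with τ hτ
    rw [show ModFun.nfH f (γ • τ) = ModFun.nfH (fun z => f (γ • z)) τ from
      congrFun (nfH_comp_smul hf.mero γ) τ, nfH_apply_of_analyticAt (hf.mero.comp_smul γ) hτ]

/-- A modular function and its normal form have the same expansion. -/
theorem hasQExp_nfH (hf : IsModularFun N f) {h : ℕ} [NeZero h] {x : LaurentSeries ℂ}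
    (hx : HasQExp h f x) : HasQExp h (ModFun.nfH f) x := by
  refine hx.congr ?_
  filter_upwards [hx.eventually_analyticAt] with τ hτ
  rw [nfH_apply_of_analyticAt hf.mero hτ]

theorem exists_hasQExp (hf : IsModularFun N f) : ∃ x, HasQExp 1 f x := by
  obtain ⟨x, hx⟩ := hf.cusps 1
  simp only [one_smul] at hx
  have hx' : HasQExp (1 * N) f x := by rwa [one_mul]
  obtain ⟨y, -, hy⟩ := hx'.exists_of_periodic N (.of_forall fun τ => by
    rw [Nat.cast_one, ← UpperHalfPlane.modular_T_smul]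
    exact hf.smul_eq _ (by simp [Gamma0_mem, ModularGroup.T]) τ)
  exact ⟨y, hy⟩

theorem of_dvd {M : ℕ} [NeZero M] (h : N ∣ M) (hf : IsModularFun N f) : IsModularFun M f where
  mero := hf.mero
  smul_eq := fun γ hγ τ => hf.smul_eq γ (by
    rw [Gamma0_mem, ZMod.intCast_zmod_eq_zero_iff_dvd] at hγ ⊢
    exact dvd_trans (Int.natCast_dvd_natCast.2 h) hγ) τ
  cusps := fun γ => by
    obtain ⟨x, hx⟩ := hf.cusps γ
    obtain ⟨d, rfl⟩ := h
    have : NeZero d := ⟨(mul_ne_zero_iff.1 (NeZero.ne (N * d))).2⟩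
    exact ⟨_, hx.expand_period d⟩

theorem ordH_smul (hf : IsModularFun N f) {γ : SL(2, ℤ)} (hγ : γ ∈ Gamma0 N) (τ : ℍ) :
    ordH f (γ • τ) = ordH f τ := by
  rw [← ordH_comp_smul, show (fun z => f (γ • z)) = f from funext (hf.smul_eq γ hγ)]

/-- A modular function with nonzero expansion is nowhere locally zero. -/
theorem ordH_ne_top (hf : IsModularFun N f) {x : LaurentSeries ℂ} (hx : HasQExp 1 f x)
    (h0 : x ≠ 0) (τ : ℍ) : ordH f τ ≠ ⊤ := by
  intro hτ
  have hz := (ordH_eq_top_iff hf.mero).1 hτ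
  obtain ⟨σ, h1, h2⟩ := (hx.eventually_analyticAt.and (hx.eventually_ne_zero h0)).exists
  have h3 := (h1.continuousAt.eventuallyEq_nhds_iff_eventuallyEq_nhdsNE continuousAt_const).1
    ((hz σ).trans (by exact EventuallyEq.rfl))
  have h4 := h3.eq_of_nhds
  rw [Function.comp_apply, ofComplex_apply] at h4
  exact h2 h4

end IsModularFun

theorem isModularFun_jfun (N : ℕ) [NeZero N] : IsModularFun N jfun where
  mero := meroH_of_mdifferentiable mdifferentiable_jfun
  smul_eq := fun γ _ τ => jfun_smul γ τ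
  cusps := fun γ => by
    refine ⟨qExpand ℂ N (jqModC ℂ), HasQExp.congr ?_ (.of_forall fun τ => (jfun_smul γ τ).symm)⟩
    have h := hasQExp_jfun.expand_period N
    rwa [one_mul] at h

/-- The point `d • γ τ` is in the orbit of some `(a τ + b) / e`. -/
theorem exists_jNfun_smul_eq_triPoint (d : ℕ) [NeZero d] (γ : SL(2, ℤ)) :
    ∃ (a b e : ℕ) (_ : NeZero a) (_ : NeZero e), a * e = d ∧ b < e ∧
      Nat.gcd (Nat.gcd a b) e = 1 ∧ ∀ τ : ℍ, jNfun d (γ • τ) = jfun (triPoint a b e τ) := by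
  obtain ⟨⟨a, b⟩, ht, η, hη⟩ := Fermat.Agent.Gamma0.exists_reduction (N := d) γ
  obtain ⟨had, hb, hg⟩ := Fermat.Agent.Gamma0.mem_heckePairs.1 ht
  have hae : a * (d / a) = d := Nat.mul_div_cancel' had
  have : NeZero a := ⟨left_ne_zero_of_mul (hae.symm ▸ NeZero.ne d)⟩
  simp only [Fermat.Agent.Gamma0.heckeMat] at hη
  generalize hE : d / a = e at hb hg hae hη
  have : NeZero e := ⟨right_ne_zero_of_mul (hae.symm ▸ NeZero.ne d)⟩
  refine ⟨a, b, e, ‹_›, ‹_›, hae, hb, hg, fun τ => ?_⟩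
  have key : ModularForm.heckeDiagMatrix d • γ • τ = η • triPoint a b e τ := by
    have e00 := congrArg (fun M : Matrix (Fin 2) (Fin 2) ℤ => (M 0 0 : ℂ)) hη
    have e01 := congrArg (fun M : Matrix (Fin 2) (Fin 2) ℤ => (M 0 1 : ℂ)) hη
    have e10 := congrArg (fun M : Matrix (Fin 2) (Fin 2) ℤ => (M 1 0 : ℂ)) hη
    have e11 := congrArg (fun M : Matrix (Fin 2) (Fin 2) ℤ => (M 1 1 : ℂ)) hη
    simp [Fermat.Agent.Gamma0.levelMat, Matrix.mul_apply,
      Fin.sum_univ_two] at e00 e01 e10 e11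
    apply UpperHalfPlane.ext
    rw [ModularForm.coe_heckeDiagMatrix_smul (NeZero.ne d), coe_specialLinearGroup_apply,
      coe_specialLinearGroup_apply, coe_triPoint]
    simp only [algebraMap_int_eq, eq_intCast, Complex.ofReal_intCast]
    have he : (e : ℂ) ≠ 0 := Nat.cast_ne_zero.2 (NeZero.ne _)
    field_simp
    rw [mul_add, ← mul_assoc, e00, e01, e10, e11]
    congr 1 <;> ring
  rw [jNfun, key, jfun_smul]

theorem isModularFun_jNfun {N d : ℕ} [NeZero N] [NeZero d] (hd : d ∣ N) :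
    IsModularFun N (jNfun d) where
  mero := meroH_of_mdifferentiable (mdifferentiable_jNfun d)
  smul_eq := fun γ hγ τ => jNfun_smul d (by
    rw [Gamma0_mem, ZMod.intCast_zmod_eq_zero_iff_dvd] at hγ ⊢
    exact dvd_trans (Int.natCast_dvd_natCast.2 hd) hγ) τ
  cusps := fun γ => by
    obtain ⟨a, b, e, _, _, hae, -, -, h⟩ := exists_jNfun_smul_eq_triPoint d γ
    obtain ⟨c, hc⟩ := hd
    have : NeZero (a * c) := ⟨mul_ne_zero (NeZero.ne a)
      (right_ne_zero_of_mul (hc ▸ NeZero.ne N))⟩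
    have hN : e * (a * c) = N := by rw [hc, ← hae]; ring
    have h1 := (hasQExp_jfun.comp_triPoint a b e).expand_period (a * c)
    rw [hN] at h1
    exact ⟨_, h1.congr (.of_forall fun τ => (h τ).symm)⟩

end Fermat.Agent.ModFun

end
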