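/-
Modular functions of level one are functions of `j`.
-/
import Fermat.Agent.ModFun.Basic

set_option autoImplicit false

noncomputable section

open Filter Function UpperHalfPlane Complex ModularCurve IntermediateField
open scoped Topology Manifold MatrixGroups

namespace Fermat.Agent.ModFun

theorem coeff_aeval_jqModC_natDegree (K : Type*) [Field K] (P : Polynomial K) :
    (Polynomial.aeval (jqModC K) P).coeff (-(P.natDegree : ℤ)) = P.leadingCoeff := by
  rw [Polynomial.aeval_eq_sum_range, HahnSeries.coeff_sum, Finset.sum_eq_single P.natDegree]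
  · rw [Algebra.smul_def, algebraMap_laurentSeries_eq_single, HahnSeries.coeff_single_mul,
      sub_zero, coeff_jqModC_pow_self, mul_one, Polynomial.coeff_natDegree]
  · intro i hi hin
    rw [Finset.mem_range] at hi
    rw [Algebra.smul_def, algebraMap_laurentSeries_eq_single, HahnSeries.coeff_single_mul,
      sub_zero, coeff_jqModC_pow_of_lt K (by omega), mul_zero]
  · simp

theorem hasQExp_eval_jfun (P : Polynomial ℂ) :
    HasQExp 1 (fun τ => P.eval (jfun τ)) (Polynomial.aeval (jqModC ℂ) P) := by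
  induction P using Polynomial.induction_on' with
  | add P Q hP hQ => simp only [Polynomial.eval_add, map_add]; exact hP.add hQ
  | monomial n c =>
    simp only [Polynomial.eval_monomial, Polynomial.aeval_monomial,
      algebraMap_laurentSeries_eq_single, ← HahnSeries.C_apply]
    exact (hasQExp_jfun.pow n).const_mul c

theorem mdifferentiable_eval_jfun (P : Polynomial ℂ) : MDiff fun τ => P.eval (jfun τ) := by
  rw [UpperHalfPlane.mdifferentiable_iff]
  exact P.differentiable.comp_differentiableOn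
    (UpperHalfPlane.mdifferentiable_iff.1 mdifferentiable_jfun)

theorem isModularFun_eval_jfun (N : ℕ) [NeZero N] (P : Polynomial ℂ) :
    IsModularFun N fun τ => P.eval (jfun τ) where
  mero := meroH_of_mdifferentiable (mdifferentiable_eval_jfun P)
  smul_eq := fun γ _ τ => by simp only [jfun_smul]
  cusps := fun γ => by
    have h := (hasQExp_eval_jfun P).expand_period N
    rw [one_mul] at h
    exact ⟨_, h.congr (.of_forall fun τ => by simp only [jfun_smul])⟩

theorem withTop_natMul_le (M : ℕ) {c : ℤ} (hc : 0 ≤ c) {o : WithTop ℤ}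
    (h : (c : WithTop ℤ) ≤ o) : (((M : ℤ) * c : ℤ) : WithTop ℤ) ≤ (M : WithTop ℤ) * o := by
  induction o using WithTop.recTopCoe with
  | top =>
    rcases eq_or_ne M 0 with rfl | hM
    · simp
    · rw [WithTop.mul_top (by exact_mod_cast hM)]
      exact le_top
  | coe k =>
    have hk : c ≤ k := WithTop.coe_le_coe.1 h
    exact_mod_cast mul_le_mul_of_nonneg_left hk (Int.natCast_nonneg M)

theorem coeff_jqModC_pow_mem (R : Subring ℂ) (n : ℕ) (k : ℤ) :
    (jqModC ℂ ^ n).coeff k ∈ R := by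
  rw [← coeffMap_jqModC (Int.castRingHom ℂ), ← map_pow, coeffMap_coeff]
  exact intCast_mem R _

theorem exists_polynomial_jfun_aux (R : Subring ℂ) : ∀ (m : ℕ) {f : ℍ → ℂ} {x : LaurentSeries ℂ},
    MDiff f → (∀ (γ : SL(2, ℤ)) (τ : ℍ), f (γ • τ) = f τ) → HasQExp 1 f x →
    (∀ k, x.coeff k ∈ R) → (∀ k : ℤ, k < -(m : ℤ) → x.coeff k = 0) →
    ∃ P : Polynomial ℂ, (∀ i, P.coeff i ∈ R) ∧ x = Polynomial.aeval (jqModC ℂ) P ∧
      ∀ τ, f τ = P.eval (jfun τ) := by
  intro m
  induction m with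
  | zero =>
    intro f x hhol hinv hx hR hlow
    simp only [Nat.cast_zero, neg_zero] at hlow
    obtain ⟨c, hc⟩ := exists_eq_const_of_isBoundedAtImInfty hhol hinv
      (hx.isBoundedAtImInfty hlow)
    have ht := (hx.tendsto_coeff_zero hlow).congr hc
    have hc0 : x.coeff 0 = c := (tendsto_nhds_unique ht tendsto_const_nhds)
    have hxc : x = HahnSeries.C c :=
      (hx.congr (.of_forall hc)).unique (HasQExp.const c)
    refine ⟨Polynomial.C c, fun i => ?_, ?_, fun τ => ?_⟩
    · rw [Polynomial.coeff_C]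
      split_ifs
      · rw [← hc0]; exact hR 0
      · exact zero_mem R
    · rw [Polynomial.aeval_C, algebraMap_laurentSeries_eq_single, hxc, HahnSeries.C_apply]
    · rw [hc τ, Polynomial.eval_C]
  | succ m ih =>
    intro f x hhol hinv hx hR hlow
    set c := x.coeff (-((m + 1 : ℕ) : ℤ)) with hc
    set Q : Polynomial ℂ := Polynomial.monomial (m + 1) c with hQ
    have hx' : HasQExp 1 (fun τ => f τ - Q.eval (jfun τ))
        (x - Polynomial.aeval (jqModC ℂ) Q) := hx.sub (hasQExp_eval_jfun Q)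
    have hQc : ∀ k, (Polynomial.aeval (jqModC ℂ) Q).coeff k =
        c * (jqModC ℂ ^ (m + 1)).coeff k := fun k => by
      rw [hQ, Polynomial.aeval_monomial, algebraMap_laurentSeries_eq_single,
        HahnSeries.coeff_single_mul, sub_zero]
    obtain ⟨P, hPR, hPx, hPf⟩ := ih (f := fun τ => f τ - Q.eval (jfun τ))
      (hhol.sub (mdifferentiable_eval_jfun Q))
      (fun γ τ => by simp only [hinv, jfun_smul]) hx'
      (fun k => by
        rw [HahnSeries.coeff_sub, hQc]
        exact sub_mem (hR k) (mul_mem (hR _) (coeff_jqModC_pow_mem R _ _)))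
      (fun k hk => by
        rw [HahnSeries.coeff_sub, hQc]
        rcases lt_or_eq_of_le (show k ≤ -((m + 1 : ℕ) : ℤ) by omega) with hk' | hk'
        · rw [hlow k hk', coeff_jqModC_pow_of_lt ℂ hk', mul_zero, sub_zero]
        · rw [hk', coeff_jqModC_pow_self, mul_one, ← hc, sub_self])
    refine ⟨P + Q, fun i => ?_, ?_, fun τ => ?_⟩
    · rw [Polynomial.coeff_add, hQ, Polynomial.coeff_monomial]
      refine add_mem (hPR i) ?_
      split_ifs
      · exact hR _
      · exact zero_mem R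
    · rw [map_add, ← hPx, sub_add_cancel]
    · rw [Polynomial.eval_add, ← hPf τ, sub_add_cancel]

/-- A holomorphic invariant function, meromorphic at infinity, is a polynomial in `j`, with
coefficients in any ring containing those of its expansion. -/
theorem exists_polynomial_jfun (R : Subring ℂ) {f : ℍ → ℂ} {x : LaurentSeries ℂ} (hhol : MDiff f)
    (hinv : ∀ (γ : SL(2, ℤ)) (τ : ℍ), f (γ • τ) = f τ) (hx : HasQExp 1 f x)
    (hR : ∀ k, x.coeff k ∈ R) :
    ∃ P : Polynomial ℂ, (∀ i, P.coeff i ∈ R) ∧ x = Polynomial.aeval (jqModC ℂ) P ∧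
      (∀ τ, f τ = P.eval (jfun τ)) ∧ ∀ i : ℕ, (∀ k : ℤ, k ≤ -(i : ℤ) → x.coeff k = 0) →
        P.coeff i = 0 := by
  obtain ⟨P, hPR, hPx, hPf⟩ := exists_polynomial_jfun_aux R (-x.order).toNat hhol hinv hx hR
    fun k hk => HahnSeries.coeff_eq_zero_of_lt_order (by omega)
  refine ⟨P, hPR, hPx, hPf, fun i hi => ?_⟩
  by_contra hne
  have hP0 : P ≠ 0 := fun h => hne (by simp [h])
  have hd := Polynomial.le_natDegree_of_ne_zero hne
  have h := hi (-(P.natDegree : ℤ)) (by omega)
  rw [hPx, coeff_aeval_jqModC_natDegree] at h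
  exact hP0 (Polynomial.leadingCoeff_eq_zero.1 h)

/-- The poles of a modular function lie in finitely many orbits: some polynomial in `j` clears
them. -/
theorem exists_polynomial_mul_mdifferentiable {N : ℕ} [NeZero N] {f : ℍ → ℂ}
    (hf : IsModularFun N f) :
    ∃ P : Polynomial ℂ, P.Monic ∧ MDiff (nfH fun τ => P.eval (jfun τ) * f τ) := by
  haveI : Fintype (SL(2, ℤ) ⧸ CongruenceSubgroup.Gamma0 N) := Fintype.ofFinite _
  set F : SL(2, ℤ) ⧸ CongruenceSubgroup.Gamma0 N → ℍ → ℂ :=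
    fun q τ => f (q.out⁻¹ • τ) with hF
  have hA : ∀ q, ∃ A : ℝ, ∀ τ : ℍ, A ≤ τ.im → AnalyticAt ℂ (F q ∘ ofComplex) (τ : ℂ) := by
    intro q
    obtain ⟨x, hx⟩ := hf.cusps q.out⁻¹
    exact (atImInfty_mem _).1 hx.eventually_analyticAt
  choose A hA using hA
  obtain ⟨A₀, hA₀⟩ := (Set.finite_range A).bddAbove
  set K := ModularGroup.truncatedFundamentalDomain A₀ with hK
  have hbad : ∀ q, {z ∈ K | ordH (F q) z < 0}.Finite := by
    intro q
    have hKc : IsCompact (((↑) : ℍ → ℂ) '' K) :=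
      (ModularGroup.isCompact_truncatedFundamentalDomain A₀).image UpperHalfPlane.continuous_coe
    have hm : MeromorphicOn (F q ∘ ofComplex) (((↑) : ℍ → ℂ) '' K) := by
      rintro z ⟨σ, -, rfl⟩
      exact (hf.mero.comp_smul q.out⁻¹) _ σ.im_pos
    have h1 := hKc.finite_sdiff_of_mem_codiscreteWithin hm.analyticAt_mem_codiscreteWithin
    refine Set.Finite.of_finite_image (f := ((↑) : ℍ → ℂ)) (h1.subset ?_) ?_
    · rintro z ⟨σ, ⟨hσ, hneg⟩, rfl⟩
      exact ⟨⟨σ, hσ, rfl⟩, fun h => (h.meromorphicOrderAt_nonneg.trans_lt hneg).ne rfl⟩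
    · intro a _ b _ hab
      exact UpperHalfPlane.ext hab
  set B : Set ℍ := ⋃ q, {z ∈ K | ordH (F q) z < 0} with hB
  have hBfin : B.Finite := Set.finite_iUnion hbad
  have hBord : ∀ τ : ℍ, ordH f τ < 0 →
      ∃ q, ∃ z ∈ B, ordH (F q) z = ordH f τ ∧ jfun z = jfun τ := by
    intro τ hτ
    obtain ⟨g, hg⟩ := ModularGroup.exists_smul_mem_fd τ
    set q : SL(2, ℤ) ⧸ CongruenceSubgroup.Gamma0 N := QuotientGroup.mk g with hq
    have hmem : q.out⁻¹ * g ∈ CongruenceSubgroup.Gamma0 N :=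
      QuotientGroup.eq.1 (by rw [hq, QuotientGroup.out_eq'])
    have hord : ordH (F q) (g • τ) = ordH f τ := by
      rw [hF, ordH_comp_smul, ← mul_smul, hf.ordH_smul hmem]
    have hneg : ordH (F q) (g • τ) < 0 := hord ▸ hτ
    refine ⟨q, g • τ, Set.mem_iUnion.2 ⟨q, ⟨hg, ?_⟩, hneg⟩, hord, jfun_smul g τ⟩
    by_contra hc
    have hle : A q ≤ (g • τ).im := (hA₀ ⟨q, rfl⟩).trans (not_le.1 hc).le
    exact ((hA q _ hle).meromorphicOrderAt_nonneg.trans_lt hneg).ne rfl
  obtain ⟨M, hM⟩ : ∃ M : ℕ, ∀ q, ∀ z ∈ B, ordH (F q) z < 0 →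
      ((-(M : ℤ) : ℤ) : WithTop ℤ) ≤ ordH (F q) z ∨ ordH (F q) z = ⊤ := by
    refine ⟨Finset.univ.sup fun q => hBfin.toFinset.sup fun z =>
      (-((ordH (F q) z).untopD 0)).toNat, fun q z hz _ => ?_⟩
    rcases eq_or_ne (ordH (F q) z) ⊤ with h | h
    · exact Or.inr h
    left
    obtain ⟨k, hk⟩ := WithTop.ne_top_iff_exists.1 h
    have h2 : (-((ordH (F q) z).untopD 0)).toNat ≤
        Finset.univ.sup fun q => hBfin.toFinset.sup fun z =>
          (-((ordH (F q) z).untopD 0)).toNat :=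
      le_trans (Finset.le_sup (f := fun z => (-((ordH (F q) z).untopD 0)).toNat)
        (hBfin.mem_toFinset.2 hz))
        (Finset.le_sup (f := fun q => hBfin.toFinset.sup fun z =>
          (-((ordH (F q) z).untopD 0)).toNat) (Finset.mem_univ q))
    rw [← hk] at h2 ⊢
    rw [WithTop.untopD_coe] at h2
    exact WithTop.coe_le_coe.2 (by omega)
  classical
  set P₀ : Polynomial ℂ := ∏ c ∈ (hBfin.image jfun).toFinset,
    (Polynomial.X - Polynomial.C c) with hP₀
  refine ⟨P₀ ^ M, (Polynomial.monic_prod_of_monic _ _ fun c _ => Polynomial.monic_X_sub_C c).pow M,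
    ?_⟩
  have hmP : ∀ P : Polynomial ℂ, ∀ τ : ℍ,
      AnalyticAt ℂ ((fun σ => P.eval (jfun σ)) ∘ ofComplex) (τ : ℂ) := fun P τ =>
    (UpperHalfPlane.mdifferentiable_iff.1 (mdifferentiable_eval_jfun P)).analyticAt
      (isOpen_upperHalfPlaneSet.mem_nhds τ.im_pos)
  refine mdifferentiable_nfH (MeromorphicOn.mul
    (meroH_of_mdifferentiable (mdifferentiable_eval_jfun _)) hf.mero) fun τ => ?_
  have hmul : ordH (fun σ => (P₀ ^ M).eval (jfun σ) * f σ) τ =
      (M : WithTop ℤ) * ordH (fun σ => P₀.eval (jfun σ)) τ + ordH f τ := by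
    have e : (fun σ => (P₀ ^ M).eval (jfun σ) * f σ) ∘ ofComplex =
        ((fun σ => P₀.eval (jfun σ)) ∘ ofComplex) ^ M * (f ∘ ofComplex) := by
      funext z; simp
    rw [ordH, e, meromorphicOrderAt_mul ((hmP P₀ τ).pow M).meromorphicAt (hf.mero _ τ.im_pos),
      meromorphicOrderAt_pow (hmP P₀ τ).meromorphicAt]
    rfl
  rw [hmul]
  have hP0 : 0 ≤ ordH (fun σ => P₀.eval (jfun σ)) τ := (hmP P₀ τ).meromorphicOrderAt_nonneg
  rcases le_or_gt 0 (ordH f τ) with h | h
  · refine add_nonneg ?_ h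
    simpa using withTop_natMul_le M (c := 0) le_rfl hP0
  obtain ⟨q, z, hz, hord, hj⟩ := hBord τ h
  have hzero : P₀.eval (jfun τ) = 0 := by
    rw [hP₀, Polynomial.eval_prod]
    refine Finset.prod_eq_zero (i := jfun τ) ?_ (by simp)
    rw [Set.Finite.mem_toFinset]
    exact ⟨z, hz, hj⟩
  have hP1 : 1 ≤ ordH (fun σ => P₀.eval (jfun σ)) τ := by
    have hne : analyticOrderAt ((fun σ => P₀.eval (jfun σ)) ∘ ofComplex) (τ : ℂ) ≠ 0 :=
      (hmP P₀ τ).analyticOrderAt_ne_zero.2 (by simp [hzero])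
    rw [ordH, (hmP P₀ τ).meromorphicOrderAt_eq]
    generalize analyticOrderAt ((fun σ => P₀.eval (jfun σ)) ∘ ofComplex) (τ : ℂ) = o at hne
    induction o using ENat.recTopCoe with
    | top => simp
    | coe k =>
      have hk : 1 ≤ k := Nat.one_le_iff_ne_zero.2 (by exact_mod_cast hne)
      rw [ENat.map_coe]
      exact_mod_cast hk
  rcases hM q z hz (hord ▸ h) with hle | htop
  · rw [hord] at hle
    calc (0 : WithTop ℤ) = (((M : ℤ) * 1 : ℤ) : WithTop ℤ) + ((-(M : ℤ) : ℤ) : WithTop ℤ) := by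
          rw [mul_one, ← WithTop.coe_add, add_neg_cancel, WithTop.coe_zero]
      _ ≤ _ := add_le_add (withTop_natMul_le M zero_le_one hP1) hle
  · rw [hord] at htop
    exact absurd htop h.ne_top

theorem mem_adjoin_jqModC_of_isModularFun_one {f : ℍ → ℂ} {x : LaurentSeries ℂ}
    (hf : IsModularFun 1 f) (hx : HasQExp 1 f x) : x ∈ ℂ⟮jqModC ℂ⟯ := by
  obtain ⟨P, hP, hhol⟩ := exists_polynomial_mul_mdifferentiable hf
  have hg : IsModularFun 1 fun τ => P.eval (jfun τ) * f τ := (isModularFun_eval_jfun 1 P).mul hf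
  obtain ⟨Q, -, hQ, -, -⟩ := exists_polynomial_jfun ⊤ hhol
    (fun γ τ => hg.nfH.smul_eq γ (by
      rw [CongruenceSubgroup.Gamma0_mem]; exact Subsingleton.elim _ _) τ)
    (hg.hasQExp_nfH ((hasQExp_eval_jfun P).mul hx)) (fun _ => Subring.mem_top _)
  have hP0 : Polynomial.aeval (jqModC ℂ) P ≠ 0 := fun h =>
    hP.ne_zero ((transcendental_iff.1 (transcendental_jqModC ℂ)) P h)
  have hmem : ∀ R : Polynomial ℂ, Polynomial.aeval (jqModC ℂ) R ∈ ℂ⟮jqModC ℂ⟯ := fun R => by
    rw [Polynomial.aeval_eq_sum_range]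
    refine sum_mem fun i _ => ?_
    rw [Algebra.smul_def]
    exact mul_mem (IntermediateField.algebraMap_mem _ _)
      (pow_mem (IntermediateField.mem_adjoin_simple_self ℂ _) i)
  rw [show x = Polynomial.aeval (jqModC ℂ) Q / Polynomial.aeval (jqModC ℂ) P by
    rw [← hQ, mul_div_cancel_left₀ _ hP0]]
  exact div_mem (hmem Q) (hmem P)

end Fermat.Agent.ModFun

end
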