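/-
Lagrange interpolation of a holomorphic modular function at the conjugates of
`j (N τ)`.
-/
import Fermat.Agent.ModFun.BConjugates
import Fermat.Agent.ModFun.LevelOne

set_option autoImplicit false
set_option maxHeartbeats 400000

noncomputable section

open Filter Function UpperHalfPlane Complex ModularCurve CongruenceSubgroup
open scoped Topology Manifold MatrixGroups

namespace Fermat.Agent.ModFun

/-- Laurent series all of whose coefficients lie in `R`. -/
def coeffSubring (R : Subring ℂ) : Subring (LaurentSeries ℂ) := (coeffMap R.subtype).range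

theorem mem_coeffSubring {R : Subring ℂ} {x : LaurentSeries ℂ} :
    x ∈ coeffSubring R ↔ ∀ k, x.coeff k ∈ R := by
  constructor
  · rintro ⟨y, rfl⟩ k
    rw [coeffMap_coeff]
    exact (y.coeff k).2
  · intro h
    refine ⟨{ coeff := fun k => ⟨x.coeff k, h k⟩
              isPWO_support' := x.isPWO_support'.mono fun k hk h0 => hk (Subtype.ext h0) }, ?_⟩
    ext k
    rw [coeffMap_coeff]
    rfl

theorem zetaU_zpow_mem (R : Subring ℂ) {N : ℕ} [NeZero N] (hζ : (zetaU N : ℂ) ∈ R) (m : ℤ) :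
    (zetaU N : ℂ) ^ m ∈ R := by
  have h0 : (zetaU N : ℂ) ≠ 0 := zetaU_ne_zero N
  have hN : (zetaU N : ℂ) ^ (N : ℤ) = 1 := by
    rw [zpow_natCast]; exact (isPrimitiveRoot_zetaU N).pow_eq_one
  obtain ⟨n, hn⟩ : ∃ n : ℕ, (n : ℤ) = m % N :=
    ⟨(m % N).toNat, Int.toNat_of_nonneg (Int.emod_nonneg _ (by exact_mod_cast NeZero.ne N))⟩
  rw [← Int.mul_ediv_add_emod m N, zpow_add₀ h0, zpow_mul, hN, one_zpow, one_mul, ← hn,
    zpow_natCast]
  exact pow_mem hζ n

theorem conjSeries_mem_coeffSubring (R : Subring ℂ) {N : ℕ} [NeZero N]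
    (hζ : (zetaU N : ℂ) ∈ R) {t : ℕ × ℕ × ℕ} (ht : t ∈ hnfSet N) :
    conjSeries t ∈ coeffSubring R := by
  obtain ⟨a, b, d⟩ := t
  obtain ⟨h1, -, -⟩ := mem_hnfSet.1 ht
  obtain ⟨ha, hd⟩ := hnfSet_ne_zero ht
  dsimp only at h1 ha hd
  have : NeZero a := ⟨ha⟩
  have hpow : (zetaU d : ℂ) = (zetaU N : ℂ) ^ (a : ℤ) := by
    have hd' : (d : ℂ) ≠ 0 := Nat.cast_ne_zero.2 hd
    have ha' : (a : ℂ) ≠ 0 := Nat.cast_ne_zero.2 ha
    rw [zpow_natCast, ← h1]
    simp only [zetaU, Units.val_mk0, ← Complex.exp_nat_mul]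
    congr 1
    push_cast
    field_simp
  rw [mem_coeffSubring, conjSeries_eq]
  intro k
  by_cases hk : ((a * a : ℕ) : ℤ) ∣ k
  · obtain ⟨m, rfl⟩ := hk
    rw [qExpand_coeff_mul, twist_coeff, coeff_jqModC_eq_intCast, Units.val_pow_eq_pow_val,
      hpow, ← zpow_natCast _ b, ← zpow_mul, ← zpow_mul]
    exact mul_mem (zetaU_zpow_mem R hζ _) (intCast_mem R _)
  · rw [qExpand_coeff_of_not_dvd _ _ hk]
    exact zero_mem R

theorem coeff_prod_X_sub_C_mem {A : Type*} [CommRing A] (S : Subring A) {ι : Type*}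
    {s : Finset ι} {r : ι → A} (hr : ∀ i ∈ s, r i ∈ S) (m : ℕ) :
    (∏ i ∈ s, (Polynomial.X - Polynomial.C (r i))).coeff m ∈ S := by
  induction s using Finset.cons_induction generalizing m with
  | empty =>
    rw [Finset.prod_empty, Polynomial.coeff_one]
    split
    · exact one_mem S
    · exact zero_mem S
  | cons a s ha ih =>
    have hr' : ∀ i ∈ s, r i ∈ S := fun i hi => hr i (by simp [hi])
    rw [Finset.prod_cons]
    cases m with
    | zero =>
      rw [coeff_X_sub_C_mul_zero]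
      exact sub_mem (zero_mem S) (mul_mem (hr a (by simp)) (ih hr' 0))
    | succ m =>
      rw [coeff_X_sub_C_mul_succ]
      exact sub_mem (ih hr' m) (mul_mem (hr a (by simp)) (ih hr' (m + 1)))

theorem mdiff_finset_sum {ι : Type*} {s : Finset ι} {F : ι → ℍ → ℂ} (h : ∀ i ∈ s, MDiff (F i)) :
    MDiff fun τ => ∑ i ∈ s, F i τ := by
  induction s using Finset.cons_induction with
  | empty => simpa using mdiff_const 0
  | cons a s ha ih =>
    simp only [Finset.sum_cons]
    exact mdiff_add (h a (by simp)) (ih fun i hi => h i (by simp [hi]))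

theorem card_coset_eq_dedekindPsi (N : ℕ) [NeZero N] [Fintype (SL(2, ℤ) ⧸ Gamma0 N)] :
    Fintype.card (SL(2, ℤ) ⧸ Gamma0 N) = dedekindPsi N := by
  rw [← Nat.card_eq_fintype_card, Nat.card_congr (Gamma0.heckeEquiv (N := N)),
    Nat.card_eq_finsetCard, Gamma0.card_heckePairs]

/-- The conjugate `τ ↦ f (g⁻¹ τ)` attached to a coset `g Gamma0(N)`. -/
def funConj (N : ℕ) (f : ℍ → ℂ) (q : SL(2, ℤ) ⧸ Gamma0 N) (τ : ℍ) : ℂ := f (q.out⁻¹ • τ)

theorem funConj_mk {N : ℕ} {f : ℍ → ℂ} (hf : IsModularFun N f) (g : SL(2, ℤ)) (τ : ℍ) :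
    funConj N f (QuotientGroup.mk g) τ = f (g⁻¹ • τ) := by
  obtain ⟨h, hh⟩ := QuotientGroup.mk_out_eq_mul (Gamma0 N) g
  rw [funConj, hh, mul_inv_rev, mul_smul]
  exact hf.smul_eq _ (inv_mem h.2) _

theorem funConj_smul {N : ℕ} {f : ℍ → ℂ} (hf : IsModularFun N f) (σ : SL(2, ℤ))
    (q : SL(2, ℤ) ⧸ Gamma0 N) (τ : ℍ) :
    funConj N f q (σ • τ) = funConj N f (σ⁻¹ • q) τ := by
  obtain ⟨g, rfl⟩ := QuotientGroup.mk_surjective q
  rw [MulAction.Quotient.smul_mk, smul_eq_mul, funConj_mk hf, funConj_mk hf, ← mul_smul,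
    mul_inv_rev, inv_inv]

/-- Lagrange interpolation, for any `P` whose specialisation at `j τ` has the conjugates of
`j (N τ)` as its roots. -/
theorem exists_lagrange_of_roots (R : Subring ℂ) {N : ℕ} [NeZero N]
    [Fintype (SL(2, ℤ) ⧸ Gamma0 N)] (P : Polynomial (Polynomial ℂ))
    (hP : ∀ τ : ℍ, P.map (Polynomial.evalRingHom (jfun τ)) =
      ∏ q : SL(2, ℤ) ⧸ Gamma0 N, (Polynomial.X - Polynomial.C (jConjFun N q τ)))
    {f : ℍ → ℂ} {x : LaurentSeries ℂ} (hf : IsModularFun N f) (hhol : MDiff f)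
    (hx : HasQExp 1 f x) (hζ : (zetaU N : ℂ) ∈ R)
    (hR : ∀ (γ : SL(2, ℤ)) (y : LaurentSeries ℂ),
      HasQExp N (fun τ => f (γ • τ)) y → ∀ k, y.coeff k ∈ R) :
    ∃ G : Polynomial (Polynomial ℂ), G.natDegree < dedekindPsi N ∧
      (∀ i j, (G.coeff i).coeff j ∈ R) ∧
      x * (Polynomial.derivative P).eval₂ (Polynomial.aeval (R := ℂ) (jqModC ℂ)).toRingHom
          (jqNModC ℂ N) =
        G.eval₂ (Polynomial.aeval (R := ℂ) (jqModC ℂ)).toRingHom (jqNModC ℂ N) := by
  classical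
  have hy : ∀ q : SL(2, ℤ) ⧸ Gamma0 N, ∃ y, HasQExp N (funConj N f q) y ∧
      y ∈ coeffSubring R := fun q => by
    obtain ⟨y, hy⟩ := hf.cusps q.out⁻¹
    exact ⟨y, hy, mem_coeffSubring.2 (hR _ y hy)⟩
  choose y hy hyR using hy
  set J := fun q : SL(2, ℤ) ⧸ Gamma0 N => jConjFun N q with hJ
  set S := fun q : SL(2, ℤ) ⧸ Gamma0 N => conjSeries (conjEquiv N q).1 with hS
  set L : ℍ → Polynomial ℂ := fun τ => ∑ q : SL(2, ℤ) ⧸ Gamma0 N,
    Polynomial.C (funConj N f q τ) *
      ∏ h ∈ Finset.univ.erase q, (Polynomial.X - Polynomial.C (J h τ)) with hL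
  set W : ℕ → LaurentSeries ℂ := fun m => ∑ q : SL(2, ℤ) ⧸ Gamma0 N,
    y q * (∏ h ∈ Finset.univ.erase q, (Polynomial.X - Polynomial.C (S h))).coeff m with hW
  have hLexp : ∀ m, HasQExp N (fun τ => (L τ).coeff m) (W m) := by
    intro m
    refine (HasQExp.sum (s := Finset.univ) fun q _ =>
      (hy q).mul (hasQExp_coeff_prod (s := Finset.univ.erase q)
        (fun h _ => hasQExp_jConjFun N h) m)).congr (.of_forall fun τ => ?_)
    simp only [hL, Finset.sum_apply, Pi.mul_apply, Polynomial.finsetSum_coeff,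
      Polynomial.coeff_C_mul]
    rfl
  have hWR : ∀ m, W m ∈ coeffSubring R := fun m =>
    sum_mem fun q _ => mul_mem (hyR q) (coeff_prod_X_sub_C_mem _
      (fun h _ => conjSeries_mem_coeffSubring R hζ (conjEquiv N h).2) m)
  have hLhol : ∀ m, MDiff fun τ => (L τ).coeff m := by
    intro m
    have h := mdiff_finset_sum (s := Finset.univ) fun q (_ : q ∈ Finset.univ) =>
      mdiff_mul (f := funConj N f q) (mdifferentiable_comp_smul hhol q.out⁻¹)
        (mdifferentiable_coeff_prod (s := Finset.univ.erase q)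
          (fun h _ => mdifferentiable_jConjFun N h) m)
    simpa only [hL, Polynomial.finsetSum_coeff, Polynomial.coeff_C_mul] using h
  have hLinv : ∀ (σ : SL(2, ℤ)) (τ : ℍ), L (σ • τ) = L τ := by
    intro σ τ
    simp only [hL]
    refine Fintype.sum_equiv (MulAction.toPerm σ⁻¹) _ _ fun q => ?_
    rw [MulAction.toPerm_apply, funConj_smul hf]
    congr 1
    refine Finset.prod_equiv (MulAction.toPerm σ⁻¹) (fun h => ?_) (fun h _ => ?_)
    · simp
    · simp only [hJ, MulAction.toPerm_apply, jConjFun_smul]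
  have hpoly : ∀ m, ∃ Pm : Polynomial ℂ, (∀ i, Pm.coeff i ∈ R) ∧
      ∀ τ, (L τ).coeff m = Pm.eval (jfun τ) := by
    intro m
    have h1 : HasQExp (1 * N) (fun τ => (L τ).coeff m) (W m) := by
      rw [one_mul]; exact hLexp m
    obtain ⟨z, hz, hz'⟩ := h1.exists_of_periodic N (.of_forall fun τ => by
      rw [Nat.cast_one, ← UpperHalfPlane.modular_T_smul]
      show (L (ModularGroup.T • τ)).coeff m = _
      rw [hLinv])
    obtain ⟨Pm, hPR, -, hPm, -⟩ := exists_polynomial_jfun R (hLhol m)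
      (fun σ τ => by rw [hLinv]) hz' (fun k => by
        have := mem_coeffSubring.1 (hWR m) ((N : ℤ) * k)
        rwa [hz, qExpand_coeff_mul] at this)
    exact ⟨Pm, hPR, hPm⟩
  choose Pm hPR hPm using hpoly
  set ψ := dedekindPsi N with hψ
  set G : Polynomial (Polynomial ℂ) := ∑ m ∈ Finset.range ψ, Polynomial.monomial m (Pm m) with hG
  have hψ0 : 0 < ψ := by
    rw [hψ, ← card_coset_eq_dedekindPsi N]
    exact Fintype.card_pos
  have hGcoeff : ∀ i, G.coeff i = if i < ψ then Pm i else 0 := fun i => by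
    rw [hG, Polynomial.finsetSum_coeff]
    simp [Polynomial.coeff_monomial]
  refine ⟨G, ?_, fun i j => ?_, ?_⟩
  · refine lt_of_le_of_lt (Polynomial.natDegree_le_iff_coeff_eq_zero.2 fun i hi => ?_)
      (Nat.sub_one_lt_of_lt hψ0)
    rw [hGcoeff, if_neg (by omega)]
  · rw [hGcoeff]
    split
    · exact hPR i j
    · rw [Polynomial.coeff_zero]; exact zero_mem R
  have hGL : ∀ τ, G.map (Polynomial.evalRingHom (jfun τ)) = L τ := by
    intro τ
    ext i
    rw [Polynomial.coeff_map, hGcoeff, Polynomial.coe_evalRingHom]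
    split_ifs with hi
    · exact (hPm i τ).symm
    · rw [Polynomial.eval_zero]
      refine (Polynomial.coeff_eq_zero_of_natDegree_lt ?_).symm
      refine lt_of_le_of_lt (Polynomial.natDegree_sum_le_of_forall_le Finset.univ _
        (n := ψ - 1) fun q _ => ?_) (by omega)
      refine (Polynomial.natDegree_C_mul_le _ _).trans ?_
      rw [Polynomial.natDegree_finsetProd_X_sub_C_eq_card,
        Finset.card_erase_of_mem (Finset.mem_univ q), Finset.card_univ,
        card_coset_eq_dedekindPsi N]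
  have hfun : (f * fun τ => (Polynomial.derivative P).eval₂
        (Polynomial.evalRingHom (jfun τ)) (jNfun N τ)) =
      fun τ => G.eval₂ (Polynomial.evalRingHom (jfun τ)) (jNfun N τ) := by
    funext τ
    rw [Pi.mul_apply, Polynomial.eval₂_eq_eval_map, Polynomial.eval₂_eq_eval_map,
      ← Polynomial.derivative_map, hP, hGL, Polynomial.derivative_prod_finset]
    simp only [hL, Polynomial.eval_finsetSum, Finset.mul_sum]
    refine Finset.sum_congr rfl fun q _ => ?_
    simp only [Polynomial.derivative_sub, Polynomial.derivative_X, Polynomial.derivative_C,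
      sub_zero, mul_one, Polynomial.eval_mul, Polynomial.eval_C]
    rcases eq_or_ne q (QuotientGroup.mk 1) with rfl | hq
    · rw [funConj_mk hf, inv_one, one_smul]
    · have hzero : (∏ h ∈ Finset.univ.erase q,
          (Polynomial.X - Polynomial.C (jConjFun N h τ))).eval (jNfun N τ) = 0 := by
        rw [Polynomial.eval_prod]
        exact Finset.prod_eq_zero (i := QuotientGroup.mk 1)
          (Finset.mem_erase.2 ⟨hq.symm, Finset.mem_univ _⟩) (by simp [jConjFun_mk_one])
      simp only [hJ]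
      rw [hzero, mul_zero, mul_zero]
  refine (hx.mul (hasQExp_eval₂ hasQExp_jfun (hasQExp_jNfun N) (Polynomial.derivative P))).unique ?_
  rw [hfun]
  exact hasQExp_eval₂ hasQExp_jfun (hasQExp_jNfun N) G

end Fermat.Agent.ModFun

end
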