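/-
Algebraic independence of `j` and the powers of `j_N`, and the modular polynomial.
-/
import Fermat.Agent.ModFun.LevelOne
import Fermat.Agent.ModFun.BConjugates
import Fermat.Agent.ModFun.BLagrange
import Mathlib.LinearAlgebra.Dual.Lemmas
import Mathlib.RingTheory.Polynomial.Basic

set_option autoImplicit false
set_option maxHeartbeats 400000

noncomputable section

open Filter Function UpperHalfPlane Complex ModularCurve CongruenceSubgroup
open scoped Topology Manifold MatrixGroups

namespace Fermat.Agent.ModFun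

/-! ### Invariant functions with expansions in `q_N` -/

/-- A holomorphic `SL(2, ℤ)`-invariant function with an expansion in `q_N` is a polynomial
in `j`. -/
theorem exists_polynomial_of_invariant (R : Subring ℂ) {N : ℕ} [NeZero N] {f : ℍ → ℂ}
    {x : LaurentSeries ℂ} (hhol : MDiff f) (hinv : ∀ (γ : SL(2, ℤ)) (τ : ℍ), f (γ • τ) = f τ)
    (hx : HasQExp N f x) (hR : x ∈ coeffSubring R) :
    ∃ P : Polynomial ℂ, (∀ i, P.coeff i ∈ R) ∧ (∀ τ, f τ = P.eval (jfun τ)) ∧
      x = Polynomial.aeval (qExpand ℂ N (jqModC ℂ)) P := by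
  have hx1 : HasQExp (1 * N) f x := by rwa [one_mul]
  obtain ⟨y, hy, hy1⟩ := hx1.exists_of_periodic N (.of_forall fun τ => by
    rw [Nat.cast_one, ← modular_T_smul, hinv])
  obtain ⟨P, hPR, hPx, hPf, -⟩ := exists_polynomial_jfun R hhol hinv hy1 fun k => by
    have := mem_coeffSubring.1 hR ((N : ℤ) * k)
    rwa [hy, qExpand_coeff_mul] at this
  refine ⟨P, hPR, hPf, ?_⟩
  rw [hy, hPx]
  exact (Polynomial.aeval_algHom_apply (qExpandAlgHomC ℂ N) (jqModC ℂ) P).symm

/-! ### Independence -/

/-- The substitution `X = j`, `Y = j_N`, over any field. -/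
def evalPairK (K : Type*) [Field K] (N : ℕ) [NeZero N] :
    Polynomial (Polynomial K) →+* LaurentSeries K :=
  Polynomial.eval₂RingHom (Polynomial.aeval (R := K) (jqModC K)).toRingHom (jqNModC K N)

theorem coeffMap_algebraMap_field {K L : Type*} [Field K] [Field L] (f : K →+* L) (c : K) :
    coeffMap f (algebraMap K (LaurentSeries K) c) = algebraMap L (LaurentSeries L) (f c) := by
  rw [ModularCurve.algebraMap_laurentSeries_eq_single,
    ModularCurve.algebraMap_laurentSeries_eq_single, coeffMap_single]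

theorem coeffMap_jqModC_field {K L : Type*} [Field K] [Field L] (f : K →+* L) :
    coeffMap f (jqModC K) = jqModC L := map_jqModC f

theorem coeffMap_jqNModC_field {K L : Type*} [Field K] [Field L] (f : K →+* L) (N : ℕ) [NeZero N] :
    coeffMap f (jqNModC K N) = jqNModC L N := by
  rw [jqNModC, jqNModC, coeffMap_qExpand, coeffMap_jqModC_field]

theorem coeffMap_evalPairK {K L : Type*} [Field K] [Field L] (f : K →+* L) (N : ℕ) [NeZero N]
    (G : Polynomial (Polynomial K)) :
    coeffMap f (evalPairK K N G) = evalPairK L N (G.map (Polynomial.mapRingHom f)) := by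
  have h : (coeffMap f).comp (evalPairK K N) =
      (evalPairK L N).comp (Polynomial.mapRingHom (Polynomial.mapRingHom f)) := by
    refine Polynomial.ringHom_ext' (Polynomial.ringHom_ext' (RingHom.ext fun c => ?_) ?_) ?_
    · simp [evalPairK, coeffMap_algebraMap_field]
    · simp [evalPairK, coeffMap_jqModC_field]
    · simp [evalPairK, coeffMap_jqNModC_field]
  exact congrArg (fun φ => φ G) h

/-- Substituting into `G (j (τ), j_N (τ))`: a relation holds for all conjugates. -/
theorem eval₂_conjSeries_eq_zero {N : ℕ} [NeZero N] {G : Polynomial (Polynomial ℂ)}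
    (h : evalPairK ℂ N G = 0) {t : ℕ × ℕ × ℕ} (ht : t ∈ hnfSet N) :
    G.eval₂ (Polynomial.aeval (R := ℂ) (qExpand ℂ N (jqModC ℂ))).toRingHom (conjSeries t) = 0 := by
  have hF : ∀ τ, G.eval₂ (Polynomial.evalRingHom (jfun τ)) (jNfun N τ) = 0 :=
    eq_zero_of_hasQExp_zero (h := 1)
      (mdifferentiable_eval₂ mdifferentiable_jfun (mdifferentiable_jNfun N) G)
      ((hasQExp_eval₂ hasQExp_jfun (hasQExp_jNfun N) G).of_eq h)
  obtain ⟨q, hq⟩ := (conjEquiv N).surjective ⟨t, ht⟩
  have hq' : HasQExp N (jConjFun N q) (conjSeries t) := by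
    have := hasQExp_jConjFun N q
    rwa [hq] at this
  have hj : HasQExp N jfun (qExpand ℂ N (jqModC ℂ)) := by
    have := hasQExp_jfun.expand_period N
    rwa [one_mul] at this
  refine HasQExp.unique (hasQExp_eval₂ hj hq' G)
    (HasQExp.zero.congr (.of_forall fun τ => ?_))
  obtain ⟨g, rfl⟩ := QuotientGroup.mk_surjective q
  have := hF (g⁻¹ • τ)
  rw [jfun_smul] at this
  exact this.symm

theorem card_hnfSet (N : ℕ) [NeZero N] : (hnfSet N).card = dedekindPsi N := by
  rw [← Gamma0.card_heckePairs, ← Nat.card_eq_finsetCard, ← Nat.card_eq_finsetCard,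
    Nat.card_congr (pairTripleEquiv N)]

/-- `1, j_N, …, j_N ^ (ψ - 1)` are independent over `ℂ(j)`. -/
theorem eq_zero_of_evalPair_complex {N : ℕ} [NeZero N] {G : Polynomial (Polynomial ℂ)}
    (hdeg : G.natDegree < dedekindPsi N) (h : evalPairK ℂ N G = 0) : G = 0 := by
  classical
  have hz : G.map (Polynomial.aeval (R := ℂ) (qExpand ℂ N (jqModC ℂ))).toRingHom = 0 := by
    refine Polynomial.eq_zero_of_natDegree_lt_card_of_eval_eq_zero' _
      ((hnfSet N).image conjSeries) (fun s hs => ?_) ?_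
    · obtain ⟨t, ht, rfl⟩ := Finset.mem_image.1 hs
      rw [Polynomial.eval_map]
      exact eval₂_conjSeries_eq_zero h ht
    · rw [Finset.card_image_of_injOn (conjSeries_injOn N), card_hnfSet]
      exact lt_of_le_of_lt Polynomial.natDegree_map_le hdeg
  ext1 i
  have hi : Polynomial.aeval (qExpand ℂ N (jqModC ℂ)) (G.coeff i) = 0 := by
    have h2 := congrArg (fun P => Polynomial.coeff P i) hz
    simpa [Polynomial.coeff_map] using h2
  have h3 : qExpand ℂ N (Polynomial.aeval (jqModC ℂ) (G.coeff i)) = 0 :=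
    (Polynomial.aeval_algHom_apply (qExpandAlgHomC ℂ N) (jqModC ℂ) (G.coeff i)).symm.trans hi
  rw [Polynomial.coeff_zero]
  exact transcendental_iff.1 (transcendental_jqModC ℂ) _
    (qExpand_injective N (h3.trans (map_zero _).symm))

/-- Apply an additive map to the coefficients. -/
def mapCoeff {R S : Type*} [Semiring R] [Semiring S] (f : R →+ S) :
    Polynomial R →+ Polynomial S where
  toFun P := P.sum fun i a => Polynomial.monomial i (f a)
  map_zero' := by simp
  map_add' P Q := Polynomial.sum_add_index P Q _ (fun i => by simp) fun i a b => by simp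

theorem coeff_mapCoeff {R S : Type*} [Semiring R] [Semiring S] (f : R →+ S) (P : Polynomial R)
    (i : ℕ) : (mapCoeff f P).coeff i = f (P.coeff i) := by
  show (P.sum fun i a => Polynomial.monomial i (f a)).coeff i = _
  rw [Polynomial.coeff_sum, Polynomial.sum_def,
    Finset.sum_eq_single i (fun b _ hb => by simp [Polynomial.coeff_monomial, hb])
      fun hi => by simp [Polynomial.notMem_support_iff.1 hi]]
  simp

theorem mapCoeff_monomial {R S : Type*} [Semiring R] [Semiring S] (f : R →+ S) (i : ℕ) (a : R) :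
    mapCoeff f (Polynomial.monomial i a) = Polynomial.monomial i (f a) := by
  ext m
  rw [coeff_mapCoeff, Polynomial.coeff_monomial, Polynomial.coeff_monomial, apply_ite f, map_zero]

theorem natDegree_mapCoeff_le {R S : Type*} [Semiring R] [Semiring S] (f : R →+ S)
    (P : Polynomial R) : (mapCoeff f P).natDegree ≤ P.natDegree :=
  Polynomial.natDegree_le_iff_coeff_eq_zero.2 fun m hm => by
    rw [coeff_mapCoeff, Polynomial.coeff_eq_zero_of_natDegree_lt hm, map_zero]

section Functional

variable (K : Type*) [Field K] [CharZero K] (N : ℕ) [NeZero N]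

/-- Apply a functional to all coefficients of a polynomial in two variables. -/
def piPoly (π : K →ₗ[ℚ] ℚ) : Polynomial (Polynomial K) →+ Polynomial (Polynomial ℚ) :=
  mapCoeff (mapCoeff π.toAddMonoidHom)

theorem coeff_coeff_piPoly (π : K →ₗ[ℚ] ℚ) (G : Polynomial (Polynomial K)) (i k : ℕ) :
    ((piPoly K π G).coeff i).coeff k = π ((G.coeff i).coeff k) := by
  rw [piPoly, coeff_mapCoeff, coeff_mapCoeff]
  rfl

theorem evalPairK_monomial (K : Type*) [Field K] (i k : ℕ) (c : K) :
    evalPairK K N (Polynomial.monomial i (Polynomial.monomial k c)) =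
      HahnSeries.single 0 c * (jqModC K ^ k * jqNModC K N ^ i) := by
  rw [evalPairK, Polynomial.coe_eval₂RingHom, Polynomial.eval₂_monomial]
  simp only [AlgHom.toRingHom_eq_coe, RingHom.coe_coe, Polynomial.aeval_monomial]
  rw [ModularCurve.algebraMap_laurentSeries_eq_single, mul_assoc]

theorem pi_coeff_evalPairK (π : K →ₗ[ℚ] ℚ) (G : Polynomial (Polynomial K)) (m : ℤ) :
    π ((evalPairK K N G).coeff m) = (evalPairK ℚ N (piPoly K π G)).coeff m := by
  induction G using Polynomial.induction_on' with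
  | add p q hp hq => simp only [map_add, HahnSeries.coeff_add, hp, hq]
  | monomial i P =>
    induction P using Polynomial.induction_on' with
    | add p q hp hq => simp only [map_add, HahnSeries.coeff_add, hp, hq]
    | monomial k c =>
      rw [piPoly, mapCoeff_monomial, mapCoeff_monomial, evalPairK_monomial, evalPairK_monomial]
      have hmap : jqModC K ^ k * jqNModC K N ^ i =
          coeffMap (algebraMap ℚ K) (jqModC ℚ ^ k * jqNModC ℚ N ^ i) := by
        rw [map_mul, map_pow, map_pow, coeffMap_jqModC_field, coeffMap_jqNModC_field]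
      simp only [HahnSeries.coeff_single_mul, sub_zero, hmap, coeffMap_coeff]
      rw [mul_comm, ← Algebra.smul_def, map_smul, smul_eq_mul, mul_comm]
      rfl

variable {K N}

theorem piPoly_eq_zero_of_evalPairK {π : K →ₗ[ℚ] ℚ} {G : Polynomial (Polynomial K)}
    (h : evalPairK K N G = 0) : evalPairK ℚ N (piPoly K π G) = 0 := by
  ext m
  rw [← pi_coeff_evalPairK, h, HahnSeries.coeff_zero, map_zero, HahnSeries.coeff_zero]

theorem eq_zero_of_evalPair_rat {G : Polynomial (Polynomial ℚ)}
    (hdeg : G.natDegree < dedekindPsi N) (h : evalPairK ℚ N G = 0) : G = 0 := by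
  have h1 : evalPairK ℂ N (G.map (Polynomial.mapRingHom (algebraMap ℚ ℂ))) = 0 := by
    rw [← coeffMap_evalPairK, h, map_zero]
  have h2 := eq_zero_of_evalPair_complex (lt_of_le_of_lt Polynomial.natDegree_map_le hdeg) h1
  exact (Polynomial.map_eq_zero_iff
    (Polynomial.map_injective _ (algebraMap ℚ ℂ).injective)).1 h2

/-- `1, j_N, …, j_N ^ (ψ - 1)` are independent over `K(j)`. -/
theorem eq_zero_of_evalPairK {G : Polynomial (Polynomial K)}
    (hdeg : G.natDegree < dedekindPsi N) (h : evalPairK K N G = 0) : G = 0 := by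
  refine Polynomial.ext fun i => Polynomial.ext fun k => ?_
  rw [Polynomial.coeff_zero, Polynomial.coeff_zero]
  refine (Module.forall_dual_apply_eq_zero_iff ℚ _).1 fun π => ?_
  have h0 : piPoly K π G = 0 := eq_zero_of_evalPair_rat
    (lt_of_le_of_lt (natDegree_mapCoeff_le _ _) hdeg) (piPoly_eq_zero_of_evalPairK h)
  rw [← coeff_coeff_piPoly K π G i k, h0]
  simp

/-- Two polynomials of degree `≤ ψ` with equal leading coefficient and value are equal. -/
theorem eq_of_evalPairK_eq {G G' : Polynomial (Polynomial K)}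
    (hd : G.natDegree ≤ dedekindPsi N) (hd' : G'.natDegree ≤ dedekindPsi N)
    (hc : G.coeff (dedekindPsi N) = G'.coeff (dedekindPsi N))
    (h : evalPairK K N G = evalPairK K N G') : G = G' := by
  by_contra hne
  have hne' : G - G' ≠ 0 := sub_ne_zero.2 hne
  refine hne' (eq_zero_of_evalPairK ?_ (by rw [map_sub, h, sub_self]))
  refine lt_of_le_of_ne ((Polynomial.natDegree_sub_le _ _).trans (max_le hd hd')) fun he => ?_
  refine hne' (Polynomial.leadingCoeff_eq_zero.1 ?_)
  rw [Polynomial.leadingCoeff, he, Polynomial.coeff_sub, hc, sub_self]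

end Functional

/-! ### The product over the conjugates -/

theorem exists_prodPoly (R : Subring ℂ) (N : ℕ) [NeZero N] [Fintype (SL(2, ℤ) ⧸ Gamma0 N)]
    (hζ : (zetaU N : ℂ) ∈ R) :
    ∃ Φ : Polynomial (Polynomial ℂ), Φ.Monic ∧ Φ.natDegree = dedekindPsi N ∧
      (∀ i k, (Φ.coeff i).coeff k ∈ R) ∧ evalPairK ℂ N Φ = 0 ∧
      (∀ τ, Φ.map (Polynomial.evalRingHom (jfun τ)) =
        ∏ q : SL(2, ℤ) ⧸ Gamma0 N, (Polynomial.X - Polynomial.C (jConjFun N q τ))) ∧
      Φ.map (Polynomial.aeval (R := ℂ) (qExpand ℂ N (jqModC ℂ))).toRingHom =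
        ∏ t ∈ hnfSet N, (Polynomial.X - Polynomial.C (conjSeries t)) := by
  classical
  set ψ := dedekindPsi N with hψ
  have hcard : Fintype.card (SL(2, ℤ) ⧸ Gamma0 N) = ψ := by
    rw [card_coset_eq_dedekindPsi]
  have hser : (∏ q : SL(2, ℤ) ⧸ Gamma0 N,
      (Polynomial.X - Polynomial.C (conjSeries (conjEquiv N q).1))) =
        ∏ t ∈ hnfSet N, (Polynomial.X - Polynomial.C (conjSeries t)) := by
    rw [← Finset.prod_coe_sort (hnfSet N),
      ← (conjEquiv N).prod_comp fun t => Polynomial.X - Polynomial.C (conjSeries t.1)]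
  have hmem : ∀ m, (∏ q : SL(2, ℤ) ⧸ Gamma0 N,
      (Polynomial.X - Polynomial.C (conjSeries (conjEquiv N q).1))).coeff m ∈ coeffSubring R := by
    intro m
    have : (∏ q : SL(2, ℤ) ⧸ Gamma0 N, (Polynomial.X - Polynomial.C
        (⟨_, conjSeries_mem_coeffSubring R hζ (conjEquiv N q).2⟩ : coeffSubring R))).map
          (coeffSubring R).subtype = ∏ q : SL(2, ℤ) ⧸ Gamma0 N,
      (Polynomial.X - Polynomial.C (conjSeries (conjEquiv N q).1)) := by
      rw [Polynomial.map_prod]
      simp
    rw [← this, Polynomial.coeff_map]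
    exact Subtype.property _
  have hcoef : ∀ m, ∃ P : Polynomial ℂ, (∀ k, P.coeff k ∈ R) ∧
      (∀ τ, (∏ q : SL(2, ℤ) ⧸ Gamma0 N, (Polynomial.X - Polynomial.C (jConjFun N q τ))).coeff m =
        P.eval (jfun τ)) ∧
      (∏ q : SL(2, ℤ) ⧸ Gamma0 N,
        (Polynomial.X - Polynomial.C (conjSeries (conjEquiv N q).1))).coeff m =
          Polynomial.aeval (qExpand ℂ N (jqModC ℂ)) P := by
    intro m
    refine exists_polynomial_of_invariant R
      (mdifferentiable_coeff_prod (fun q _ => mdifferentiable_jConjFun N q) m) (fun γ τ => ?_)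
      (hasQExp_coeff_prod (fun q _ => hasQExp_jConjFun N q) m) (hmem m)
    simp only [jConjFun_smul N γ]
    exact congrArg (fun P : Polynomial ℂ => P.coeff m)
      (Equiv.prod_comp (MulAction.toPerm γ⁻¹) fun q => Polynomial.X - Polynomial.C (jConjFun N q τ))
  choose P hPR hPf hPx using hcoef
  have hdeg : ∀ τ, (∏ q : SL(2, ℤ) ⧸ Gamma0 N,
      (Polynomial.X - Polynomial.C (jConjFun N q τ))).natDegree = ψ := fun τ => by
    rw [Polynomial.natDegree_finsetProd_X_sub_C_eq_card, Finset.card_univ, hcard]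
  have hmonic : ∀ τ, (∏ q : SL(2, ℤ) ⧸ Gamma0 N,
      (Polynomial.X - Polynomial.C (jConjFun N q τ))).Monic := fun τ =>
    Polynomial.monic_prod_X_sub_C _ _
  have hPbig : ∀ m, ψ < m → P m = 0 := fun m hm => polynomial_eq_zero_of_eval_jfun fun τ => by
    rw [← hPf m τ, Polynomial.coeff_eq_zero_of_natDegree_lt (by rw [hdeg τ]; exact hm)]
  have hPtop : P ψ = 1 := sub_eq_zero.1 (polynomial_eq_zero_of_eval_jfun fun τ => by
    rw [Polynomial.eval_sub, ← hPf ψ τ, Polynomial.eval_one]
    have h1 := (hmonic τ).coeff_natDegree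
    rw [hdeg τ] at h1
    rw [h1, sub_self])
  set Φ : Polynomial (Polynomial ℂ) :=
    ∑ m ∈ Finset.range (ψ + 1), Polynomial.monomial m (P m) with hΦ
  have hΦc : ∀ m, Φ.coeff m = P m := by
    intro m
    rw [hΦ, Polynomial.finsetSum_coeff]
    simp only [Polynomial.coeff_monomial, Finset.sum_ite_eq', Finset.mem_range]
    split_ifs with h
    · rfl
    · exact (hPbig m (by omega)).symm
  have hle : Φ.natDegree ≤ ψ := Polynomial.natDegree_le_iff_coeff_eq_zero.2 fun m hm => by
    rw [hΦc, hPbig m hm]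
  have hmon : Φ.Monic := Polynomial.monic_of_natDegree_le_of_coeff_eq_one ψ hle (by rw [hΦc, hPtop])
  have hmapS : Φ.map (Polynomial.aeval (R := ℂ) (qExpand ℂ N (jqModC ℂ))).toRingHom =
      ∏ t ∈ hnfSet N, (Polynomial.X - Polynomial.C (conjSeries t)) := by
    rw [← hser]
    ext1 m
    rw [Polynomial.coeff_map, hΦc]
    exact (hPx m).symm
  refine ⟨Φ, hmon, le_antisymm hle (Polynomial.le_natDegree_of_ne_zero ?_),
    fun i k => by rw [hΦc]; exact hPR i k, ?_, fun τ => ?_, hmapS⟩
  · rw [hΦc, hPtop]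
    exact one_ne_zero
  · refine qExpand_injective N (Eq.trans ?_ (map_zero (qExpand ℂ N)).symm)
    rw [evalPairK, Polynomial.coe_eval₂RingHom, Polynomial.hom_eval₂, ← conjSeries_top]
    have hcomp : (qExpand ℂ N).comp (Polynomial.aeval (R := ℂ) (jqModC ℂ)).toRingHom =
        (Polynomial.aeval (R := ℂ) (qExpand ℂ N (jqModC ℂ))).toRingHom :=
      RingHom.ext fun Q =>
        (Polynomial.aeval_algHom_apply (qExpandAlgHomC ℂ N) (jqModC ℂ) Q).symm
    rw [hcomp, ← Polynomial.eval_map, hmapS, Polynomial.eval_prod]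
    refine Finset.prod_eq_zero (i := (N, 0, 1)) ?_ (by simp)
    rw [← conjEquiv_mk_one]
    exact Subtype.property _
  · ext1 m
    rw [Polynomial.coeff_map, hΦc, Polynomial.coe_evalRingHom, ← hPf]

/-! ### Integrality -/

/-- A rational number integral over `ℤ` in `ℂ` is an integer. -/
theorem exists_int_of_rat_isIntegral {q : ℚ} (h : IsIntegral ℤ (q : ℂ)) : ∃ z : ℤ, (z : ℚ) = q := by
  have h1 : IsIntegral ℤ q :=
    (isIntegral_algHom_iff (Rat.castHom ℂ).toIntAlgHom (Rat.castHom ℂ).injective).1 h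
  obtain ⟨z, hz⟩ := IsIntegrallyClosed.isIntegral_iff.1 h1
  exact ⟨z, by simpa using hz⟩

theorem isIntegral_zetaU (N : ℕ) [NeZero N] : IsIntegral ℤ (zetaU N : ℂ) :=
  (isPrimitiveRoot_zetaU N).isIntegral (NeZero.pos N)

/-- The modular polynomial exists, and it is the product over the conjugates. -/
theorem exists_modularPolynomial_int (N : ℕ) [NeZero N] :
    ∃ Φ : Polynomial (Polynomial ℤ), Φ.Monic ∧ Φ.natDegree = dedekindPsi N ∧
      evalPairK ℂ N (Φ.map (Polynomial.mapRingHom (Int.castRingHom ℂ))) = 0 := by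
  haveI : Fintype (SL(2, ℤ) ⧸ Gamma0 N) := Fintype.ofFinite _
  obtain ⟨Φc, hmon, hdeg, hR, hev, -, -⟩ :=
    exists_prodPoly (integralClosure ℤ ℂ).toSubring N (isIntegral_zetaU N)
  obtain ⟨π, hπ⟩ := LinearMap.exists_leftInverse_of_injective (Algebra.linearMap ℚ ℂ)
    (LinearMap.ker_eq_bot.2 (algebraMap ℚ ℂ).injective)
  have hπ1 : π 1 = 1 := by
    have := LinearMap.congr_fun hπ 1
    simpa using this
  set Φq := piPoly ℂ π Φc with hΦq
  have hqdeg : Φq.natDegree ≤ dedekindPsi N := (natDegree_mapCoeff_le _ _).trans hdeg.le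
  have hqtop : Φq.coeff (dedekindPsi N) = 1 := by
    rw [← hdeg, hΦq, piPoly, coeff_mapCoeff, hmon.coeff_natDegree]
    ext k
    rw [coeff_mapCoeff, Polynomial.coeff_one, Polynomial.coeff_one, apply_ite π.toAddMonoidHom,
      map_zero]
    split_ifs
    · exact hπ1
    · rfl
  have heq : Φc = Φq.map (Polynomial.mapRingHom (algebraMap ℚ ℂ)) := by
    refine eq_of_evalPairK_eq (N := N) hdeg.le (Polynomial.natDegree_map_le.trans hqdeg) ?_ ?_
    · rw [Polynomial.coeff_map, hqtop, map_one, ← hdeg, hmon.coeff_natDegree]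
    · rw [hev, ← coeffMap_evalPairK, piPoly_eq_zero_of_evalPairK hev, map_zero]
  have hqmon : Φq.Monic := Polynomial.monic_of_natDegree_le_of_coeff_eq_one _ hqdeg hqtop
  have hlift : Φq ∈ Polynomial.lifts (Polynomial.mapRingHom (Int.castRingHom ℚ)) := by
    refine (Polynomial.lifts_iff_coeff_lifts _).2 fun i => ?_
    have : Φq.coeff i ∈ Polynomial.lifts (Int.castRingHom ℚ) := by
      refine (Polynomial.lifts_iff_coeff_lifts _).2 fun k => ?_
      refine exists_int_of_rat_isIntegral ?_
      have h := hR i k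
      rw [heq, Polynomial.coeff_map, Polynomial.coe_mapRingHom, Polynomial.coeff_map,
        eq_ratCast] at h
      exact h
    obtain ⟨Q, hQ⟩ := this
    exact ⟨Q, hQ⟩
  obtain ⟨Φ, hΦmap, hΦdeg, hΦmon⟩ := Polynomial.lifts_and_natDegree_eq_and_monic hlift hqmon
  refine ⟨Φ, hΦmon, hΦdeg.trans (le_antisymm hqdeg
    (Polynomial.le_natDegree_of_ne_zero (by rw [hqtop]; exact one_ne_zero))), ?_⟩
  have : Φ.map (Polynomial.mapRingHom (Int.castRingHom ℂ)) = Φc := by
    rw [heq, ← hΦmap, Polynomial.map_map, Polynomial.mapRingHom_comp]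
    congr 2
  rw [this, hev]

end Fermat.Agent.ModFun

end
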