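/-
The modular polynomial.
-/
import Fermat.Agent.ModFun.LevelOne
import Fermat.Agent.ModFun.BConjugates
import Fermat.Agent.ModFun.BLagrange
import Fermat.Agent.ModFun.BModular
import Mathlib.FieldTheory.Minpoly.Field
import Mathlib.FieldTheory.IntermediateField.Adjoin.Basic

set_option autoImplicit false

noncomputable section

open Filter Function UpperHalfPlane Complex ModularCurve IntermediateField CongruenceSubgroup
open scoped Topology Manifold MatrixGroups

namespace Fermat.Agent.ModFun

theorem jConjFun_injective (N : ℕ) [NeZero N] : Function.Injective (jConjFun N) := by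
  intro q q' h
  refine (conjEquiv N).injective (Subtype.ext ?_)
  refine conjSeries_injOn N (conjEquiv N q).2 (conjEquiv N q').2 ?_
  have h1 := hasQExp_jConjFun N q
  rw [h] at h1
  exact h1.unique (hasQExp_jConjFun N q')

/-- Hermite normal form: the conjugates of `j (N τ)` are the `j ((a τ + b) / d)`. -/
theorem exists_jConjFun_equiv (N : ℕ) [NeZero N] :
    ∃ e : (SL(2, ℤ) ⧸ Gamma0 N) ≃ hnfSet N,
      ∀ q, HasQExp N (jConjFun N q) (conjSeries (e q).1) :=
  ⟨conjEquiv N, hasQExp_jConjFun N⟩

theorem card_quotient_Gamma0_eq (N : ℕ) [NeZero N] :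
    Nat.card (SL(2, ℤ) ⧸ Gamma0 N) = dedekindPsi N := by
  haveI : Fintype (SL(2, ℤ) ⧸ Gamma0 N) := Fintype.ofFinite _
  rw [Nat.card_eq_fintype_card, card_coset_eq_dedekindPsi]

theorem dedekindPsi_pos_level (N : ℕ) [NeZero N] : 0 < dedekindPsi N := by
  rw [← card_hnfSet N]
  exact Finset.card_pos.2 ⟨_, (conjEquiv N (QuotientGroup.mk 1)).2⟩

theorem coeffMap_injective_of_injective {R S : Type*} [CommRing R] [CommRing S] {f : R →+* S}
    (hf : Function.Injective f) : Function.Injective (coeffMap f) := fun x y h => by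
  ext k
  apply hf
  rw [← coeffMap_coeff, ← coeffMap_coeff, h]

/-- Substitution in an integral two-variable polynomial commutes with maps of coefficients. -/
theorem coeffMap_eval₂_jqModC {R S : Type*} [CommRing R] [CommRing S] (f : R →+* S)
    (N : ℕ) [NeZero N] (Φ : Polynomial (Polynomial ℤ)) :
    coeffMap f (Φ.eval₂
      (Polynomial.eval₂RingHom (Int.castRingHom (LaurentSeries R)) (jqModC R)) (jqNModC R N)) =
      Φ.eval₂ (Polynomial.eval₂RingHom (Int.castRingHom (LaurentSeries S)) (jqModC S))
        (jqNModC S N) := by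
  have h1 : coeffMap f (jqModC R) = jqModC S := map_jqModC f
  rw [Polynomial.hom_eval₂, jqNModC, jqNModC, coeffMap_qExpand, h1]
  congr 1
  exact Polynomial.ringHom_ext' (Subsingleton.elim _ _) (by simp [h1])

theorem evalPairK_map_intCast (K : Type*) [Field K] (N : ℕ) [NeZero N]
    (Φ : Polynomial (Polynomial ℤ)) :
    evalPairK K N (Φ.map (Polynomial.mapRingHom (Int.castRingHom K))) =
      Φ.eval₂ (Polynomial.eval₂RingHom (Int.castRingHom (LaurentSeries K)) (jqModC K))
        (jqNModC K N) := by
  rw [evalPairK, Polynomial.coe_eval₂RingHom, Polynomial.eval₂_map]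
  congr 1
  exact Polynomial.ringHom_ext' (Subsingleton.elim _ _) (by simp)

theorem evalAtJ_eq :
    evalAtJ = Polynomial.eval₂RingHom (Int.castRingHom (LaurentSeries ℚ)) (jqModC ℚ) :=
  Polynomial.ringHom_ext' (Subsingleton.elim _ _) (by simp [evalAtJ, jqModC_rat])

theorem nonempty_modularPolynomialData (N : ℕ) [NeZero N] :
    Nonempty (ModularPolynomialData N) := by
  obtain ⟨Φ, hmon, hdeg, hev⟩ := exists_modularPolynomial_int N
  refine ⟨⟨Φ, hmon, hdeg, coeffMap_injective_of_injective (algebraMap ℚ ℂ).injective ?_⟩⟩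
  rw [evalAtJ_eq, map_zero]
  exact ((coeffMap_eval₂_jqModC _ N Φ).trans (evalPairK_map_intCast ℂ N Φ).symm).trans hev

/-- The modular polynomial of level `N`. -/
def modularPolynomialData (N : ℕ) [NeZero N] : ModularPolynomialData N :=
  Classical.choice (nonempty_modularPolynomialData N)

/-- Substitute `X = jqModC K` in an integral polynomial. -/
def evalJC (K : Type*) [Field K] : Polynomial ℤ →+* K⟮jqModC K⟯ :=
  Polynomial.eval₂RingHom (Int.castRingHom _)
    ⟨jqModC K, IntermediateField.mem_adjoin_simple_self K _⟩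

theorem eval_modularPolynomial (K : Type*) [Field K] {N : ℕ} [NeZero N]
    (data : ModularPolynomialData N) :
    data.Φ.eval₂ (Polynomial.eval₂RingHom (Int.castRingHom (LaurentSeries K)) (jqModC K))
      (jqNModC K N) = 0 := by
  have hQ := data.eval_eq_zero
  rw [evalAtJ_eq] at hQ
  have hZ : data.Φ.eval₂ (Polynomial.eval₂RingHom (Int.castRingHom (LaurentSeries ℤ)) (jqModC ℤ))
      (jqNModC ℤ N) = 0 := by
    apply coeffMap_injective_of_injective (Int.castRingHom ℚ).injective_int
    rw [coeffMap_eval₂_jqModC, map_zero]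
    exact hQ
  rw [← coeffMap_eval₂_jqModC (Int.castRingHom K), hZ, map_zero]

theorem evalPairK_map_Φ (K : Type*) [Field K] {N : ℕ} [NeZero N]
    (data : ModularPolynomialData N) :
    evalPairK K N (data.Φ.map (Polynomial.mapRingHom (Int.castRingHom K))) = 0 :=
  (evalPairK_map_intCast K N data.Φ).trans (eval_modularPolynomial K data)

theorem aeval_map_evalJC (K : Type*) [Field K] {N : ℕ} [NeZero N]
    (data : ModularPolynomialData N) :
    Polynomial.aeval (jqNModC K N) (data.Φ.map (evalJC K)) = 0 := by
  have h : (algebraMap K⟮jqModC K⟯ (LaurentSeries K)).comp (evalJC K) =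
      Polynomial.eval₂RingHom (Int.castRingHom (LaurentSeries K)) (jqModC K) :=
    Polynomial.ringHom_ext' (Subsingleton.elim _ _) (by simp [evalJC])
  rw [Polynomial.aeval_def, Polynomial.eval₂_map, h]
  exact eval_modularPolynomial K data

/-- An algebraic relation of `j_N` over `K(j)` has degree at least `ψ (N)`. -/
theorem dedekindPsi_le_natDegree (K : Type*) [Field K] [CharZero K] {N : ℕ} [NeZero N]
    {q : Polynomial K⟮jqModC K⟯} (hq : q ≠ 0) (h : Polynomial.aeval (jqNModC K N) q = 0) :
    dedekindPsi N ≤ q.natDegree := by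
  classical
  by_contra hlt
  rw [not_le] at hlt
  have hrs : ∀ i, ∃ r s : Polynomial K, Polynomial.aeval (jqModC K) s ≠ 0 ∧
      Polynomial.aeval (jqModC K) r = (q.coeff i : LaurentSeries K) * Polynomial.aeval (jqModC K) s := by
    intro i
    obtain ⟨r, s, hrs⟩ := (IntermediateField.mem_adjoin_simple_iff K _).1 (q.coeff i).2
    by_cases hs : Polynomial.aeval (jqModC K) s = 0
    · refine ⟨0, 1, by simp, ?_⟩
      rw [hs, div_zero] at hrs
      simp [hrs]
    · exact ⟨r, s, hs, by rw [hrs, div_mul_cancel₀ _ hs]⟩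
  choose r s hs hr using hrs
  set n := q.natDegree with hn
  set S := Finset.range (n + 1) with hS
  set G : Polynomial (Polynomial K) :=
    ∑ i ∈ S, Polynomial.monomial i (r i * ∏ k ∈ S.erase i, s k) with hG
  have hdeg : G.natDegree < dedekindPsi N := by
    refine lt_of_le_of_lt (Polynomial.natDegree_sum_le_of_forall_le _ _ fun i hi => ?_) hlt
    exact (Polynomial.natDegree_monomial_le _).trans
      (Nat.lt_succ_iff.1 (Finset.mem_range.1 hi))
  have hev : evalPairK K N G = 0 := by
    have he : evalPairK K N G = (∏ k ∈ S, Polynomial.aeval (jqModC K) (s k)) *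
        Polynomial.aeval (jqNModC K N) q := by
      rw [Polynomial.aeval_eq_sum_range, hG, map_sum, Finset.mul_sum]
      refine Finset.sum_congr rfl fun i hi => ?_
      rw [evalPairK, Polynomial.coe_eval₂RingHom, Polynomial.eval₂_monomial]
      simp only [AlgHom.toRingHom_eq_coe, RingHom.coe_coe, map_mul, map_prod]
      rw [← Finset.mul_prod_erase S _ hi, hr, Algebra.smul_def,
        IntermediateField.algebraMap_apply]
      ring
    rw [he, h, mul_zero]
  have h0 := eq_zero_of_evalPairK hdeg hev
  have hcn : G.coeff n = r n * ∏ k ∈ S.erase n, s k := by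
    rw [hG, Polynomial.finsetSum_coeff]
    simp [Polynomial.coeff_monomial, hS]
  rw [h0, Polynomial.coeff_zero] at hcn
  have h3 := congrArg (Polynomial.aeval (jqModC K)) hcn.symm
  rw [map_mul, map_prod, map_zero, hr] at h3
  refine mul_ne_zero (mul_ne_zero ?_ (hs n)) (Finset.prod_ne_zero_iff.2 fun k _ => hs k) h3
  simpa [hn] using Polynomial.leadingCoeff_ne_zero.2 hq

theorem minpoly_jqNModC (K : Type*) [Field K] [CharZero K] {N : ℕ} [NeZero N]
    (data : ModularPolynomialData N) :
    minpoly K⟮jqModC K⟯ (jqNModC K N) = data.Φ.map (evalJC K) := by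
  refine (minpoly.unique _ _ (data.monic.map _) (aeval_map_evalJC K data) fun q hq hq0 => ?_).symm
  rw [Polynomial.degree_eq_natDegree (data.monic.map _).ne_zero,
    Polynomial.degree_eq_natDegree hq.ne_zero, data.monic.natDegree_map, data.natDegree_eq,
    Nat.cast_le]
  exact dedekindPsi_le_natDegree K hq.ne_zero hq0

theorem isIntegral_jqNModC (K : Type*) [Field K] {N : ℕ} [NeZero N]
    (data : ModularPolynomialData N) : IsIntegral K⟮jqModC K⟯ (jqNModC K N) :=
  ⟨data.Φ.map (evalJC K), data.monic.map _, aeval_map_evalJC K data⟩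

theorem irreducible_map_modularPolynomial (K : Type*) [Field K] [CharZero K] {N : ℕ} [NeZero N]
    (data : ModularPolynomialData N) : Irreducible (data.Φ.map (evalJC K)) := by
  rw [← minpoly_jqNModC K data]
  exact minpoly.irreducible (isIntegral_jqNModC K data)

theorem relfinrank_modularFunctionFieldC (K : Type*) [Field K] [CharZero K] (N : ℕ) [NeZero N] :
    IntermediateField.relfinrank K⟮jqModC K⟯ (modularFunctionFieldC K N) = dedekindPsi N := by
  have hle : K⟮jqModC K⟯ ≤ modularFunctionFieldC K N :=
    IntermediateField.adjoin_simple_le_iff.2 (jqModC_mem K N)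
  have hE : IntermediateField.extendScalars hle = K⟮jqModC K⟯⟮jqNModC K N⟯ := by
    refine IntermediateField.restrictScalars_injective K ?_
    rw [IntermediateField.extendScalars_restrictScalars, IntermediateField.adjoin_adjoin_left,
      Set.singleton_union]
    rfl
  rw [IntermediateField.relfinrank_eq_finrank_of_le hle, hE,
    IntermediateField.adjoin.finrank (isIntegral_jqNModC K (modularPolynomialData N)),
    minpoly_jqNModC K (modularPolynomialData N),
    (modularPolynomialData N).monic.natDegree_map, (modularPolynomialData N).natDegree_eq]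

theorem coeff_map_Φ_top {R : Type*} [CommRing R] (f : Polynomial ℤ →+* R) {N : ℕ} [NeZero N]
    (data : ModularPolynomialData N) : (data.Φ.map f).coeff (dedekindPsi N) = 1 := by
  rw [Polynomial.coeff_map, ← data.natDegree_eq, data.monic.coeff_natDegree, map_one]

theorem modularPolynomialData_Φ_unique {N : ℕ} [NeZero N] (data : ModularPolynomialData N) :
    data.Φ = (modularPolynomialData N).Φ := by
  refine Polynomial.map_injective _
    (Polynomial.map_injective _ (Int.castRingHom ℚ).injective_int)
    (eq_of_evalPairK_eq (N := N) (Polynomial.natDegree_map_le.trans data.natDegree_eq.le)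
      (Polynomial.natDegree_map_le.trans (modularPolynomialData N).natDegree_eq.le)
      ((coeff_map_Φ_top _ data).trans (coeff_map_Φ_top _ _).symm)
      ((evalPairK_map_Φ ℚ data).trans (evalPairK_map_Φ ℚ _).symm))

/-- The product over the conjugates is the image of the modular polynomial. -/
theorem map_Φ_eq_of_prodPoly {N : ℕ} [NeZero N] (data : ModularPolynomialData N)
    {Φc : Polynomial (Polynomial ℂ)} (hmon : Φc.Monic) (hdeg : Φc.natDegree = dedekindPsi N)
    (hev : evalPairK ℂ N Φc = 0) :
    data.Φ.map (Polynomial.mapRingHom (Int.castRingHom ℂ)) = Φc :=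
  eq_of_evalPairK_eq (N := N) (Polynomial.natDegree_map_le.trans data.natDegree_eq.le) hdeg.le
    ((coeff_map_Φ_top _ data).trans (by rw [← hdeg, hmon.coeff_natDegree]))
    ((evalPairK_map_Φ ℂ data).trans hev.symm)

/-- The roots of `Φ (j τ, Y)` are the conjugates of `j (N τ)`. -/
theorem map_Φ_eval_jfun {N : ℕ} [NeZero N] [Fintype (SL(2, ℤ) ⧸ Gamma0 N)]
    (data : ModularPolynomialData N) (τ : ℍ) :
    data.Φ.map (Polynomial.eval₂RingHom (Int.castRingHom ℂ) (jfun τ)) =
      ∏ q : SL(2, ℤ) ⧸ Gamma0 N, (Polynomial.X - Polynomial.C (jConjFun N q τ)) := by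
  obtain ⟨Φc, hmon, hdeg, -, hev, hτ, -⟩ := exists_prodPoly ⊤ N (Subring.mem_top _)
  rw [← hτ τ, ← map_Φ_eq_of_prodPoly data hmon hdeg hev, Polynomial.map_map]
  congr 1
  exact Polynomial.ringHom_ext' (Subsingleton.elim _ _) (by simp)

/-- The formal factorisation in the variable `q_N`. -/
theorem map_Φ_jqModC {N : ℕ} [NeZero N] (data : ModularPolynomialData N) :
    data.Φ.map (Polynomial.eval₂RingHom (Int.castRingHom (LaurentSeries ℂ))
        (qExpand ℂ N (jqModC ℂ))) =
      ∏ t ∈ hnfSet N, (Polynomial.X - Polynomial.C (conjSeries t)) := by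
  haveI : Fintype (SL(2, ℤ) ⧸ Gamma0 N) := Fintype.ofFinite _
  obtain ⟨Φc, hmon, hdeg, -, hev, -, hS⟩ := exists_prodPoly ⊤ N (Subring.mem_top _)
  rw [← hS, ← map_Φ_eq_of_prodPoly data hmon hdeg hev, Polynomial.map_map]
  congr 1
  exact Polynomial.ringHom_ext' (Subsingleton.elim _ _) (by simp)

/-- Substitution `X = j`, `Y = j_N` in a two-variable polynomial. -/
def evalPair (N : ℕ) [NeZero N] : Polynomial (Polynomial ℂ) →+* LaurentSeries ℂ :=
  Polynomial.eval₂RingHom (Polynomial.aeval (R := ℂ) (jqModC ℂ)).toRingHom (jqNModC ℂ N)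

theorem evalPair_derivative_ne_zero {N : ℕ} [NeZero N] (data : ModularPolynomialData N) :
    evalPair N (Polynomial.derivative
      (data.Φ.map (Polynomial.mapRingHom (Int.castRingHom ℂ)))) ≠ 0 := by
  intro h
  set P := data.Φ.map (Polynomial.mapRingHom (Int.castRingHom ℂ))
  have hd : P.natDegree = dedekindPsi N := by
    rw [data.monic.natDegree_map, data.natDegree_eq]
  have hd0 : P.natDegree ≠ 0 := by
    rw [hd]
    exact (dedekindPsi_pos_level N).ne'
  refine hd0 (Polynomial.natDegree_eq_zero_of_derivative_eq_zero (eq_zero_of_evalPairK ?_ h))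
  exact (Polynomial.natDegree_derivative_lt hd0).trans_eq hd

/-- Lagrange interpolation: a holomorphic modular function is an element of
`ℂ[j, j_N] / Φ'(j_N)`, with coefficients in any ring containing `ζ_N` and those of all its
expansions at the cusps. -/
theorem exists_lagrange (R : Subring ℂ) {N : ℕ} [NeZero N] (data : ModularPolynomialData N)
    {f : ℍ → ℂ} {x : LaurentSeries ℂ} (hf : IsModularFun N f) (hhol : MDiff f)
    (hx : HasQExp 1 f x) (hζ : (zetaU N : ℂ) ∈ R)
    (hR : ∀ (γ : SL(2, ℤ)) (y : LaurentSeries ℂ),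
      HasQExp N (fun τ => f (γ • τ)) y → ∀ k, y.coeff k ∈ R) :
    ∃ G : Polynomial (Polynomial ℂ), G.natDegree < dedekindPsi N ∧
      (∀ i j, (G.coeff i).coeff j ∈ R) ∧
      x * evalPair N (Polynomial.derivative
          (data.Φ.map (Polynomial.mapRingHom (Int.castRingHom ℂ)))) = evalPair N G := by
  haveI : Fintype (SL(2, ℤ) ⧸ Gamma0 N) := Fintype.ofFinite _
  exact exists_lagrange_of_roots R (data.Φ.map (Polynomial.mapRingHom (Int.castRingHom ℂ)))
    (fun τ => by
      rw [Polynomial.map_map, ← map_Φ_eval_jfun data τ]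
      congr 1
      exact Polynomial.ringHom_ext' (Subsingleton.elim _ _) (by simp))
    hf hhol hx hζ hR

end Fermat.Agent.ModFun

end
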