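/-
Descent of generated fields of Laurent series along an extension of coefficient fields.
-/
import Fermat.Prelude.Def_ModularCurve_LaurentCoeff

set_option autoImplicit false

noncomputable section

open HahnSeries ModularCurve IntermediateField

namespace Fermat.Agent.ModFun

/-- A linear functional applied to all the coefficients. -/
def functionalMap {k L : Type*} [Field k] [Field L] [Algebra k L] (π : L →ₗ[k] k)
    (z : LaurentSeries L) : LaurentSeries k :=
  z.map π

@[simp]
theorem functionalMap_coeff {k L : Type*} [Field k] [Field L] [Algebra k L] (π : L →ₗ[k] k)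
    (z : LaurentSeries L) (n : ℤ) : (functionalMap π z).coeff n = π (z.coeff n) := rfl

theorem functionalMap_add {k L : Type*} [Field k] [Field L] [Algebra k L] (π : L →ₗ[k] k)
    (a b : LaurentSeries L) :
    functionalMap π (a + b) = functionalMap π a + functionalMap π b := by
  ext n
  simp

theorem functionalMap_mul_coeffMap {k L : Type*} [Field k] [Field L] [Algebra k L]
    (π : L →ₗ[k] k) (z : LaurentSeries L) (y : LaurentSeries k) :
    functionalMap π (z * coeffMap (algebraMap k L) y) = functionalMap π z * y := by
  ext n
  have h1 : (coeffMap (algebraMap k L) y).support ⊆ y.support := fun j hj h => by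
    apply hj
    simp only [coeffMap_coeff, h, map_zero]
  have h2 : (functionalMap π z).support ⊆ z.support := fun i hi h => by
    apply hi
    simp only [functionalMap_coeff, h, map_zero]
  rw [functionalMap_coeff, HahnSeries.coeff_mul_right' y.isPWO_support h1,
    HahnSeries.coeff_mul_left' z.isPWO_support h2, map_sum]
  refine Finset.sum_congr rfl fun ij _ => ?_
  rw [coeffMap_coeff, functionalMap_coeff, mul_comm, ← Algebra.smul_def, map_smul, smul_eq_mul,
    mul_comm]

theorem algebraMap_mul_coeff {L : Type*} [Field L] (c : L) (z : LaurentSeries L) (n : ℤ) :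
    (algebraMap L (LaurentSeries L) c * z).coeff n = c * z.coeff n := by
  rw [algebraMap_laurentSeries_eq_single]
  simp

variable {k L : Type*} [Field k] [Field L] [Algebra k L]

theorem coeffMap_algebraMap' (c : k) :
    coeffMap (algebraMap k L) (algebraMap k (LaurentSeries k) c) =
      algebraMap L (LaurentSeries L) (algebraMap k L c) := by
  rw [algebraMap_laurentSeries_eq_single, algebraMap_laurentSeries_eq_single, coeffMap_single]

theorem functionalMap_mem_adjoin (S : Set (LaurentSeries k)) {a : LaurentSeries L}
    (ha : a ∈ Algebra.adjoin L (coeffMap (algebraMap k L) '' S)) (π : L →ₗ[k] k) :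
    functionalMap π a ∈ Algebra.adjoin k S := by
  let : Module L (LaurentSeries L) := Algebra.toModule
  let B : Submodule L (LaurentSeries L) :=
    { carrier := {z | ∀ π : L →ₗ[k] k, functionalMap π z ∈ Algebra.adjoin k S}
      zero_mem' := fun π => by
        convert Subalgebra.zero_mem (Algebra.adjoin k S) using 1
        ext n
        simp
      add_mem' := fun {z w} hz hw π => by
        rw [functionalMap_add]
        exact add_mem (hz π) (hw π)
      smul_mem' := fun c z hz π => by
        convert hz (π.comp (LinearMap.mul k L c)) using 1
        ext n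
        rw [functionalMap_coeff, functionalMap_coeff, Algebra.smul_def, algebraMap_mul_coeff]
        rfl }
  suffices h : (Algebra.adjoin L (coeffMap (algebraMap k L) '' S)).toSubmodule ≤ B from h ha π
  rw [Algebra.adjoin_eq_span, Submodule.span_le,
    show Submonoid.closure (coeffMap (algebraMap k L) '' S) =
      (Submonoid.closure S).map
        (coeffMap (algebraMap k L) : LaurentSeries k →* LaurentSeries L) from
      (MonoidHom.map_mclosure _ S).symm]
  rintro _ ⟨m, hm, rfl⟩ π
  have h1 : functionalMap π (coeffMap (algebraMap k L) m) =
      algebraMap k (LaurentSeries k) (π 1) * m := by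
    have h := functionalMap_mul_coeffMap π 1 m
    rw [one_mul] at h
    rw [h]
    congr 1
    ext n
    rw [functionalMap_coeff, algebraMap_laurentSeries_eq_single, HahnSeries.coeff_one,
      HahnSeries.coeff_single]
    split_ifs <;> simp
  show functionalMap π (coeffMap (algebraMap k L) m) ∈ _
  rw [h1]
  exact mul_mem (Subalgebra.algebraMap_mem _ _)
    ((Submonoid.closure_le.mpr Algebra.subset_adjoin :
      Submonoid.closure S ≤ (Algebra.adjoin k S).toSubmonoid) hm)

/-- A series with coefficients in `k` lying in `L(S)` lies in `k(S)`. -/
theorem mem_adjoin_of_coeffMap_mem (S : Set (LaurentSeries k)) {x : LaurentSeries k}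
    (hx : coeffMap (algebraMap k L) x ∈ IntermediateField.adjoin L (coeffMap (algebraMap k L) '' S)) :
    x ∈ IntermediateField.adjoin k S := by
  obtain ⟨r, hr, s, hs, hxrs⟩ := IntermediateField.mem_adjoin_iff_div.mp hx
  rcases eq_or_ne s 0 with rfl | hs0
  · rw [div_zero] at hxrs
    have : x = 0 := by
      ext n
      have := congrArg (fun z : LaurentSeries L => z.coeff n) hxrs
      simpa using this
    rw [this]
    exact zero_mem _
  obtain ⟨n, hn⟩ : ∃ n, s.coeff n ≠ 0 := by
    by_contra h
    push Not at h
    exact hs0 (HahnSeries.ext (funext h))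
  obtain ⟨π, hπ⟩ : ∃ π : L →ₗ[k] k, π (s.coeff n) ≠ 0 := by
    by_contra h
    push Not at h
    exact hn ((Module.forall_dual_apply_eq_zero_iff k _).mp h)
  have h : functionalMap π s * x = functionalMap π r := by
    rw [← functionalMap_mul_coeffMap, hxrs, mul_div_cancel₀ _ hs0]
  have hne : functionalMap π s ≠ 0 := fun h0 => hπ (by
    simpa using congrArg (fun z : LaurentSeries k => z.coeff n) h0)
  refine IntermediateField.mem_adjoin_iff_div.mpr ⟨_, functionalMap_mem_adjoin S hr π, _,
    functionalMap_mem_adjoin S hs π, ?_⟩
  rw [eq_div_iff hne, mul_comm, h]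

/-- Extension of coefficients maps `k(S)` into `L(S)`. -/
theorem coeffMap_mem_adjoin (S : Set (LaurentSeries k)) {x : LaurentSeries k}
    (hx : x ∈ IntermediateField.adjoin k S) :
    coeffMap (algebraMap k L) x ∈
      IntermediateField.adjoin L (coeffMap (algebraMap k L) '' S) := by
  induction hx using IntermediateField.adjoin_induction with
  | mem y hy => exact IntermediateField.subset_adjoin L _ ⟨y, hy, rfl⟩
  | algebraMap c =>
    rw [coeffMap_algebraMap']
    exact IntermediateField.algebraMap_mem _ _
  | add a b _ _ ha hb => rw [map_add]; exact add_mem ha hb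
  | inv a _ ha => rw [map_inv₀]; exact inv_mem ha
  | mul a b _ _ ha hb => rw [map_mul]; exact mul_mem ha hb

end Fermat.Agent.ModFun

end
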