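/-
The modular function field is `ℂ(j, j_N)`.
-/
import Fermat.Agent.ModFun.ModularPolynomial
import Fermat.Agent.ModFun.FieldDescent
import Fermat.Prelude.Thm_ModularCurve_coeffMap_qExpand
import Fermat.Prelude.Def_ModularCurve_ArithmeticGalois

set_option autoImplicit false

noncomputable section

open Filter Function UpperHalfPlane Complex ModularCurve IntermediateField CongruenceSubgroup
open scoped Topology Manifold MatrixGroups

namespace Fermat.Agent.ModFun

variable {N : ℕ} [NeZero N]

/-- Functions equal on punctured neighbourhoods of all points agree near `i∞`, where both are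
analytic. -/
theorem eventuallyEq_of_eqPunct {h : ℕ} [NeZero h] {f g : ℍ → ℂ} {x : LaurentSeries ℂ}
    (hfg : EqPunct f g) (hx : HasQExp h g x) (hf : MeroH f) :
    nfH f =ᶠ[atImInfty] g := by
  filter_upwards [hx.eventually_analyticAt] with τ hg
  have h0 : 0 ≤ ordH f τ := by
    rw [hfg.ordH_eq τ]
    exact hg.meromorphicOrderAt_nonneg
  have ha := analyticAt_nfH hf h0
  have := (ha.frequently_eq_iff_eventually_eq hg).1 (((eqPunct_nfH hf).trans hfg) τ).frequently
  simpa using this.self_of_nhds

theorem hasQExp_nfH {h : ℕ} [NeZero h] {f : ℍ → ℂ} {x : LaurentSeries ℂ} (hx : HasQExp h f x)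
    (hf : MeroH f) : HasQExp h (nfH f) x :=
  hx.congr (eventuallyEq_of_eqPunct (EqPunct.refl f) hx hf).symm

/-- A modular function is determined by its expansion at `i∞`. -/
theorem eqPunct_of_hasQExp {f g : ℍ → ℂ} {x : LaurentSeries ℂ} (hf : IsModularFun N f)
    (hg : IsModularFun N g) (hx : HasQExp 1 f x) (hy : HasQExp 1 g x) : EqPunct f g := by
  have hd : IsModularFun N (f - g) := hf.sub hg
  have h0 : HasQExp 1 (f - g) 0 := by
    have := hx.sub hy
    rwa [sub_self] at this
  have htop : ∀ τ : ℍ, ordH (f - g) τ = ⊤ := by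
    obtain ⟨A, hA⟩ := (atImInfty_mem _).1 h0.eventually_eq_zero
    intro τ
    by_contra hne
    have hconn : IsPreconnected upperHalfPlaneSet := (convex_halfSpace_im_gt 0).isPreconnected
    refine MeromorphicOn.meromorphicOrderAt_ne_top_of_isPreconnected hd.mero hconn
      (y := ((max A 0 + 1 : ℝ) : ℂ) * Complex.I) τ.im_pos ?_ hne ?_
    · show (0 : ℝ) < _
      simp
      positivity
    · rw [meromorphicOrderAt_eq_top_iff]
      have hopen : {z : ℂ | max A 0 < z.im} ∈ 𝓝 (((max A 0 + 1 : ℝ) : ℂ) * Complex.I) :=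
        (isOpen_lt continuous_const Complex.continuous_im).mem_nhds (by
          show max A 0 < _
          simp)
      filter_upwards [mem_nhdsWithin_of_mem_nhds hopen] with z hz
      have hz' : max A 0 < z.im := hz
      rw [Function.comp_apply, ofComplex_apply_of_im_pos (lt_of_le_of_lt (le_max_right A 0) hz')]
      exact hA ⟨z, _⟩ (le_trans (le_max_left A 0) hz'.le)
  intro τ
  have := meromorphicOrderAt_eq_top_iff.1 (htop τ)
  filter_upwards [this] with z hz
  exact sub_eq_zero.1 hz

theorem mem_modularFunctionFieldC_of_hasQExp {f : ℍ → ℂ} {x : LaurentSeries ℂ}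
    (hf : IsModularFun N f) (hx : HasQExp 1 f x) : x ∈ modularFunctionFieldC ℂ N := by
  obtain ⟨P, hP, hhol⟩ := exists_polynomial_mul_mdifferentiable hf
  have hjf : ∀ Q : Polynomial ℂ, IsModularFun N (fun τ => Q.eval (jfun τ)) ∧
      HasQExp 1 (fun τ => Q.eval (jfun τ)) (Polynomial.aeval (jqModC ℂ) Q) := by
    intro Q
    induction Q using Polynomial.induction_on' with
    | add p q hp hq =>
      obtain ⟨h1, h2⟩ := hp
      obtain ⟨h3, h4⟩ := hq
      simp only [Polynomial.eval_add, map_add]
      exact ⟨h1.add h3, h2.add h4⟩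
    | monomial n c =>
      simp only [Polynomial.eval_monomial, Polynomial.aeval_monomial]
      refine ⟨(IsModularFun.const c).mul ?_, ?_⟩
      · induction n with
        | zero => simpa using IsModularFun.const (1 : ℂ)
        | succ n ih =>
          simp only [pow_succ]
          exact ih.mul (isModularFun_jfun N)
      · have h1 := (HasQExp.const (h := 1) c).mul (hasQExp_jfun.pow n)
        rw [algebraMap_laurentSeries_eq_single, ← HahnSeries.C_apply]
        exact h1
  set g : ℍ → ℂ := fun τ => P.eval (jfun τ) * f τ with hg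
  have hgm : IsModularFun N g := (hjf P).1.mul hf
  have hgx : HasQExp 1 (nfH g) (Polynomial.aeval (jqModC ℂ) P * x) :=
    hasQExp_nfH ((hjf P).2.mul hx) hgm.mero
  obtain ⟨G, -, -, hG⟩ := exists_lagrange (⊤ : Subring ℂ) (modularPolynomialData N) hgm.nfH hhol
    hgx (Subring.mem_top _) fun _ _ _ _ => Subring.mem_top _
  have hmemP : ∀ Q : Polynomial ℂ, Polynomial.aeval (jqModC ℂ) Q ∈ modularFunctionFieldC ℂ N := by
    intro Q
    induction Q using Polynomial.induction_on' with
    | add p q hp hq => rw [map_add]; exact add_mem hp hq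
    | monomial n c =>
      rw [Polynomial.aeval_monomial]
      exact mul_mem (IntermediateField.algebraMap_mem _ c) (pow_mem (jqModC_mem ℂ N) n)
  have hmemG : ∀ H : Polynomial (Polynomial ℂ), evalPair N H ∈ modularFunctionFieldC ℂ N := by
    intro H
    induction H using Polynomial.induction_on' with
    | add p q hp hq => rw [map_add]; exact add_mem hp hq
    | monomial n Q =>
      rw [evalPair, Polynomial.coe_eval₂RingHom, Polynomial.eval₂_monomial]
      exact mul_mem (hmemP Q) (pow_mem (jqNModC_mem ℂ N) n)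
  have hD := evalPair_derivative_ne_zero (modularPolynomialData N)
  have hP0 : Polynomial.aeval (jqModC ℂ) P ≠ 0 :=
    fun h0 => transcendental_jqModC ℂ ⟨P, hP.ne_zero, h0⟩
  rw [← eq_div_iff hD] at hG
  have hxeq : x = evalPair N G / evalPair N (Polynomial.derivative
      ((modularPolynomialData N).Φ.map (Polynomial.mapRingHom (Int.castRingHom ℂ)))) /
      Polynomial.aeval (jqModC ℂ) P := by
    rw [← hG, mul_div_cancel_left₀ _ hP0]
  rw [hxeq]
  exact div_mem (div_mem (hmemG G) (hmemG _)) (hmemP P)

theorem exists_isModularFun {x : LaurentSeries ℂ} (hx : x ∈ modularFunctionFieldC ℂ N) :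
    ∃ f, IsModularFun N f ∧ HasQExp 1 f x := by
  induction hx using IntermediateField.adjoin_induction with
  | mem y hy =>
    rcases hy with rfl | hy
    · exact ⟨jfun, isModularFun_jfun N, hasQExp_jfun⟩
    · rw [Set.mem_singleton_iff] at hy
      subst hy
      exact ⟨jNfun N, isModularFun_jNfun dvd_rfl, hasQExp_jNfun N⟩
  | algebraMap c =>
    refine ⟨fun _ => c, IsModularFun.const c, ?_⟩
    rw [algebraMap_laurentSeries_eq_single, ← HahnSeries.C_apply]
    exact HasQExp.const c
  | add a b _ _ ha hb =>
    obtain ⟨f, hf, hfx⟩ := ha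
    obtain ⟨g, hg, hgy⟩ := hb
    exact ⟨f + g, hf.add hg, hfx.add hgy⟩
  | inv a _ ha =>
    obtain ⟨f, hf, hfx⟩ := ha
    exact ⟨f⁻¹, hf.inv, hfx.inv⟩
  | mul a b _ _ ha hb =>
    obtain ⟨f, hf, hfx⟩ := ha
    obtain ⟨g, hg, hgy⟩ := hb
    exact ⟨f * g, hf.mul hg, hfx.mul hgy⟩

/-- The meromorphic function (in normal form) with the given expansion. -/
def toFun (x : modularFunctionFieldC ℂ N) : ℍ → ℂ :=
  nfH (exists_isModularFun x.2).choose

theorem isModularFun_toFun (x : modularFunctionFieldC ℂ N) : IsModularFun N (toFun x) :=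
  (exists_isModularFun x.2).choose_spec.1.nfH

theorem hasQExp_toFun (x : modularFunctionFieldC ℂ N) :
    HasQExp 1 (toFun x) (x : LaurentSeries ℂ) := by
  exact hasQExp_nfH (exists_isModularFun x.2).choose_spec.2
    (exists_isModularFun x.2).choose_spec.1.mero

theorem toFun_eqPunct {f : ℍ → ℂ} (x : modularFunctionFieldC ℂ N) (hf : IsModularFun N f)
    (hx : HasQExp 1 f (x : LaurentSeries ℂ)) : EqPunct (toFun x) f := by
  exact eqPunct_of_hasQExp (isModularFun_toFun x) hf (hasQExp_toFun x) hx

theorem toFun_add (x y : modularFunctionFieldC ℂ N) :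
    EqPunct (toFun (x + y)) (toFun x + toFun y) := by
  exact toFun_eqPunct _ ((isModularFun_toFun x).add (isModularFun_toFun y))
    ((hasQExp_toFun x).add (hasQExp_toFun y))

theorem toFun_mul (x y : modularFunctionFieldC ℂ N) :
    EqPunct (toFun (x * y)) (toFun x * toFun y) := by
  exact toFun_eqPunct _ ((isModularFun_toFun x).mul (isModularFun_toFun y))
    ((hasQExp_toFun x).mul (hasQExp_toFun y))

theorem toFun_inv (x : modularFunctionFieldC ℂ N) : EqPunct (toFun x⁻¹) (toFun x)⁻¹ :=
  toFun_eqPunct _ (isModularFun_toFun x).inv (by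
    rw [IntermediateField.coe_inv]
    exact (hasQExp_toFun x).inv)

theorem toFun_algebraMap (c : ℂ) :
    EqPunct (toFun (algebraMap ℂ (modularFunctionFieldC ℂ N) c)) fun _ => c := by
  refine toFun_eqPunct _ (IsModularFun.const c) ?_
  show HasQExp 1 (fun _ => c) (algebraMap ℂ (LaurentSeries ℂ) c)
  rw [algebraMap_laurentSeries_eq_single, ← HahnSeries.C_apply]
  exact HasQExp.const c

theorem toFun_jq :
    EqPunct (toFun (⟨jqModC ℂ, jqModC_mem ℂ N⟩ : modularFunctionFieldC ℂ N)) jfun := by
  exact toFun_eqPunct _ (isModularFun_jfun N) hasQExp_jfun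

theorem toFun_jqN :
    EqPunct (toFun (⟨jqNModC ℂ N, jqNModC_mem ℂ N⟩ : modularFunctionFieldC ℂ N)) (jNfun N) := by
  exact toFun_eqPunct _ (isModularFun_jNfun dvd_rfl) (hasQExp_jNfun N)

theorem ordH_toFun_ne_top {x : modularFunctionFieldC ℂ N} (hx : x ≠ 0) (τ : ℍ) :
    ordH (toFun x) τ ≠ ⊤ := by
  exact (isModularFun_toFun x).ordH_ne_top (hasQExp_toFun x) (fun h => hx (Subtype.ext h)) τ

variable (N)

theorem coeffMap_jqModC {R S : Type*} [CommRing R] [CommRing S] (φ : R →+* S) :
    coeffMap φ (jqModC R) = jqModC S :=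
  map_jqModC φ

theorem coeffMap_qExpand_jqModC {R S : Type*} [CommRing R] [CommRing S] (φ : R →+* S) (d : ℕ)
    [NeZero d] : coeffMap φ (qExpand R d (jqModC R)) = qExpand S d (jqModC S) := by
  rw [ModularCurve.coeffMap_qExpand, coeffMap_jqModC]

theorem functionFieldGeneration : FunctionFieldGeneration N := by
  intro d hd hne
  have := hne
  have h := mem_modularFunctionFieldC_of_hasQExp (isModularFun_jNfun hd) (hasQExp_jNfun d)
  refine mem_adjoin_of_coeffMap_mem (L := ℂ) _ ?_
  rw [← jqModC_rat, coeffMap_qExpand_jqModC, Set.image_insert_eq, Set.image_singleton,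
    coeffMap_jqModC, coeffMap_qExpand_jqModC]
  exact h

theorem modularFunctionFieldFull_eq : modularFunctionFieldFull N = modularFunctionField N := by
  refine le_antisymm ?_ (modularFunctionField_le_full N)
  rw [modularFunctionFieldFull, adjoin_le_iff]
  rintro x ⟨d, hne, hd, rfl⟩
  exact functionFieldGeneration N d hd hne

theorem qExpand_jqModC_mem (K : Type*) [Field K] [CharZero K] {d : ℕ} [NeZero d] (hd : d ∣ N) :
    qExpand K d (jqModC K) ∈ modularFunctionFieldC K N := by
  have h := coeffMap_mem_adjoin (L := K) {jq, qExpand ℚ N jq}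
    (functionFieldGeneration N d hd inferInstance)
  rw [← jqModC_rat, coeffMap_qExpand_jqModC, Set.image_insert_eq, Set.image_singleton,
    coeffMap_jqModC, coeffMap_qExpand_jqModC] at h
  exact h

theorem modularFunctionFieldFullC_eq (K : Type*) [Field K] [CharZero K] :
    modularFunctionFieldFullC K N = modularFunctionFieldC K N := by
  refine le_antisymm ?_ (modularFunctionFieldC_le_full K N)
  rw [modularFunctionFieldFullC, adjoin_le_iff]
  rintro x ⟨d, hne, hd, rfl⟩
  exact qExpand_jqModC_mem N K hd

theorem laurentBaseChange_full_eq (L : Type*) [Field L] [CharZero L] [Algebra ℚ L] :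
    laurentBaseChange L (modularFunctionFieldFull N) = modularFunctionFieldC L N := by
  refine le_antisymm ?_ ?_
  · rw [laurentBaseChange, adjoin_le_iff]
    rintro _ ⟨x, hx, rfl⟩
    rw [modularFunctionFieldFull_eq] at hx
    have h := coeffMap_mem_adjoin (L := L) {jq, qExpand ℚ N jq} hx
    rw [← jqModC_rat, Set.image_insert_eq, Set.image_singleton, coeffMap_jqModC,
      coeffMap_qExpand_jqModC] at h
    exact h
  · rw [modularFunctionFieldC, adjoin_le_iff]
    have h1 := coeffEmb_mem_laurentBaseChange L (F₀ := modularFunctionFieldFull N)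
      (modularFunctionField_le_full N (jq_mem N))
    have h2 := coeffEmb_mem_laurentBaseChange L (F₀ := modularFunctionFieldFull N)
      (modularFunctionField_le_full N (jqN_mem N))
    rw [coeffEmb, ← jqModC_rat, coeffMap_jqModC] at h1
    rw [coeffEmb, ← jqModC_rat, coeffMap_qExpand_jqModC] at h2
    rintro x (rfl | rfl)
    · exact h1
    · exact h2

theorem coeffMap_mem_modularFunctionFieldC (ι : AlgebraicClosure ℚ →+* ℂ)
    {x : LaurentSeries (AlgebraicClosure ℚ)} (hx : x ∈ modularFunctionFieldBar N) :
    coeffMap ι x ∈ modularFunctionFieldC ℂ N := by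
  let := ι.toAlgebra
  rw [modularFunctionFieldBar, laurentBaseChange_full_eq] at hx
  have h := coeffMap_mem_adjoin (L := ℂ) {jqModC (AlgebraicClosure ℚ),
    jqNModC (AlgebraicClosure ℚ) N} hx
  rw [Set.image_insert_eq, Set.image_singleton, coeffMap_jqModC, jqNModC,
    coeffMap_qExpand_jqModC] at h
  exact h

/-- The embedding of the arithmetic modular function field into the analytic one. -/
def barToC (ι : AlgebraicClosure ℚ →+* ℂ) :
    modularFunctionFieldBar N →+* modularFunctionFieldC ℂ N :=
  ((coeffMap ι).comp (modularFunctionFieldBar N).val.toRingHom).codRestrict _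
    fun x => coeffMap_mem_modularFunctionFieldC N ι x.2

theorem barToC_injective (ι : AlgebraicClosure ℚ →+* ℂ) : Function.Injective (barToC N ι) := by
  intro x y h
  refine Subtype.ext (HahnSeries.ext (funext fun n => ι.injective ?_))
  exact congrArg (fun z : modularFunctionFieldC ℂ N => (z : LaurentSeries ℂ).coeff n) h

end Fermat.Agent.ModFun

end
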